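/-
Spectral decomposition of a commuting family of integral matrices generating a reduced algebra,
over a ring of algebraic integers which is finite over `ℤ`.
-/
import Mathlib.LinearAlgebra.Eigenspace.Pi
import Mathlib.LinearAlgebra.Eigenspace.Semisimple
import Mathlib.LinearAlgebra.Eigenspace.Triangularizable
import Mathlib.LinearAlgebra.Semisimple
import Mathlib.LinearAlgebra.Matrix.ToLin
import Mathlib.FieldTheory.IsAlgClosed.AlgebraicClosure
import Mathlib.FieldTheory.Perfect
import Mathlib.RingTheory.Adjoin.Basic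
import Mathlib.RingTheory.Finiteness.Basic

set_option autoImplicit false

noncomputable section

namespace Fermat.Agent.Mazur.Descent

open Polynomial Module

local notation "ℚ̄" => AlgebraicClosure ℚ

variable {ι : Type} {R : ℕ} (H : ι → Matrix (Fin R) (Fin R) ℤ)

/-- A member of the family acting on `ℚ̄ ^ R`. -/
def qbarEnd (i : ι) : Module.End ℚ̄ (Fin R → ℚ̄) :=
  Matrix.toLinAlgEquiv' ((H i).map (Int.castRingHom ℚ̄))

variable {H}

theorem qbarEnd_isSemisimple (hred : IsReduced ↥(Algebra.adjoin ℤ (Set.range H))) (i : ι) :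
    (qbarEnd H i).IsSemisimple := by
  set M : Matrix (Fin R) (Fin R) ℚ := (H i).map (Int.castRingHom ℚ) with hM
  set B := Algebra.adjoin ℚ ({M} : Set (Matrix (Fin R) (Fin R) ℚ))
  set g : Matrix (Fin R) (Fin R) ℤ →+* Matrix (Fin R) (Fin R) ℚ :=
    (Int.castRingHom ℚ).mapMatrix with hg
  have hden : ∀ x ∈ B, ∃ n : ℤ, n ≠ 0 ∧
      ∃ a ∈ Algebra.adjoin ℤ (Set.range H), n • x = g a := by
    intro x hx
    induction hx using Algebra.adjoin_induction with
    | mem x hx =>
      exact ⟨1, one_ne_zero, H i, Algebra.subset_adjoin ⟨i, rfl⟩,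
        by rw [Set.mem_singleton_iff.mp hx, one_smul]; rfl⟩
    | algebraMap q =>
      refine ⟨q.den, by exact_mod_cast q.den_ne_zero, q.num • 1, zsmul_mem (one_mem _) _, ?_⟩
      rw [map_zsmul, map_one, Algebra.algebraMap_eq_smul_one,
        ← Int.cast_smul_eq_zsmul ℚ, ← Int.cast_smul_eq_zsmul ℚ q.num, smul_smul]
      push_cast
      rw [mul_comm, Rat.mul_den_eq_num]
    | add x y _ _ hx hy =>
      obtain ⟨n, hn, a, ha, hxa⟩ := hx
      obtain ⟨m, hm, b, hb, hyb⟩ := hy
      refine ⟨n * m, mul_ne_zero hn hm, m • a + n • b,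
        add_mem (zsmul_mem ha _) (zsmul_mem hb _), ?_⟩
      rw [map_add, map_zsmul, map_zsmul, ← hxa, ← hyb, smul_add, smul_smul, smul_smul,
        mul_comm m n]
    | mul x y _ _ hx hy =>
      obtain ⟨n, hn, a, ha, hxa⟩ := hx
      obtain ⟨m, hm, b, hb, hyb⟩ := hy
      refine ⟨n * m, mul_ne_zero hn hm, a * b, mul_mem ha hb, ?_⟩
      rw [map_mul, ← hxa, ← hyb, smul_mul_assoc, mul_smul_comm, smul_smul]
  have hginj : Function.Injective g := fun a b h => Matrix.map_injective Int.cast_injective h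
  haveI : IsReduced B := ⟨fun x hx => by
    obtain ⟨k, hk⟩ := hx
    obtain ⟨n, hn, a, ha, hxa⟩ := hden x.1 x.2
    have hak : (⟨a, ha⟩ : ↥(Algebra.adjoin ℤ (Set.range H))) ^ k = 0 := by
      apply Subtype.ext
      refine hginj ?_
      change g (a ^ k) = g 0
      rw [map_pow, map_zero, ← hxa, smul_pow, ← SubmonoidClass.coe_pow, hk]
      simp
    have h0 : a = 0 := congrArg Subtype.val (hred.eq_zero _ ⟨k, hak⟩)
    rw [h0, map_zero, ← Int.cast_smul_eq_zsmul ℚ, smul_eq_zero] at hxa
    exact Subtype.ext (hxa.resolve_left (Int.cast_ne_zero.mpr hn))⟩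
  let y : B := ⟨M, Algebra.self_mem_adjoin_singleton ℚ M⟩
  have hy : IsIntegral ℚ y :=
    haveI : Module.Finite ℚ B := FiniteDimensional.finiteDimensional_submodule (Subalgebra.toSubmodule B)
    Algebra.IsIntegral.isIntegral y
  have hsq : Squarefree (minpoly ℚ y) :=
    (minpoly.isRadical ℚ y).squarefree (minpoly.ne_zero hy)
  have hsq' : Squarefree ((minpoly ℚ y).map (algebraMap ℚ ℚ̄)) :=
    ((PerfectField.separable_iff_squarefree.mpr hsq).map).squarefree
  refine Module.End.isSemisimple_of_squarefree_aeval_eq_zero hsq' ?_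
  rw [aeval_map_algebraMap]
  let φ : Matrix (Fin R) (Fin R) ℚ →ₐ[ℚ] Module.End ℚ̄ (Fin R → ℚ̄) :=
    ((Matrix.toLinAlgEquiv' (R := ℚ̄)).restrictScalars ℚ).toAlgHom.comp
      (Algebra.ofId ℚ ℚ̄).mapMatrix
  have hφ : qbarEnd H i = φ (B.val y) := by
    change Matrix.toLinAlgEquiv' _ = Matrix.toLinAlgEquiv' ((M.map (algebraMap ℚ ℚ̄)))
    congr 1
  rw [hφ, aeval_algHom_apply, aeval_algHom_apply, minpoly.aeval, map_zero, map_zero]

/-- Products of `H i - c i` over an arbitrary list of indices, as matrices over a ring. -/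
def diffProd {O : Type} [CommRing O] (H : ι → Matrix (Fin R) (Fin R) ℤ) :
    List (ι × O) → Matrix (Fin R) (Fin R) O
  | [] => 1
  | (i, a) :: l => ((H i).map (Int.castRingHom O) - a • 1) * diffProd H l

theorem diffProd_mulVec {O : Type} [CommRing O] {c : ι → O} {v : Fin R → O}
    (hv : ∀ i, ((H i).map (Int.castRingHom O)).mulVec v = c i • v) :
    ∀ l : List (ι × O), (diffProd H l).mulVec v = (l.map fun p => c p.1 - p.2).prod • v
  | [] => by simp [diffProd]
  | (i, a) :: l => by
    rw [diffProd, ← Matrix.mulVec_mulVec, diffProd_mulVec hv l, Matrix.mulVec_smul,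
      Matrix.sub_mulVec, hv i, Matrix.smul_mulVec, Matrix.one_mulVec, ← sub_smul, smul_smul,
      List.map_cons, List.prod_cons, mul_comm]

theorem diffProd_map {O O' : Type} [CommRing O] [CommRing O'] (f : O →+* O') :
    ∀ l : List (ι × O), (diffProd H l).map f = diffProd H (l.map fun p => (p.1, f p.2))
  | [] => by simp [diffProd]
  | (i, a) :: l => by
    rw [diffProd, List.map_cons, diffProd, ← diffProd_map f l]
    change f.mapMatrix (((H i).map (Int.castRingHom O) - a • 1) * diffProd H l) = _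
    rw [map_mul, map_sub]
    congr 1
    congr 1
    · ext p q; simp
    · ext p q; simp [Matrix.smul_apply, Matrix.one_apply, apply_ite f]

theorem diffProd_mem_adjoin {O : Type} [CommRing O] :
    ∀ l : List (ι × O),
      diffProd H l ∈ Algebra.adjoin O (Set.range fun i => (H i).map (Int.castRingHom O))
  | [] => one_mem _
  | (i, a) :: l => mul_mem (sub_mem (Algebra.subset_adjoin ⟨i, rfl⟩)
      (Subalgebra.smul_mem _ (one_mem _) a)) (diffProd_mem_adjoin l)

/-- Spectral decomposition, integrally: systems of eigenvalues in a ring finite over `ℤ` and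
unnormalised projectors which add up to a nonzero scalar. -/
theorem exists_spectral (hH : ∀ i j, H i * H j = H j * H i)
    (hred : IsReduced ↥(Algebra.adjoin ℤ (Set.range H))) :
    ∃ (R' : Subalgebra ℤ ℚ̄) (T : Finset (ι → R'))
      (π : (ι → R') → Matrix (Fin R) (Fin R) R') (D : R'),
      Module.Finite ℤ R' ∧ D ≠ 0 ∧ ∑ c ∈ T, π c = D • 1 ∧
      ∀ c ∈ T, π c ≠ 0 ∧ π c ∈ Algebra.adjoin R' (Set.range fun i => (H i).map (Int.castRingHom R'))
        ∧ ∀ i, ((H i).map (Int.castRingHom R') - c i • 1) * π c = 0 := by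
  classical
  set W : (ι → ℚ̄) → Submodule ℚ̄ (Fin R → ℚ̄) := fun c =>
    ⨅ i, (qbarEnd H i).maxGenEigenspace (c i) with hW
  have hcomm : Pairwise fun i j => Commute (qbarEnd H i) (qbarEnd H j) := fun i j _ => by
    refine Commute.map (f := Matrix.toLinAlgEquiv' (R := ℚ̄)) ?_
    exact (show Commute (H i) (H j) from hH i j).map (Int.castRingHom ℚ̄).mapMatrix
  have hmaps : ∀ i j φ, Set.MapsTo (qbarEnd H i) ((qbarEnd H j).maxGenEigenspace φ)
      ((qbarEnd H j).maxGenEigenspace φ) := fun i j => by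
    refine Module.End.mapsTo_maxGenEigenspace_of_comm ?_
    rcases eq_or_ne j i with rfl | h
    · rfl
    · exact hcomm h
  have htop : ⨆ c, W c = ⊤ :=
    Module.End.iSup_iInf_maxGenEigenspace_eq_top_of_iSup_maxGenEigenspace_eq_top_of_commute _
      hcomm fun i => Module.End.iSup_maxGenEigenspace_eq_top _
  have hfin : {c | W c ≠ ⊥}.Finite :=
    WellFoundedGT.finite_ne_bot_of_iSupIndep
      (Module.End.independent_iInf_maxGenEigenspace_of_forall_mapsTo _ hmaps)
  have heig : ∀ c, ∀ v ∈ W c, ∀ i, ((H i).map (Int.castRingHom ℚ̄)).mulVec v = c i • v := by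
    intro c v hv i
    have h := (Submodule.mem_iInf _).mp hv i
    rw [(qbarEnd_isSemisimple hred i).isFinitelySemisimple.maxGenEigenspace_eq_eigenspace,
      Module.End.mem_eigenspace_iff] at h
    rw [← h, qbarEnd, Matrix.toLinAlgEquiv'_apply]
  choose vec hvec hvec0 using fun c : {c // W c ≠ ⊥} => Submodule.exists_mem_ne_zero_of_ne_bot c.2
  let act : Matrix (Fin R) (Fin R) ℤ → (Fin R → ℚ̄) → (Fin R → ℚ̄) := fun a v =>
    ((Int.castRingHom ℚ̄).mapMatrix a).mulVec v
  let Rc : {c // W c ≠ ⊥} → Subalgebra ℤ ℚ̄ := fun c =>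
    { carrier := {s | ∃ a ∈ Algebra.adjoin ℤ (Set.range H), act a (vec c) = s • vec c}
      mul_mem' := by
        rintro s t ⟨a, ha, has⟩ ⟨b, hb, hbt⟩
        refine ⟨a * b, mul_mem ha hb, ?_⟩
        simp only [act] at has hbt ⊢
        rw [map_mul, ← Matrix.mulVec_mulVec, hbt, Matrix.mulVec_smul, has, smul_smul, mul_comm]
      add_mem' := by
        rintro s t ⟨a, ha, has⟩ ⟨b, hb, hbt⟩
        refine ⟨a + b, add_mem ha hb, ?_⟩
        simp only [act] at has hbt ⊢
        rw [map_add, Matrix.add_mulVec, has, hbt, add_smul]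
      algebraMap_mem' := fun n => by
        refine ⟨n • 1, zsmul_mem (one_mem _) _, ?_⟩
        simp only [act]
        rw [map_zsmul, map_one, Matrix.smul_mulVec, Matrix.one_mulVec, eq_intCast,
          Int.cast_smul_eq_zsmul] }
  have hRcfin : ∀ c, Module.Finite ℤ (Rc c) := by
    intro c
    obtain ⟨j, hj⟩ := Function.ne_iff.mp (hvec0 c)
    let φ : Matrix (Fin R) (Fin R) ℤ →ₗ[ℤ] ℚ̄ :=
      { toFun := fun a => act a (vec c) j / vec c j
        map_add' := fun a b => by
          simp only [act, map_add, Matrix.add_mulVec, Pi.add_apply, add_div]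
        map_smul' := fun n a => by
          simp only [act, map_zsmul, Matrix.smul_mulVec, Pi.smul_apply, RingHom.id_apply,
            smul_div_assoc] }
    show Module.Finite ℤ (Subalgebra.toSubmodule (Rc c))
    refine Module.Finite.iff_fg.mpr (Submodule.FG.of_le (Module.Finite.iff_fg.mp
      (inferInstance : Module.Finite ℤ (LinearMap.range φ))) ?_)
    rintro s ⟨a, -, has⟩
    refine ⟨a, ?_⟩
    simp only [φ, LinearMap.coe_mk, AddHom.coe_mk, has, Pi.smul_apply, smul_eq_mul]
    rw [mul_div_assoc, div_self hj, mul_one]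
  haveI : Fintype {c // W c ≠ ⊥} := hfin.fintype
  let R' : Subalgebra ℤ ℚ̄ := Finset.univ.sup Rc
  have hR'fin : Module.Finite ℤ R' := by
    show Module.Finite ℤ (Finset.univ.sup Rc : Subalgebra ℤ ℚ̄)
    induction (Finset.univ : Finset {c // W c ≠ ⊥}) using Finset.induction with
    | empty => rw [Finset.sup_empty]; exact Subalgebra.finite_bot
    | insert c s _ ih =>
      rw [Finset.sup_insert]
      have := hRcfin c
      exact Subalgebra.finite_sup _ _
  have hmem : ∀ (c : {c // W c ≠ ⊥}) i, c.1 i ∈ R' := fun c i =>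
    (Finset.le_sup (Finset.mem_univ c) : Rc c ≤ R')
      ⟨H i, Algebra.subset_adjoin ⟨i, rfl⟩, heig c.1 _ (hvec c) i⟩
  let sys : {c // W c ≠ ⊥} → (ι → R') := fun c i => ⟨c.1 i, hmem c i⟩
  have hsys : Function.Injective sys := fun c d h =>
    Subtype.ext (funext fun i => congrArg Subtype.val (congrFun h i))
  let T : Finset (ι → R') := Finset.univ.image sys
  let idx : (ι → R') → (ι → R') → Option ι := fun c d =>
    if h : ∃ i, c i ≠ d i then some h.choose else none
  let L : (ι → R') → List (ι × R') := fun c =>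
    (T.erase c).toList.filterMap fun d => (idx c d).map fun i => (i, d i)
  have hL0 : ∀ c, ((L c).map fun p => c p.1 - p.2).prod ≠ 0 := by
    intro c h
    rw [List.prod_eq_zero_iff, List.mem_map] at h
    obtain ⟨⟨i, a⟩, hp, h0⟩ := h
    simp only [L, List.mem_filterMap, Option.map_eq_some_iff] at hp
    obtain ⟨d, -, i', hi', hia⟩ := hp
    obtain ⟨rfl, rfl⟩ := Prod.mk.injEq .. ▸ hia
    simp only [idx] at hi'
    split_ifs at hi' with hex
    obtain rfl := Option.some.inj hi'
    exact hex.choose_spec (sub_eq_zero.mp h0)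
  have hLzero : ∀ c d, d ∈ T → d ≠ c → ((L c).map fun p => d p.1 - p.2).prod = 0 := by
    intro c d hd hdc
    rw [List.prod_eq_zero_iff, List.mem_map]
    have hex : ∃ i, c i ≠ d i := Function.ne_iff.mp hdc.symm
    refine ⟨(hex.choose, d hex.choose), ?_, sub_self _⟩
    simp only [L, List.mem_filterMap]
    exact ⟨d, Finset.mem_toList.mpr (Finset.mem_erase.mpr ⟨hdc, hd⟩),
      by simp only [idx, dif_pos hex, Option.map_some]⟩
  let s : (ι → R') → R' := fun c => ∏ d ∈ T.erase c, ((L d).map fun p => d p.1 - p.2).prod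
  let π : (ι → R') → Matrix (Fin R) (Fin R) R' := fun c => s c • diffProd H (L c)
  let D : R' := ∏ d ∈ T, ((L d).map fun p => d p.1 - p.2).prod
  -- evaluation on eigenvectors
  let f : R' →+* ℚ̄ := R'.val.toRingHom
  have hev : ∀ (c : ι → R') (d : {c // W c ≠ ⊥}) (v : Fin R → ℚ̄), v ∈ W d.1 →
      ((π c).map f).mulVec v = f (s c * ((L c).map fun p => sys d p.1 - p.2).prod) • v := by
    intro c d v hv
    have h1 : (π c).map f = f (s c) • (diffProd H (L c)).map f := by
      ext p q; simp [π]
    rw [h1, Matrix.smul_mulVec, diffProd_map, diffProd_mulVec (heig d.1 v hv), smul_smul, map_mul,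
      List.map_map, map_list_prod, List.map_map]
    congr 2
  have hext : ∀ M M' : Matrix (Fin R) (Fin R) R',
      (∀ (d : {c // W c ≠ ⊥}) v, v ∈ W d.1 → (M.map f).mulVec v = (M'.map f).mulVec v) →
      M = M' := by
    intro M M' h
    apply Matrix.map_injective (f := f) Subtype.val_injective
    apply Matrix.toLin'.injective
    refine LinearMap.ext fun v => ?_
    have hv : v ∈ ⨆ c, W c := htop ▸ Submodule.mem_top
    induction hv using Submodule.iSup_induction' with
    | mem c v hv =>
      rcases eq_or_ne (W c) ⊥ with hc | hc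
      · rw [hc, Submodule.mem_bot] at hv; rw [hv, map_zero, map_zero]
      · exact h ⟨c, hc⟩ v hv
    | zero => rw [map_zero, map_zero]
    | add x y _ _ hx hy => rw [map_add, map_add, hx, hy]
  refine ⟨R', T, π, D, hR'fin, Finset.prod_ne_zero_iff.mpr fun d _ => hL0 d,
    hext _ _ fun d v hv => ?_, fun c hc => ⟨?_, ?_, fun i => hext _ _ fun d v hv => ?_⟩⟩
  · have hd : sys d ∈ T := Finset.mem_image_of_mem _ (Finset.mem_univ d)
    change (f.mapMatrix (∑ c ∈ T, π c)).mulVec v = (f.mapMatrix (D • 1)).mulVec v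
    rw [map_sum, Matrix.sum_mulVec, Finset.sum_eq_single (sys d) (fun c hc hne => ?_)
      (fun h => absurd hd h)]
    · change ((π (sys d)).map f).mulVec v = _
      rw [hev _ d v hv, show f.mapMatrix (D • (1 : Matrix (Fin R) (Fin R) R')) = f D • 1 by
        ext p q; simp [Matrix.one_apply, apply_ite f], Matrix.smul_mulVec, Matrix.one_mulVec]
      simp only [D, s]
      rw [← Finset.prod_erase_mul T _ hd]
    · change ((π c).map f).mulVec v = 0
      rw [hev _ d v hv, hLzero c (sys d) hd (Ne.symm hne), mul_zero, map_zero, zero_smul]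
  · intro h0
    obtain ⟨d, -, rfl⟩ := Finset.mem_image.mp hc
    have h := hev (sys d) d (vec d) (hvec d)
    rw [h0, Matrix.map_zero _ (map_zero f), Matrix.zero_mulVec, eq_comm, smul_eq_zero,
      map_eq_zero_iff f Subtype.val_injective, mul_eq_zero] at h
    rcases h with (h | h) | h
    · exact Finset.prod_ne_zero_iff.mpr (fun e _ => hL0 e) h
    · exact hL0 _ h
    · exact hvec0 d h
  · exact Subalgebra.smul_mem _ (diffProd_mem_adjoin _) _
  · rw [Matrix.map_zero _ (map_zero f), Matrix.zero_mulVec]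
    change (f.mapMatrix (((H i).map (Int.castRingHom R') - c i • 1) * π c)).mulVec v = 0
    rw [map_mul, ← Matrix.mulVec_mulVec]
    change (f.mapMatrix _).mulVec (((π c).map f).mulVec v) = 0
    rw [hev c d v hv, Matrix.mulVec_smul]
    rcases eq_or_ne (sys d) c with hdc | hdc
    · rw [map_sub, show f.mapMatrix ((H i).map (Int.castRingHom R')) =
          (H i).map (Int.castRingHom ℚ̄) by ext p q; simp,
        show f.mapMatrix (c i • (1 : Matrix (Fin R) (Fin R) R')) = f (c i) • 1 by
          ext p q; simp [Matrix.one_apply, apply_ite f],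
        Matrix.sub_mulVec, heig d.1 v hv i, Matrix.smul_mulVec, Matrix.one_mulVec, ← sub_smul,
        ← hdc, show d.1 i - f (sys d i) = 0 from sub_self _, zero_smul, smul_zero]
    · rw [hLzero c (sys d) (Finset.mem_image_of_mem _ (Finset.mem_univ d)) hdc, mul_zero,
        map_zero, zero_smul]

end Fermat.Agent.Mazur.Descent
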