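/-
Selection of an eigen component congruent to the Eisenstein system and not contained in a given
saturated submodule. Pure linear algebra.
-/
import Fermat.Agent.EichlerShimura.PadicEnd
import Fermat.Agent.EichlerShimura.FiniteDVR
import Fermat.Agent.BadPrime.Embed
import Fermat.Agent.Mazur.Descent.ComponentSpectral
import Mathlib.RingTheory.Nilpotent.Defs
import Mathlib.RingTheory.DiscreteValuationRing.Basic

set_option autoImplicit false

noncomputable section

namespace Fermat.Agent.Mazur.Descent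

open EichlerShimura (padicToRing)

variable {r : ℕ} [Fact r.Prime] {R : ℕ}

/-- The `O`-span of a `ℤ_r`-submodule of coordinate vectors. -/
def coeffSubmodule {O : Type} [CommRing O] [IsLocalRing O]
    [IsAdicComplete (IsLocalRing.maximalIdeal O) O] (hrO : (r : O) ∈ IsLocalRing.maximalIdeal O)
    (K : Submodule ℤ_[r] (Fin R → ℤ_[r])) : Submodule O (Fin R → O) :=
  Submodule.span O ((fun z => padicToRing hrO ∘ z) '' (K : Set (Fin R → ℤ_[r])))

/-- A saturated submodule of `ℤ_r ^ R` is the kernel of an idempotent matrix. -/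
theorem exists_projection (K : Submodule ℤ_[r] (Fin R → ℤ_[r]))
    (hsat : ∀ z : Fin R → ℤ_[r], (r : ℤ_[r]) • z ∈ K → z ∈ K) :
    ∃ P : Matrix (Fin R) (Fin R) ℤ_[r],
      (∀ z, z ∈ K ↔ P.mulVec z = 0) ∧ ∀ z, P.mulVec (P.mulVec z) = P.mulVec z := by
  have hrad : ∀ n : ℕ, ∀ z : Fin R → ℤ_[r], (r : ℤ_[r]) ^ n • z ∈ K → z ∈ K := by
    intro n
    induction n with
    | zero => intro z hz; simpa using hz
    | succ n ih =>
      intro z hz
      rw [pow_succ, mul_smul] at hz
      exact hsat z (ih _ hz)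
  haveI : Module.IsTorsionFree ℤ_[r] ((Fin R → ℤ_[r]) ⧸ K) := by
    refine .of_smul_eq_zero fun a x hx => or_iff_not_imp_left.mpr fun ha => ?_
    obtain ⟨z, rfl⟩ := K.mkQ_surjective x
    rw [← map_smul, Submodule.mkQ_apply, Submodule.Quotient.mk_eq_zero,
      PadicInt.unitCoeff_spec ha, mul_comm, mul_smul] at hx
    rw [Submodule.mkQ_apply, Submodule.Quotient.mk_eq_zero]
    exact (K.smul_mem_iff' (PadicInt.unitCoeff ha)).mp (hrad _ _ hx)
  haveI : Module.Free ℤ_[r] ((Fin R → ℤ_[r]) ⧸ K) := Module.free_of_finite_type_torsion_free'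
  obtain ⟨s, hs⟩ := Module.projective_lifting_property K.mkQ LinearMap.id K.mkQ_surjective
  have hs' : ∀ q, K.mkQ (s q) = q := fun q => DFunLike.congr_fun hs q
  refine ⟨LinearMap.toMatrix' (s ∘ₗ K.mkQ), fun z => ?_, fun z => ?_⟩ <;>
    simp only [LinearMap.toMatrix'_mulVec, LinearMap.comp_apply]
  · rw [← Submodule.Quotient.mk_eq_zero, ← Submodule.mkQ_apply]
    refine ⟨fun h => by rw [h, map_zero], fun h => ?_⟩
    rw [← hs' (K.mkQ z), h, map_zero]
  · rw [hs']

section Coeff

variable {O : Type} [CommRing O] [IsLocalRing O] [IsAdicComplete (IsLocalRing.maximalIdeal O) O]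
  (hrO : (r : O) ∈ IsLocalRing.maximalIdeal O)

theorem map_mulVec_padicToRing (P : Matrix (Fin R) (Fin R) ℤ_[r]) (z : Fin R → ℤ_[r]) :
    (P.map (padicToRing hrO)).mulVec (padicToRing hrO ∘ z) = padicToRing hrO ∘ P.mulVec z :=
  funext fun j => (RingHom.map_mulVec (padicToRing hrO) P z j).symm

theorem mem_coeffSubmodule_iff {K : Submodule ℤ_[r] (Fin R → ℤ_[r])}
    {P : Matrix (Fin R) (Fin R) ℤ_[r]} (hK : ∀ z, z ∈ K ↔ P.mulVec z = 0)
    (hP : ∀ z, P.mulVec (P.mulVec z) = P.mulVec z) (v : Fin R → O) :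
    v ∈ coeffSubmodule hrO K ↔ (P.map (padicToRing hrO)).mulVec v = 0 := by
  constructor
  · intro hv
    induction hv using Submodule.span_induction with
    | mem x hx =>
      obtain ⟨z, hz, rfl⟩ := hx
      rw [map_mulVec_padicToRing, (hK z).mp hz]
      funext j; simp
    | zero => exact Matrix.mulVec_zero _
    | add x y _ _ hx hy => rw [Matrix.mulVec_add, hx, hy, add_zero]
    | smul a x _ hx => rw [Matrix.mulVec_smul, hx, smul_zero]
  · intro hv
    have key : v = ∑ j, v j •
        (padicToRing hrO ∘ (Pi.single j 1 - P.mulVec (Pi.single j (1 : ℤ_[r])))) := by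
      funext i
      have h := congrFun hv i
      simp only [Matrix.mulVec, dotProduct, Matrix.map_apply, Pi.zero_apply] at h
      simp only [Finset.sum_apply, Pi.smul_apply, Function.comp_apply, Pi.sub_apply, map_sub,
        smul_eq_mul, Matrix.mulVec_single_one, Matrix.col_apply, mul_sub, Finset.sum_sub_distrib]
      rw [Finset.sum_congr rfl fun j _ => mul_comm (v j) (padicToRing hrO (P i j)), h, sub_zero,
        Finset.sum_eq_single i (fun j _ hj => by rw [Pi.single_eq_of_ne' hj, map_zero, mul_zero])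
          (fun h => absurd (Finset.mem_univ i) h), Pi.single_eq_same, map_one, mul_one]
    rw [key]
    refine Submodule.sum_mem _ fun j _ => Submodule.smul_mem _ _ (Submodule.subset_span ⟨_, ?_, rfl⟩)
    refine (hK _).mpr ?_
    rw [Matrix.mulVec_sub, hP, sub_self]

end Coeff

theorem mem_coeffSubmodule_of_smul {O : Type} [CommRing O] [IsDomain O]
    [IsDiscreteValuationRing O] [IsAdicComplete (IsLocalRing.maximalIdeal O) O] [CharZero O]
    (hrO : (r : O) ∈ IsLocalRing.maximalIdeal O)
    (K : Submodule ℤ_[r] (Fin R → ℤ_[r]))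
    (hsat : ∀ z : Fin R → ℤ_[r], (r : ℤ_[r]) • z ∈ K → z ∈ K)
    {a : O} (ha : a ≠ 0) {v : Fin R → O} (hv : a • v ∈ coeffSubmodule hrO K) :
    v ∈ coeffSubmodule hrO K := by
  obtain ⟨P, hK, hP⟩ := exists_projection K hsat
  rw [mem_coeffSubmodule_iff hrO hK hP] at hv ⊢
  rw [Matrix.mulVec_smul, smul_eq_zero] at hv
  exact hv.resolve_left ha

/-- Reduced commuting integral matrices `H` and an `r`-adic vector `w`, outside `K` modulo
`r ^ k`, which is an eigenvector modulo `r ^ k` for the indices in `S`: after a finite extension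
there is an eigen system, congruent on `S`, with an eigenvector outside `K` and a projector. -/
theorem exists_component {ι : Type} (H : ι → Matrix (Fin R) (Fin R) ℤ)
    (hH : ∀ i j, H i * H j = H j * H i)
    (hred : IsReduced ↥(Algebra.adjoin ℤ (Set.range H)))
    (S : Set ι) (c₀ : ι → ℤ) (K : Submodule ℤ_[r] (Fin R → ℤ_[r]))
    (hsat : ∀ z : Fin R → ℤ_[r], (r : ℤ_[r]) • z ∈ K → z ∈ K)
    (w : Fin R → ℤ_[r]) (k : ℕ) (hw : ∀ z : Fin R → ℤ_[r], w - (r : ℤ_[r]) ^ k • z ∉ K)
    (hcong : ∀ i ∈ S, ∀ j, (r : ℤ_[r]) ^ k ∣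
      (((H i).map (Int.castRingHom ℤ_[r])).mulVec w - (c₀ i : ℤ_[r]) • w) j) :
    ∃ (O : Type) (_ : CommRing O) (_ : IsDomain O) (_ : IsDiscreteValuationRing O)
      (_ : IsAdicComplete (IsLocalRing.maximalIdeal O) O)
      (_ : Finite (IsLocalRing.ResidueField O)) (_ : CharZero O)
      (hrO : (r : O) ∈ IsLocalRing.maximalIdeal O),
      (padicToRing hrO).Finite ∧ ∃ (c : ι → O) (v : Fin R → O),
        (∀ i ∈ S, c i - (c₀ i : O) ∈ IsLocalRing.maximalIdeal O) ∧
        (∀ i, ((H i).map (Int.castRingHom O)).mulVec v = c i • v) ∧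
        v ∉ coeffSubmodule hrO K ∧
        ∃ π ∈ Algebra.adjoin O (Set.range fun i => (H i).map (Int.castRingHom O)), π ≠ 0 ∧
          ∀ i, ((H i).map (Int.castRingHom O) - c i • 1) * π = 0 := by
  classical
  obtain ⟨R', T, π, D, hR', hD, hsum, hπ⟩ := exists_spectral hH hred
  -- the extension ring
  haveI := hR'
  haveI : Finite (IsLocalRing.ResidueField ℤ_[r]) :=
    Finite.of_equiv _ PadicInt.residueField.symm.toEquiv
  open scoped TensorProduct in
  obtain ⟨O, iO1, iO2, iO3, iO4, iO5, iO6, iAlg, iFin, iLoc, -, g, -⟩ :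
      ∃ (O : Type) (_ : CommRing O) (_ : IsDomain O) (_ : IsDiscreteValuationRing O)
        (_ : IsAdicComplete (IsLocalRing.maximalIdeal O) O)
        (_ : Finite (IsLocalRing.ResidueField O)) (_ : CharZero O) (_ : Algebra ℤ_[r] O)
        (_ : Module.Finite ℤ_[r] O) (_ : IsLocalHom (algebraMap ℤ_[r] O)),
        Function.Injective (algebraMap ℤ_[r] O) ∧
          ∃ g : ℤ_[r] ⊗[ℤ] ↥R' →ₐ[ℤ_[r]] O, True := by
    haveI : Module.IsTorsionFree ℤ ↥R' := inferInstance
    haveI : Module.Free ℤ ↥R' := Module.free_of_finite_type_torsion_free'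
    have hinj : Function.Injective (algebraMap ℤ_[r] (ℤ_[r] ⊗[ℤ] ↥R')) :=
      Algebra.TensorProduct.includeLeft_injective (R := ℤ) (S := ℤ_[r]) (A := ℤ_[r]) (B := ↥R')
        (RingHom.injective_int (algebraMap ℤ ↥R'))
    haveI : Algebra.IsIntegral ℤ_[r] (ℤ_[r] ⊗[ℤ] ↥R') := Algebra.IsIntegral.of_finite _ _
    obtain ⟨P, -, hPprime, hP⟩ := Ideal.exists_ideal_over_prime_of_isIntegral (R := ℤ_[r])
      (S := ℤ_[r] ⊗[ℤ] ↥R') (⊥ : Ideal ℤ_[r]) (⊥ : Ideal (ℤ_[r] ⊗[ℤ] ↥R'))
      (le_of_eq ((RingHom.injective_iff_ker_eq_bot _).mp hinj))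
    haveI := hPprime
    obtain ⟨O, a, b, c, d, e, f, al, fi, lo, inj, g, -⟩ :=
      EichlerShimura.exists_finiteDVR_extension ℤ_[r] (ℤ_[r] ⊗[ℤ] ↥R') P fun a ha => by
        have : a ∈ (⊥ : Ideal ℤ_[r]) := hP ▸ (Ideal.mem_comap.mpr ha)
        exact Ideal.mem_bot.mp this
    exact ⟨O, a, b, c, d, e, f, al, fi, lo, inj, g, trivial⟩
  let f : ↥R' →+* O := g.toRingHom.comp
    (Algebra.TensorProduct.includeRight (R := ℤ) (A := ℤ_[r]) (B := ↥R')).toRingHom
  have hf : Function.Injective f := BadPrime.injective_of_finite_int f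
  have hrO : (r : O) ∈ IsLocalRing.maximalIdeal O := by
    rw [← map_natCast (algebraMap ℤ_[r] O) r]
    refine map_nonunit _ _ ?_
    rw [PadicInt.maximalIdeal_eq_span_p]
    exact Ideal.mem_span_singleton_self _
  have halg : padicToRing hrO = algebraMap ℤ_[r] O := by
    refine RingHom.ext fun x => sub_eq_zero.mp (IsHausdorff.haus' (I := IsLocalRing.maximalIdeal O) _
      fun n => ?_)
    obtain ⟨z, hz⟩ := ZMod.intCast_surjective (PadicInt.toZModPow n x)
    have h0 : PadicInt.toZModPow n (x - (z : ℤ_[r])) = 0 := by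
      rw [map_sub, map_intCast, hz, sub_self]
    have h1 := EichlerShimura.padicToRing_mem_pow hrO h0
    rw [← RingHom.mem_ker, PadicInt.ker_toZModPow, Ideal.mem_span_singleton] at h0
    obtain ⟨y, hy⟩ := h0
    have h2 : algebraMap ℤ_[r] O (x - (z : ℤ_[r])) ∈ IsLocalRing.maximalIdeal O ^ n := by
      rw [hy, map_mul, map_pow, map_natCast]
      exact Ideal.mul_mem_right _ _ (Ideal.pow_mem_pow hrO n)
    rw [map_sub, map_intCast] at h1 h2
    rw [SModEq.zero, smul_eq_mul, Ideal.mul_top]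
    simpa using sub_mem h1 h2
  refine ⟨O, iO1, iO2, iO3, iO4, iO5, iO6, hrO, ?_, ?_⟩
  · rw [halg]; exact RingHom.finite_algebraMap.mpr iFin
  -- transported data
  set HO : ι → Matrix (Fin R) (Fin R) O := fun i => (H i).map (Int.castRingHom O) with hHO
  have hmapH : ∀ i, f.mapMatrix ((H i).map (Int.castRingHom ↥R')) = HO i := fun i => by
    ext p q; simp [hHO]
  have hmapsmul : ∀ (a : ↥R') (M : Matrix (Fin R) (Fin R) ↥R'),
      f.mapMatrix (a • M) = f a • f.mapMatrix M := fun a M => by ext p q; simp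
  have hAdj : ∀ M ∈ Algebra.adjoin ↥R' (Set.range fun i => (H i).map (Int.castRingHom ↥R')),
      f.mapMatrix M ∈ Algebra.adjoin O (Set.range HO) := by
    intro M hM
    induction hM using Algebra.adjoin_induction with
    | mem x hx => obtain ⟨i, rfl⟩ := hx; rw [hmapH]; exact Algebra.subset_adjoin ⟨i, rfl⟩
    | algebraMap a =>
      rw [Algebra.algebraMap_eq_smul_one, hmapsmul, map_one]
      exact Subalgebra.smul_mem _ (one_mem _) _
    | add x y _ _ hx hy => rw [map_add]; exact add_mem hx hy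
    | mul x y _ _ hx hy => rw [map_mul]; exact mul_mem hx hy
  have hcomm : ∀ M ∈ Algebra.adjoin O (Set.range HO), ∀ i, HO i * M = M * HO i := by
    intro M hM i
    induction hM using Algebra.adjoin_induction with
    | mem x hx =>
      obtain ⟨j, rfl⟩ := hx
      have := congrArg (Int.castRingHom O).mapMatrix (hH i j)
      rwa [map_mul, map_mul] at this
    | algebraMap a => rw [Algebra.algebraMap_eq_smul_one, mul_smul_comm, smul_mul_assoc, one_mul,
        mul_one]
    | add x y _ _ hx hy => rw [mul_add, add_mul, hx, hy]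
    | mul x y _ _ hx hy => rw [← mul_assoc, hx, mul_assoc, hy, ← mul_assoc]
  have hkill : ∀ c ∈ T, ∀ i, (HO i - f (c i) • 1) * f.mapMatrix (π c) = 0 := by
    intro c hc i
    have h := congrArg f.mapMatrix ((hπ c hc).2.2 i)
    rwa [map_mul, map_sub, hmapH, hmapsmul, map_one, map_zero] at h
  have hresum : ∑ c ∈ T, f.mapMatrix (π c) = f D • 1 := by
    rw [← map_sum, hsum, hmapsmul, map_one]
  obtain ⟨P, hK, hP⟩ := exists_projection K hsat
  set wO : Fin R → O := padicToRing hrO ∘ w with hwO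
  have hcongO : ∀ i ∈ S, ∃ x : Fin R → O,
      (HO i).mulVec wO = (c₀ i : O) • wO + (r : O) ^ k • x := by
    intro i hi
    choose q hq using hcong i hi
    refine ⟨padicToRing hrO ∘ q, ?_⟩
    have e : ((H i).map (Int.castRingHom ℤ_[r])).map (padicToRing hrO) = HO i := by
      ext p q; simp [hHO]
    rw [← e, map_mulVec_padicToRing]
    funext j
    have := congrArg (padicToRing hrO) (hq j)
    simp only [Pi.sub_apply, Pi.smul_apply, smul_eq_mul, map_sub, map_mul, map_intCast, map_pow,
      map_natCast, sub_eq_iff_eq_add'] at this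
    simpa [hwO] using this
  -- remove the systems which are not congruent
  set bad := T.filter fun c => ¬ ∀ i ∈ S, f (c i) - (c₀ i : O) ∈ IsLocalRing.maximalIdeal O
    with hbad
  have hG : ∀ B ⊆ bad, ∃ (u : O) (x : Fin R → O) (G : Matrix (Fin R) (Fin R) O), IsUnit u ∧
      G.mulVec wO = u • wO + (r : O) ^ k • x ∧ ∀ c ∈ B, f.mapMatrix (π c) * G = 0 := by
    intro B
    induction B using Finset.induction with
    | empty => exact fun _ => ⟨1, 0, 1, isUnit_one, by simp, by simp⟩
    | insert d B _ ih =>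
      intro hsub
      obtain ⟨u, x, G, hu, hGw, hGB⟩ := ih ((Finset.subset_insert d B).trans hsub)
      obtain ⟨hdT, hd⟩ := Finset.mem_filter.mp (hsub (Finset.mem_insert_self d B))
      push Not at hd
      obtain ⟨i, hiS, hi⟩ := hd
      obtain ⟨y, hy⟩ := hcongO i hiS
      have hu' : IsUnit ((c₀ i : O) - f (d i)) := by
        by_contra h
        exact hi (by simpa using neg_mem ((IsLocalRing.mem_maximalIdeal _).mpr h))
      refine ⟨u * ((c₀ i : O) - f (d i)), u • y + (HO i - f (d i) • 1).mulVec x,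
        (HO i - f (d i) • 1) * G, hu.mul hu', ?_, fun c hc => ?_⟩
      · rw [← Matrix.mulVec_mulVec, hGw, Matrix.mulVec_add, Matrix.mulVec_smul, Matrix.mulVec_smul,
          Matrix.sub_mulVec _ _ wO, hy, Matrix.smul_mulVec, Matrix.one_mulVec, smul_sub, smul_add,
          smul_add, smul_comm u ((r : O) ^ k)]
        module
      · have hπmem : ∀ c ∈ T, f.mapMatrix (π c) ∈ Algebra.adjoin O (Set.range HO) :=
          fun c hc => hAdj _ (hπ c hc).2.1
        rcases Finset.mem_insert.mp hc with rfl | hc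
        · rw [← mul_assoc, mul_sub, mul_smul_comm, mul_one, ← hcomm _ (hπmem c hdT),
            ← one_mul (f.mapMatrix (π c)), ← smul_mul_assoc, ← mul_assoc, ← sub_mul, mul_one]
          rw [hkill c hdT i, zero_mul]
        · have hcT := (Finset.mem_filter.mp (hsub (Finset.mem_insert_of_mem hc))).1
          rw [← mul_assoc, mul_sub, mul_smul_comm, mul_one, ← hcomm _ (hπmem c hcT),
            sub_mul, mul_assoc, smul_mul_assoc, hGB c hc, mul_zero, smul_zero, sub_zero]
  obtain ⟨u, x, G, hu, hGw, hGbad⟩ := hG bad subset_rfl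
  -- some congruent component is outside `K`
  obtain ⟨c, hcT, hcc, hcv⟩ : ∃ c ∈ T,
      (∀ i ∈ S, f (c i) - (c₀ i : O) ∈ IsLocalRing.maximalIdeal O) ∧
      (f.mapMatrix (π c)).mulVec (G.mulVec wO) ∉ coeffSubmodule hrO K := by
    by_contra hall
    push Not at hall
    have hmem : f D • G.mulVec wO ∈ coeffSubmodule hrO K := by
      rw [← Matrix.one_mulVec (G.mulVec wO), ← Matrix.smul_mulVec, ← hresum, Matrix.sum_mulVec]
      refine Submodule.sum_mem _ fun c hc => ?_
      by_cases h : ∀ i ∈ S, f (c i) - (c₀ i : O) ∈ IsLocalRing.maximalIdeal O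
      · exact hall c hc h
      · rw [Matrix.mulVec_mulVec, hGbad c (Finset.mem_filter.mpr ⟨hc, h⟩), Matrix.zero_mulVec]
        exact zero_mem _
    have h0 := (mem_coeffSubmodule_iff hrO hK hP _).mp (mem_coeffSubmodule_of_smul hrO K hsat
      ((map_ne_zero_iff f hf).mpr hD) hmem)
    rw [hGw, Matrix.mulVec_add, Matrix.mulVec_smul, Matrix.mulVec_smul, hwO,
      map_mulVec_padicToRing] at h0
    obtain ⟨u', hu'⟩ := hu.exists_left_inv
    have hdiv : ∀ j, (r : O) ^ k ∣ padicToRing hrO (P.mulVec w j) := fun j =>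
      ⟨-(u' * ((P.map (padicToRing hrO)).mulVec x) j), by
        have := congrFun h0 j
        simp only [Pi.add_apply, Pi.smul_apply, Function.comp_apply, smul_eq_mul,
          Pi.zero_apply] at this
        linear_combination u' * this - padicToRing hrO (P.mulVec w j) * hu'⟩
    have hdiv' : ∀ j, (r : ℤ_[r]) ^ k ∣ P.mulVec w j := by
      intro j
      generalize hp : P.mulVec w j = p
      rcases eq_or_ne p 0 with rfl | hp0
      · exact dvd_zero _
      have hj := hdiv j
      rw [hp, PadicInt.unitCoeff_spec hp0, map_mul, map_pow, map_natCast] at hj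
      rw [PadicInt.unitCoeff_spec hp0]
      refine dvd_mul_of_dvd_right (pow_dvd_pow _ (not_lt.mp fun hlt => ?_)) _
      obtain ⟨m, hm⟩ := Nat.exists_eq_add_of_lt hlt
      rw [hm, pow_add, pow_add, pow_one,
        mul_comm (padicToRing hrO _) ((r : O) ^ p.valuation), mul_assoc,
        mul_dvd_mul_iff_left (pow_ne_zero _
          (Nat.cast_ne_zero.mpr (Fact.out : r.Prime).ne_zero))] at hj
      exact (IsLocalRing.mem_maximalIdeal _).mp hrO (isUnit_of_dvd_unit
        ((dvd_mul_left _ _).trans hj) ((PadicInt.unitCoeff hp0).isUnit.map _))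
    choose z hz using hdiv'
    have hzw : P.mulVec w = (r : ℤ_[r]) ^ k • z := funext hz
    refine hw z ((hK _).mpr ?_)
    have hzz : P.mulVec z = z := by
      have h := hP w
      rw [hzw, Matrix.mulVec_smul] at h
      exact smul_right_injective _
        (pow_ne_zero _ (Nat.cast_ne_zero.mpr (Fact.out : r.Prime).ne_zero)) h
    rw [Matrix.mulVec_sub, Matrix.mulVec_smul, hzz, hzw, sub_self]
  refine ⟨fun i => f (c i), (f.mapMatrix (π c)).mulVec (G.mulVec wO), hcc, fun i => ?_, hcv,
    f.mapMatrix (π c), hAdj _ (hπ c hcT).2.1, ?_, hkill c hcT⟩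
  · have h := hkill c hcT i
    rw [sub_mul, sub_eq_zero, smul_mul_assoc, one_mul] at h
    rw [Matrix.mulVec_mulVec, h, Matrix.smul_mulVec]
  · intro h0
    refine (hπ c hcT).1 (Matrix.map_injective hf ?_)
    change f.mapMatrix (π c) = (0 : Matrix (Fin R) (Fin R) ↥R').map f
    rw [h0, Matrix.map_zero _ (map_zero f)]

end Fermat.Agent.Mazur.Descent
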