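/-
The cyclotomic character on inertia.
-/
import Fermat.Agent.Galois.Minkowski
import Fermat.Agent.Galois.Frobenius
import Fermat.Agent.EC.Det.CyclotomicChar
import Fermat.Prelude.Def_GaloisRep_LocalConditions

set_option autoImplicit false

noncomputable section

namespace Fermat.Agent.Mazur.Descent

local notation "ℚ̄" => AlgebraicClosure ℚ
local notation "Γℚ" => (AlgebraicClosure ℚ ≃ₐ[ℚ] AlgebraicClosure ℚ)

theorem exists_mem_inertia_cycloChar_ne_one {n r : ℕ} [NeZero n] (hr : r.Prime)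
    (hn : ∀ l : ℕ, l.Prime → l ∣ n → l = r) {q : ℕ} (hq : q.Prime) (hqn : ¬ q ∣ n)
    (hq1 : (q : ZMod n) ≠ 1) (A : ValuationSubring ℚ̄) (hA : A.LiesOverPrime r) :
    ∃ σ ∈ A.inertiaSubgroupIn ℚ, EC.cycloChar n σ ≠ 1 := by
  by_contra hall
  push Not at hall
  obtain ⟨L, hL, hLfix⟩ := EC.cycloChar_factors n
  have hopen : IsOpen ((EC.cycloChar n).ker : Set Γℚ) :=
    Subgroup.isOpen_mono (H₁ := L.fixingSubgroup) (fun σ hσ => hLfix σ fun x hx => hσ ⟨x, hx⟩)
      L.fixingSubgroup_isOpen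
  have htop : (EC.cycloChar n).ker = ⊤ := by
    refine Galois.eq_top_of_forall_exists_inertia_le _ hopen fun l hl => ?_
    by_cases hlr : l = r
    · subst hlr
      exact ⟨A, hA, fun σ hσ => hall σ hσ⟩
    · obtain ⟨B, -, hB, -⟩ := Galois.exists_valuationSubring_isFrobeniusAt hl
      exact ⟨B, hB, fun σ hσ =>
        EC.cycloChar_eq_one_of_mem_inertia hl (fun h => hlr (hn l hl h)) hB hσ⟩
  obtain ⟨B, σ, hB, hσ⟩ := Galois.exists_valuationSubring_isFrobeniusAt hq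
  have h1 : EC.cycloChar n σ = 1 := by
    rw [← MonoidHom.mem_ker, htop]; exact Subgroup.mem_top σ
  apply hq1
  rw [← EC.cycloChar_eq_of_isFrobeniusAt hq hqn hB hσ, h1, Units.val_one]

/-- An inertia element at `r` whose determinant is not `1`. -/
theorem exists_mem_inertia_det_ne_one {O : Type} [CommRing O] [IsLocalRing O] [IsDomain O]
    [CharZero O] {r : ℕ} [hr : Fact r.Prime] {ρ : GaloisRepAdic O} (hdet : ρ.DetIsCyclotomic r)
    (A : ValuationSubring ℚ̄) (hA : A.LiesOverPrime r) :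
    ∃ σ ∈ A.inertiaSubgroupIn ℚ, LinearMap.det (ρ.ρ σ) ≠ 1 := by
  set n := r ^ 2 with hn
  haveI : NeZero n := ⟨pow_ne_zero 2 hr.out.ne_zero⟩
  have hdiv : ∀ l : ℕ, l.Prime → l ∣ n → l = r := fun l hl h =>
    (Nat.prime_dvd_prime_iff_eq hl hr.out).mp (hl.dvd_of_dvd_pow h)
  obtain ⟨q, hq, hqr, hq1⟩ : ∃ q : ℕ, q.Prime ∧ q ≠ r ∧ ¬ n ∣ q - 1 := by
    by_cases h2 : r = 2
    · exact ⟨3, Nat.prime_three, by omega, by subst h2; norm_num [hn]⟩
    · refine ⟨2, Nat.prime_two, Ne.symm h2, fun h => ?_⟩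
      have h' := Nat.le_of_dvd (by norm_num) h
      have := Nat.pow_le_pow_left hr.out.two_le 2
      omega
  obtain ⟨σ, hσ, hσ1⟩ := exists_mem_inertia_cycloChar_ne_one hr.out hdiv hq
    (fun h => hqr (hdiv q hq h)) (fun h => hq1 ((Nat.modEq_iff_dvd' hq.one_le).mp
      ((ZMod.natCast_eq_natCast_iff _ _ _).mp (by rw [h, Nat.cast_one])))) A hA
  refine ⟨σ, hσ, fun h1 => ?_⟩
  set a := (EC.cycloChar n σ : ZMod n).val
  have hmem := hdet.2 2 σ a fun μ hμ => EC.apply_eq_pow_cycloChar n σ hμ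
  rw [h1, Ideal.mem_span_singleton] at hmem
  -- `r ^ 2 ∣ a - 1` already in `ℤ`
  have key : ((n : ℕ) : ℤ) ∣ 1 - (a : ℤ) := by
    by_contra hnd
    obtain ⟨j, u, hu, hju⟩ : ∃ j u, ¬ r ∣ u ∧ (1 - (a : ℤ)).natAbs = r ^ j * u := by
      have h0 : (1 - (a : ℤ)).natAbs ≠ 0 := fun h =>
        hnd (by rw [Int.natAbs_eq_zero.mp h]; exact dvd_zero _)
      exact Nat.exists_eq_pow_mul_and_not_dvd h0 r hr.out.ne_one
    have hj : j < 2 := by
      by_contra hj
      exact hnd (Int.natCast_dvd.mpr (hju ▸ dvd_mul_of_dvd_left (pow_dvd_pow r (not_lt.mp hj)) u))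
    have huO : IsUnit (u : O) := by
      by_contra hnu
      refine (IsLocalRing.maximalIdeal.isMaximal O).ne_top (Ideal.eq_top_iff_one _ |>.mpr ?_)
      obtain ⟨x, y, hxy⟩ := (Nat.isCoprime_iff_coprime.mpr
        ((Nat.Prime.coprime_iff_not_dvd hr.out).mpr hu) : IsCoprime (r : ℤ) u)
      have := congrArg (Int.cast : ℤ → O) hxy
      push_cast at this
      rw [← this]
      exact Ideal.add_mem _ (Ideal.mul_mem_left _ _ hdet.1) (Ideal.mul_mem_left _ _ hnu)
    have hd2 : (r : O) ^ 2 ∣ (r : O) ^ j := by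
      have h3 : (r : O) ^ 2 ∣ ((1 - (a : ℤ)).natAbs : O) := by
        have hn2 : ((n : ℕ) : O) = (r : O) ^ 2 := by rw [hn, Nat.cast_pow]
        rw [← hn2]
        have hz : ((n : ℕ) : O) ∣ (((1 : ℤ) - (a : ℤ) : ℤ) : O) := by
          rw [Int.cast_sub, Int.cast_one, Int.cast_natCast]
          exact hmem
        rcases Int.natAbs_eq (1 - (a : ℤ)) with h | h
        · rwa [h, Int.cast_natCast] at hz
        · rwa [h, Int.cast_neg, Int.cast_natCast, dvd_neg] at hz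
      rw [hju, Nat.cast_mul, Nat.cast_pow] at h3
      exact (IsUnit.dvd_mul_right huO).mp h3
    obtain ⟨c, hc⟩ := hd2
    have hr0 : (r : O) ≠ 0 := Nat.cast_ne_zero.mpr hr.out.ne_zero
    have hrj : (r : O) ^ j * (1 - (r : O) ^ (2 - j) * c) = 0 := by
      rw [mul_sub, mul_one, ← mul_assoc, ← pow_add, Nat.add_sub_cancel' hj.le, ← hc, sub_self]
    have hone := sub_eq_zero.mp ((mul_eq_zero.mp hrj).resolve_left (pow_ne_zero _ hr0))
    exact (IsLocalRing.maximalIdeal.isMaximal O).ne_top ((Ideal.eq_top_iff_one _).mpr (hone ▸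
      Ideal.mul_mem_right _ _ (Ideal.pow_mem_of_mem _ hdet.1 _ (by omega))))
  apply hσ1
  apply Units.ext
  have := (ZMod.intCast_zmod_eq_zero_iff_dvd _ n).mpr key
  rw [Units.val_one, ← ZMod.natCast_zmod_val (EC.cycloChar n σ : ZMod n)]
  push_cast at this
  exact (sub_eq_zero.mp this).symm

end Fermat.Agent.Mazur.Descent
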