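/-
Saturated lines and unipotents in rank two.
-/
import Mathlib.LinearAlgebra.FreeModule.PID
import Mathlib.LinearAlgebra.Charpoly.ToMatrix
import Mathlib.LinearAlgebra.Matrix.Charpoly.Coeff
import Mathlib.FieldTheory.IsAlgClosed.AlgebraicClosure

set_option autoImplicit false

noncomputable section

namespace Fermat.Agent.Mazur.Descent

local notation "ℚ̄" => AlgebraicClosure ℚ
local notation "Γℚ" => (AlgebraicClosure ℚ ≃ₐ[ℚ] AlgebraicClosure ℚ)

section Line

variable {O : Type} [CommRing O] [IsDomain O] [IsPrincipalIdealRing O] {V : Type} [AddCommGroup V]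
  [Module O V] [Module.Free O V] [Module.Finite O V]

/-- A non-trivial proper saturated submodule of a free module of rank two is a basis line. -/
theorem exists_basis_of_saturated (h2 : Module.finrank O V = 2) (p : Submodule O V)
    (hsat : ∀ (a : O) (v : V), a ≠ 0 → a • v ∈ p → v ∈ p) (hb : p ≠ ⊥) (ht : p ≠ ⊤) :
    ∃ b : Module.Basis (Fin 2) O V, p = O ∙ b 0 := by
  classical
  haveI : Module.IsTorsionFree O (V ⧸ p) := by
    rw [Module.isTorsionFree_iff_smul_eq_zero]
    intro a x hax
    obtain ⟨v, rfl⟩ := Submodule.Quotient.mk_surjective p x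
    refine or_iff_not_imp_left.mpr fun ha => (Submodule.Quotient.mk_eq_zero p).mpr ?_
    rw [← Submodule.Quotient.mk_smul, Submodule.Quotient.mk_eq_zero] at hax
    exact hsat a v ha hax
  haveI : Module.Free O (V ⧸ p) := Module.free_of_finite_type_torsion_free'
  haveI : Module.Free O p := Module.Free.of_basis (Submodule.basisOfPid (Module.Free.chooseBasis O V) p).2
  have hsum := Submodule.finrank_quotient_add_finrank p
  have hq : 0 < Module.finrank O (V ⧸ p) := by
    rw [Nat.pos_iff_ne_zero]
    intro h0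
    haveI := Module.finrank_zero_iff.mp h0
    exact ht ((Submodule.Quotient.subsingleton_iff).mp inferInstance)
  have hp : 0 < Module.finrank O p := by
    rw [Nat.pos_iff_ne_zero]
    intro h0
    exact hb (Submodule.finrank_eq_zero.mp h0)
  let bp := Module.finBasisOfFinrankEq O p (n := 1) (by omega)
  let bq := Module.finBasisOfFinrankEq O (V ⧸ p) (n := 1) (by omega)
  obtain ⟨w, hw⟩ := Submodule.Quotient.mk_surjective p (bq 0)
  have hp1 : ∀ u ∈ p, ∃ c : O, u = c • (bp 0 : V) := by
    intro u hu
    refine ⟨bp.repr ⟨u, hu⟩ 0, ?_⟩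
    have := congrArg Subtype.val (bp.sum_repr ⟨u, hu⟩)
    simp only [Fin.sum_univ_one, Submodule.coe_smul] at this
    exact this.symm
  have hli : LinearIndependent O ![(bp 0 : V), w] := by
    rw [LinearIndependent.pair_iff]
    intro s t hst
    have hh := congrArg (Submodule.Quotient.mk (p := p)) hst
    rw [Submodule.Quotient.mk_add, Submodule.Quotient.mk_smul, Submodule.Quotient.mk_smul, hw,
      (Submodule.Quotient.mk_eq_zero p).mpr (bp 0).2, smul_zero, zero_add,
      Submodule.Quotient.mk_zero] at hh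
    have ht0 : t = 0 := (smul_eq_zero.mp hh).resolve_right (bq.ne_zero 0)
    rw [ht0, zero_smul, add_zero] at hst
    exact ⟨(smul_eq_zero.mp hst).resolve_right fun h => bp.ne_zero 0 (Subtype.ext h), ht0⟩
  have hspan : ⊤ ≤ Submodule.span O (Set.range ![(bp 0 : V), w]) := by
    intro v _
    set t := bq.repr (Submodule.Quotient.mk v) 0
    have hv : v - t • w ∈ p := by
      rw [← Submodule.Quotient.mk_eq_zero, Submodule.Quotient.mk_sub, Submodule.Quotient.mk_smul,
        hw, sub_eq_zero]
      conv_lhs => rw [← bq.sum_repr (Submodule.Quotient.mk v)]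
      rw [Fin.sum_univ_one]
    obtain ⟨c, hc⟩ := hp1 _ hv
    rw [← sub_add_cancel v (t • w), hc]
    exact add_mem (Submodule.smul_mem _ _ (Submodule.subset_span ⟨0, rfl⟩))
      (Submodule.smul_mem _ _ (Submodule.subset_span ⟨1, rfl⟩))
  refine ⟨Module.Basis.mk hli hspan, le_antisymm (fun u hu => ?_) ?_⟩
  · obtain ⟨c, rfl⟩ := hp1 u hu
    refine Submodule.mem_span_singleton.mpr ⟨c, ?_⟩
    simp
  · rw [Submodule.span_singleton_le_iff_mem]
    simp

/-- A square-zero perturbation of the identity in rank two. -/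
theorem charpoly_eq_of_sub_one_sq (h2 : Module.finrank O V = 2) (f : Module.End O V)
    (hf : (f - 1) * (f - 1) = 0) : f.charpoly = (Polynomial.X - 1) ^ 2 := by
  classical
  let b := Module.finBasisOfFinrankEq O V h2
  set M := LinearMap.toMatrixAlgEquiv b f with hM
  have hnil : IsNilpotent (M - 1) := ⟨2, by
    rw [pow_two, hM, ← map_one (LinearMap.toMatrixAlgEquiv b), ← map_sub, ← map_mul, hf, map_zero]⟩
  have hc := Matrix.isNilpotent_charpoly_sub_pow_of_isNilpotent hnil
  rw [isNilpotent_iff_eq_zero, sub_eq_zero] at hc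
  rw [← LinearMap.charpoly_toMatrix f b]
  show M.charpoly = _
  have hMs : M = (M - 1) + Matrix.scalar (Fin 2) (1 : O) := by simp
  rw [hMs, ← neg_neg (Matrix.scalar (Fin 2) (1 : O)), ← sub_eq_add_neg, ← map_neg,
    Matrix.charpoly_sub_scalar, hc]
  simp [sub_eq_add_neg]

end Line

end Fermat.Agent.Mazur.Descent
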