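/-
The `r`-adic coordinates of torsion points of `J₀(N)`.

`tatePt e r k w` is the `r ^ k`-torsion point with coordinates `w mod r ^ k`; `galPadic` is the
Galois action on coordinates; `heckeMat Θ` is the action of `HeckeAlg`.
Owner: helper40 (proofs).
-/
import Fermat.Agent.EichlerShimura.GaloisMatrices
import Fermat.Agent.EichlerShimura.Plane
import Fermat.Agent.Mazur.Immersion.Forms
import Fermat.Agent.Mazur.Kummer.Independence
import Fermat.Agent.BadPrime.NewformEigenPart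

set_option autoImplicit false

noncomputable section

open CongruenceSubgroup ModularCurve ModularCurve.Period
open scoped MatrixGroups

namespace Fermat.Agent.Mazur.Descent

open EichlerShimura (QZ torsionPts torsionMap cuspRank heckeMatrix torsionCoords galEnd rootHom
  endToMatrix rootPow matrixEnd coordEnd)
open Kummer (Approx natCast_mem_maximalIdeal_padicInt)
open IsLocalRing Matrix

local notation "ℚ̄" => AlgebraicClosure ℚ
local notation "Γℚ" => (AlgebraicClosure ℚ ≃ₐ[ℚ] AlgebraicClosure ℚ)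

/-- The subalgebra generated by the operators at primes not dividing the level. -/
def goodHecke (N : ℕ) : Subalgebra ℤ HeckeAlg :=
  Algebra.adjoin ℤ (heckeGen '' {ℓ : Nat.Primes | ¬ (ℓ : ℕ) ∣ N})

theorem heckeGen_mem_goodHecke {N : ℕ} (ℓ : Nat.Primes) (h : ¬ (ℓ : ℕ) ∣ N) :
    heckeGen ℓ ∈ goodHecke N :=
  Algebra.subset_adjoin ⟨ℓ, h, rfl⟩

variable {N : ℕ} [NeZero N]

/-- An element of `HeckeAlg` as an integral matrix, through a representation of the Hecke
algebra of forms. -/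
def heckeMat (Θ : CuspForm.heckeAlgebra N 2 (∅ : Set ℕ) →+*
    Matrix (Fin (cuspRank N)) (Fin (cuspRank N)) ℤ) :
    HeckeAlg →+* Matrix (Fin (cuspRank N)) (Fin (cuspRank N)) ℤ :=
  Θ.comp (MvPolynomial.eval₂Hom (Int.castRingHom _) (Immersion.formsGen N))

/-- `e` and `Θ` identify the Hecke action on torsion with the Hecke matrices. -/
structure IsHeckeIso (e : torsionPts N ≃+ Periods.cuspidalHoms ℤ (Gamma0 N) QZ)
    (Θ : CuspForm.heckeAlgebra N 2 (∅ : Set ℕ) →+*
      Matrix (Fin (cuspRank N)) (Fin (cuspRank N)) ℤ) : Prop where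
  commute : HeckeOperatorsCommuteBar N
  rep : ∀ ℓ : Nat.Primes, Θ (Immersion.formsGen N ℓ) = heckeMatrix N ℓ
  hecke : ∀ ℓ : Nat.Primes, ¬ (ℓ : ℕ) ∣ N → ∀ x,
    (e (torsionMap (heckeOperatorBar N ℓ).toAddMonoidHom x) : Additive (Gamma0 N) →+ QZ) =
      Periods.heckeHom ℤ QZ ℓ.2 (e x : Additive (Gamma0 N) →+ QZ)
  bad : ∀ q : Nat.Primes, (q : ℕ) ∣ N → ∃ U : JZero N →+ JZero N,
    (∀ (σ : Γℚ) (x : JZero N), σ • U x = U (σ • x)) ∧
    ∀ x, (e (torsionMap U x) : Additive (Gamma0 N) →+ QZ) =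
      Periods.heckeHom ℤ QZ q.2 (e x : Additive (Gamma0 N) →+ QZ)
  conj : ∀ x, (e (EichlerShimura.torsionGalois complexConjugation x) :
      Additive (Gamma0 N) →+ QZ) =
    - charInvolution N ℤ QZ (e x : Additive (Gamma0 N) →+ QZ)

theorem exists_isHeckeIso (hK : EichlerShimura.HasKummerIso N)
    (hcomm : HeckeOperatorsCommuteBar N) : ∃ e Θ, IsHeckeIso (N := N) e Θ := by
  obtain ⟨e, he, hU, hc⟩ := hK
  obtain ⟨Θ, hΘ⟩ := BadPrime.exists_heckeRep N
  exact ⟨e, Θ, hcomm, hΘ, he, hU, hc⟩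

theorem heckeMat_heckeGen {e : torsionPts N ≃+ Periods.cuspidalHoms ℤ (Gamma0 N) QZ}
    {Θ : CuspForm.heckeAlgebra N 2 (∅ : Set ℕ) →+*
      Matrix (Fin (cuspRank N)) (Fin (cuspRank N)) ℤ}
    (h : IsHeckeIso e Θ) (ℓ : Nat.Primes) : heckeMat Θ (heckeGen ℓ) = heckeMatrix N ℓ := by
  simp [heckeMat, heckeGen, h.rep]

theorem heckeMat_eq_zero_of_formsAct_eq_zero
    (Θ : CuspForm.heckeAlgebra N 2 (∅ : Set ℕ) →+*
      Matrix (Fin (cuspRank N)) (Fin (cuspRank N)) ℤ)
    {t : HeckeAlg} (ht : Immersion.formsAct N t = 0) : heckeMat Θ t = 0 := by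
  have : MvPolynomial.eval₂Hom (Int.castRingHom _) (Immersion.formsGen N) t = 0 := Subtype.ext ht
  rw [heckeMat, RingHom.comp_apply, this, map_zero]

variable (e : torsionPts N ≃+ Periods.cuspidalHoms ℤ (Gamma0 N) QZ) (r : ℕ) [Fact r.Prime]

/-- The coordinates in `ℚ/ℤ` of `w mod r ^ k`. -/
def vecQZ {R : ℕ} (k : ℕ) : (Fin R → ℤ_[r]) →+ (Fin R → QZ) :=
  AddMonoidHom.compLeft ((rootHom r k).comp (PadicInt.toZModPow k).toAddMonoidHom) (Fin R)

/-- The `r ^ k`-torsion point with the given `r`-adic coordinates. -/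
def tatePt (k : ℕ) : (Fin (cuspRank N) → ℤ_[r]) →+ JZero N :=
  ((torsionPts N).subtype.comp (torsionCoords e).symm.toAddMonoidHom).comp (vecQZ r k)

theorem tatePt_apply (k : ℕ) (w : Fin (cuspRank N) → ℤ_[r]) :
    tatePt e r k w = ((torsionCoords e).symm (vecQZ r k w) : JZero N) :=
  rfl

theorem vecQZ_apply {R : ℕ} (k : ℕ) (w : Fin R → ℤ_[r]) (i : Fin R) :
    vecQZ r k w i = rootHom r k (PadicInt.toZModPow k (w i)) :=
  rfl

theorem toZModPow_eq_intCast_iff {k : ℕ} {a : ℤ_[r]} {z : ℤ} :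
    PadicInt.toZModPow k a = (z : ZMod (r ^ k)) ↔ a - (z : ℤ_[r]) ∈ maximalIdeal ℤ_[r] ^ k := by
  rw [PadicInt.maximalIdeal_eq_span_p, Ideal.span_singleton_pow, ← PadicInt.ker_toZModPow,
    RingHom.mem_ker, map_sub, map_intCast, sub_eq_zero]

theorem approx_vecQZ {R : ℕ} (k : ℕ) (w : Fin R → ℤ_[r]) : Approx r k (vecQZ r k w) w := by
  intro i
  obtain ⟨z, hz⟩ := ZMod.intCast_surjective (PadicInt.toZModPow k (w i))
  exact ⟨z, by rw [vecQZ_apply, ← hz, EichlerShimura.rootHom_intCast],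
    (toZModPow_eq_intCast_iff r).mp hz.symm⟩

theorem eq_vecQZ_of_approx {R k : ℕ} {u : Fin R → QZ} {w : Fin R → ℤ_[r]}
    (h : Approx r k u w) : u = vecQZ r k w := funext fun i => by
  obtain ⟨z, hz, hwz⟩ := h i
  rw [vecQZ_apply, (toZModPow_eq_intCast_iff r).mpr hwz, EichlerShimura.rootHom_intCast, hz]

theorem vecQZ_endToMatrix {R : ℕ} (Φ : Module.End ℤ (Fin R → QZ)) (k : ℕ)
    (w : Fin R → ℤ_[r]) :
    vecQZ r k ((endToMatrix r R Φ).mulVec w) = Φ (vecQZ r k w) := by
  funext i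
  conv_rhs => rw [← Finset.univ_sum_single (vecQZ r k w), map_sum, Finset.sum_apply]
  simp only [vecQZ_apply, mulVec, dotProduct, map_sum, map_mul]
  refine Finset.sum_congr rfl fun j _ => ?_
  rw [EichlerShimura.endToMatrix_apply, EichlerShimura.toZModPow_endToPadic]
  exact (EichlerShimura.rootHom_zmodOfEnd_mul r _ k _).symm

theorem nsmul_vecQZ_succ {R : ℕ} (k : ℕ) (w : Fin R → ℤ_[r]) :
    r • vecQZ r (k + 1) w = vecQZ r k w := by
  funext i
  obtain ⟨z, hz, hwz⟩ := approx_vecQZ r (k + 1) w i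
  have h : r • rootPow r (k + 1) = rootPow r k := by
    simpa using Kummer.pow_nsmul_rootPow (r := r) (Nat.le_succ k)
  rw [Pi.smul_apply, hz, smul_comm, h, vecQZ_apply,
    (toZModPow_eq_intCast_iff r).mpr (Ideal.pow_le_pow_right (Nat.le_succ k) hwz),
    EichlerShimura.rootHom_intCast]

theorem isOfFinAddOrder_of_pow_nsmul {k : ℕ} {x : JZero N} (hx : r ^ k • x = 0) :
    IsOfFinAddOrder x :=
  isOfFinAddOrder_iff_nsmul_eq_zero.mpr ⟨r ^ k, pow_pos (Fact.out (p := r.Prime)).pos k, hx⟩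

/-- The Galois action on `r`-adic coordinates. -/
def galPadic : Γℚ →* Matrix (Fin (cuspRank N)) (Fin (cuspRank N)) ℤ_[r] :=
  ((endToMatrix r (cuspRank N)).toMonoidHom).comp (galEnd e)

theorem nsmul_tatePt_succ (k : ℕ) (w : Fin (cuspRank N) → ℤ_[r]) :
    r • tatePt e r (k + 1) w = tatePt e r k w := by
  rw [tatePt_apply, tatePt_apply, ← AddSubgroupClass.coe_nsmul, ← map_nsmul, nsmul_vecQZ_succ]

theorem tatePt_eq_zero_iff (k : ℕ) (w : Fin (cuspRank N) → ℤ_[r]) :
    tatePt e r k w = 0 ↔ ∀ i, (r : ℤ_[r]) ^ k ∣ w i := by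
  rw [tatePt_apply, ZeroMemClass.coe_eq_zero, map_eq_zero_iff _ (torsionCoords e).symm.injective,
    funext_iff]
  refine forall_congr' fun i => ?_
  rw [vecQZ_apply, Pi.zero_apply, map_eq_zero_iff _ (EichlerShimura.rootHom_injective r k),
    ← RingHom.mem_ker, PadicInt.ker_toZModPow, Ideal.mem_span_singleton]

theorem eq_of_forall_tatePt {w w' : Fin (cuspRank N) → ℤ_[r]}
    (h : ∀ k, tatePt e r k w = tatePt e r k w') : w = w' := by
  funext i
  refine PadicInt.ext_of_toZModPow.mp fun k => EichlerShimura.rootHom_injective r k ?_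
  have hv := h k
  rw [tatePt_apply, tatePt_apply] at hv
  exact congrFun ((torsionCoords e).symm.injective (Subtype.ext hv)) i

theorem exists_tatePt_eq {k : ℕ} {x : JZero N} (hx : r ^ k • x = 0) :
    ∃ w, tatePt e r k w = x := by
  set t : torsionPts N := ⟨x, isOfFinAddOrder_of_pow_nsmul r hx⟩
  have h0 : ∀ i, r ^ k • torsionCoords e t i = 0 := fun i => by
    rw [← Pi.smul_apply, ← map_nsmul, show r ^ k • t = 0 from Subtype.ext hx, map_zero,
      Pi.zero_apply]
  choose m hm using fun i => EichlerShimura.exists_zsmul_rootPow r (h0 i)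
  refine ⟨fun i => (m i : ℤ_[r]), ?_⟩
  rw [tatePt_apply, ← eq_vecQZ_of_approx r (u := torsionCoords e t)
    (fun i => ⟨m i, hm i, by simp⟩), AddEquiv.symm_apply_apply]

theorem exists_tatePt_eq_seq {x : ℕ → JZero N} (h0 : x 0 = 0)
    (hs : ∀ k, r • x (k + 1) = x k) : ∃ w, ∀ k, tatePt e r k w = x k := by
  have hk : ∀ k, r ^ k • x k = 0 := fun k => by
    induction k with
    | zero => rw [pow_zero, one_nsmul, h0]
    | succ k ih => rw [pow_succ, mul_nsmul', hs, ih]
  set t : ℕ → torsionPts N := fun k => ⟨x k, isOfFinAddOrder_of_pow_nsmul r (hk k)⟩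
  obtain ⟨w, hw⟩ := Kummer.exists_approx_of_compatible natCast_mem_maximalIdeal_padicInt
    (fun k => torsionCoords e (t k))
    (fun k => by
      rw [← map_nsmul, show r ^ k • t k = 0 from Subtype.ext (hk k), map_zero])
    (fun k => by
      rw [← map_nsmul]
      exact congrArg (torsionCoords e) (Subtype.ext (hs k)))
  refine ⟨w, fun k => ?_⟩
  rw [tatePt_apply, ← eq_vecQZ_of_approx r (hw k), AddEquiv.symm_apply_apply]

theorem tatePt_galPadic (σ : Γℚ) (k : ℕ) (w : Fin (cuspRank N) → ℤ_[r]) :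
    tatePt e r k ((galPadic e r σ).mulVec w) = σ • tatePt e r k w := by
  rw [tatePt_apply, tatePt_apply, galPadic, MonoidHom.comp_apply]
  show ((torsionCoords e).symm (vecQZ r k ((endToMatrix r _ (galEnd e σ)).mulVec w)) : JZero N) = _
  rw [vecQZ_endToMatrix, EichlerShimura.galEnd_apply, AddEquiv.symm_apply_apply,
    EichlerShimura.coe_torsionGalois]

theorem tatePt_heckeMat {Θ : CuspForm.heckeAlgebra N 2 (∅ : Set ℕ) →+*
      Matrix (Fin (cuspRank N)) (Fin (cuspRank N)) ℤ} (h : IsHeckeIso e Θ)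
    {t : HeckeAlg} (ht : t ∈ goodHecke N) (k : ℕ) (w : Fin (cuspRank N) → ℤ_[r]) :
    tatePt e r k (((heckeMat Θ t).map (Int.castRingHom ℤ_[r])).mulVec w) =
      (letI := heckeModuleBar N; t • tatePt e r k w) := by
  letI := heckeModuleBar N
  induction ht using Algebra.adjoin_induction generalizing w with
  | mem t ht =>
    obtain ⟨ℓ, hℓ, rfl⟩ := ht
    rw [heckeMat_heckeGen h, ← EichlerShimura.endToMatrix_matrixEnd, tatePt_apply,
      vecQZ_endToMatrix, ← EichlerShimura.coordEnd_hecke e ℓ _ (h.hecke ℓ hℓ),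
      EichlerShimura.coordEnd_apply, AddEquiv.symm_apply_apply, EichlerShimura.coe_torsionMap,
      tatePt_apply, heckeModuleBar_heckeGen_smul h.commute]
    rfl
  | algebraMap a =>
    rw [eq_intCast (algebraMap ℤ HeckeAlg) a, map_intCast, ← RingHom.mapMatrix_apply, map_intCast,
      ← zsmul_one, smul_mulVec, one_mulVec, map_zsmul, Int.cast_smul_eq_zsmul]
  | add s t _ _ hs ht =>
    rw [map_add, Matrix.map_add _ (map_add _), add_mulVec, map_add, hs, ht, add_smul]
  | mul s t _ _ hs ht =>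
    rw [map_mul, Matrix.map_mul, ← mulVec_mulVec, hs, ht, mul_smul]

theorem galMatrix_eq_map_galPadic {O : Type} [CommRing O] [IsLocalRing O]
    [IsAdicComplete (IsLocalRing.maximalIdeal O) O]
    (hrO : (r : O) ∈ IsLocalRing.maximalIdeal O) (σ : Γℚ) :
    EichlerShimura.galMatrix e r hrO σ =
      (galPadic e r σ).map (EichlerShimura.padicToRing hrO) :=
  rfl

/-- The coordinate vectors all whose points lie in `K`. -/
def tateSubmodule (K : AddSubgroup (JZero N)) :
    Submodule ℤ_[r] (Fin (cuspRank N) → ℤ_[r]) where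
  carrier := {w | ∀ k, tatePt e r k w ∈ K}
  zero_mem' k := by rw [map_zero]; exact K.zero_mem
  add_mem' hx hy k := by rw [map_add]; exact K.add_mem (hx k) (hy k)
  smul_mem' a w hw := by
    intro k
    obtain ⟨z, hz⟩ := ZMod.intCast_surjective (PadicInt.toZModPow k a)
    have h : vecQZ r k (a • w) = vecQZ r k (z • w) := funext fun i => by
      simp [vecQZ_apply, ← hz]
    rw [tatePt_apply, h, ← tatePt_apply, map_zsmul]
    exact K.zsmul_mem (hw k) z

theorem mem_tateSubmodule_iff {K : AddSubgroup (JZero N)} {w : Fin (cuspRank N) → ℤ_[r]} :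
    w ∈ tateSubmodule e r K ↔ ∀ k, tatePt e r k w ∈ K :=
  Iff.rfl

theorem mem_tateSubmodule_of_smul {K : AddSubgroup (JZero N)} {w : Fin (cuspRank N) → ℤ_[r]}
    (hw : (r : ℤ_[r]) • w ∈ tateSubmodule e r K) : w ∈ tateSubmodule e r K := by
  intro k
  rw [← nsmul_tatePt_succ, ← map_nsmul, ← Nat.cast_smul_eq_nsmul ℤ_[r]]
  exact hw (k + 1)

end Fermat.Agent.Mazur.Descent
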