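/-
Elementary glue for the assembly of the descent: coordinates, saturated lines, cyclotomic
inertia.
-/
import Fermat.Agent.Mazur.Descent.Points
import Fermat.Agent.Mazur.Descent.Component
import Fermat.Agent.Mazur.Descent.Cyclo
import Fermat.Agent.Mazur.Descent.LinAlg

set_option autoImplicit false

noncomputable section

open CongruenceSubgroup ModularCurve
open scoped MatrixGroups

namespace Fermat.Agent.Mazur.Descent

open EichlerShimura (QZ torsionPts cuspRank galMatrix padicToRing)

local notation "ℚ̄" => AlgebraicClosure ℚ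
local notation "Γℚ" => (AlgebraicClosure ℚ ≃ₐ[ℚ] AlgebraicClosure ℚ)

theorem exists_prime_pow_dvd {N : ℕ} (hN : N.Prime) (h : N = 11 ∨ 17 ≤ N) :
    ∃ r : Nat.Primes, (r : ℕ) ^ (padicValNat r 24 + 1) ∣ N - 1 := by
  rcases h with rfl | h
  · refine ⟨⟨5, by norm_num⟩, ?_⟩
    have : padicValNat 5 24 = 0 := padicValNat.eq_zero_of_not_dvd (by norm_num)
    simp [this]
  by_contra hcon
  push Not at hcon
  have hd : N - 1 ∣ 24 := by
    rw [← Nat.factorization_le_iff_dvd (by omega) (by norm_num)]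
    intro q
    by_cases hq : q.Prime
    · have h2 := hcon ⟨q, hq⟩
      haveI := Fact.mk hq
      rw [← Nat.factorization_def 24 hq] at h2
      by_contra hlt
      exact h2 ((Nat.pow_dvd_pow q (Nat.lt_of_not_le hlt)).trans (Nat.ordProj_dvd (N - 1) q))
    · simp [Nat.factorization_eq_zero_of_not_prime _ hq]
  have hle := Nat.le_of_dvd (by norm_num) hd
  have h25 : N = 25 := by
    have : 16 ≤ N - 1 := by omega
    obtain ⟨c, hc⟩ := hd
    have : c ≤ 1 := by
      rcases Nat.lt_or_ge c 2 with hc2 | hc2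
      · omega
      · have := Nat.mul_le_mul this hc2; omega
    interval_cases c <;> omega
  subst h25
  norm_num at hN

section Coord

variable {N : ℕ} [NeZero N] (e : torsionPts N ≃+ Periods.cuspidalHoms ℤ (Gamma0 N) QZ)
  (r : ℕ) [Fact r.Prime]

theorem eq_zero_of_forall_tatePt {w : Fin (cuspRank N) → ℤ_[r]}
    (h : ∀ k, tatePt e r k w = 0) : w = 0 := by
  funext i
  refine PadicInt.ext_of_toZModPow.mp fun k => ?_
  rw [Pi.zero_apply, map_zero, ← RingHom.mem_ker, PadicInt.ker_toZModPow,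
    Ideal.mem_span_singleton]
  exact (tatePt_eq_zero_iff e r k w).mp (h k) i

theorem matrix_eq_of_forall_tatePt {M M' : Matrix (Fin (cuspRank N)) (Fin (cuspRank N)) ℤ_[r]}
    (h : ∀ k z, tatePt e r k (M.mulVec z) = tatePt e r k (M'.mulVec z)) : M = M' :=
  Matrix.mulVec_injective (funext fun z => sub_eq_zero.mp (eq_zero_of_forall_tatePt e r fun k => by
    rw [map_sub, h, sub_self]))

theorem tatePt_natCast_smul (k m : ℕ) (w : Fin (cuspRank N) → ℤ_[r]) :
    tatePt e r k ((m : ℤ_[r]) • w) = m • tatePt e r k w := by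
  rw [Nat.cast_smul_eq_nsmul, map_nsmul]

variable {r} {R : ℕ} {O : Type} [CommRing O] [IsLocalRing O]
  [IsAdicComplete (IsLocalRing.maximalIdeal O) O] (hrO : (r : O) ∈ IsLocalRing.maximalIdeal O)

theorem map_mulVec_comp (M : Matrix (Fin R) (Fin R) ℤ_[r]) (z : Fin R → ℤ_[r]) :
    (M.map (padicToRing hrO)).mulVec (padicToRing hrO ∘ z) = padicToRing hrO ∘ (M.mulVec z) :=
  funext fun i => (RingHom.map_mulVec (padicToRing hrO) M z i).symm

theorem intMap_eq_map_padic (M : Matrix (Fin R) (Fin R) ℤ) :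
    M.map (Int.castRingHom O) = (M.map (Int.castRingHom ℤ_[r])).map (padicToRing hrO) := by
  ext i j
  simp

theorem mulVec_mem_coeffSubmodule (K : Submodule ℤ_[r] (Fin R → ℤ_[r]))
    (M : Matrix (Fin R) (Fin R) ℤ_[r]) (hM : ∀ z, M.mulVec z ∈ K) (u : Fin R → O) :
    (M.map (padicToRing hrO)).mulVec u ∈ coeffSubmodule hrO K := by
  have hu : u ∈ Submodule.span O (Set.range fun i : Fin R =>
      padicToRing hrO ∘ (Pi.single i (1 : ℤ_[r]))) := by
    rw [pi_eq_sum_univ u]
    refine sum_mem fun i _ => Submodule.smul_mem _ _ (Submodule.subset_span ⟨i, ?_⟩)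
    funext j
    by_cases hij : i = j
    · subst hij; simp
    · simp [hij, Ne.symm hij]
  induction hu using Submodule.span_induction with
  | mem x hx =>
    obtain ⟨i, rfl⟩ := hx
    rw [map_mulVec_comp]
    exact Submodule.subset_span ⟨_, hM _, rfl⟩
  | zero => rw [Matrix.mulVec_zero]; exact zero_mem _
  | add x y _ _ hx hy => rw [Matrix.mulVec_add]; exact add_mem hx hy
  | smul a x _ hx => rw [Matrix.mulVec_smul]; exact Submodule.smul_mem _ a hx

theorem mulVec_mem_coeffSubmodule_of_stable (K : Submodule ℤ_[r] (Fin R → ℤ_[r]))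
    (M : Matrix (Fin R) (Fin R) ℤ_[r]) (hM : ∀ z ∈ K, M.mulVec z ∈ K) {u : Fin R → O}
    (hu : u ∈ coeffSubmodule hrO K) :
    (M.map (padicToRing hrO)).mulVec u ∈ coeffSubmodule hrO K := by
  rw [coeffSubmodule] at hu ⊢
  induction hu using Submodule.span_induction with
  | mem x hx =>
    obtain ⟨z, hz, rfl⟩ := hx
    rw [map_mulVec_comp]
    exact Submodule.subset_span ⟨_, hM z hz, rfl⟩
  | zero => rw [Matrix.mulVec_zero]; exact zero_mem _
  | add x y _ _ hx hy => rw [Matrix.mulVec_add]; exact add_mem hx hy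
  | smul a x _ hx => rw [Matrix.mulVec_smul]; exact Submodule.smul_mem _ a hx

end Coord

end Fermat.Agent.Mazur.Descent
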