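/-
`|a_ℓ| < ℓ + 1` for weight two cusp eigenforms on `Γ₀(N)`, by the maximum of `y |f|`.
-/
import Fermat.Prelude.Def_ModularForm_HeckeOperatorForms
import Mathlib.NumberTheory.ModularForms.Bounds

set_option autoImplicit false

noncomputable section

open CongruenceSubgroup UpperHalfPlane Filter Topology ModularGroup Matrix.SpecialLinearGroup
open scoped MatrixGroups ModularForm Pointwise Modular

namespace Fermat.Agent.Mazur.Descent

variable {N : ℕ} [NeZero N]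

/-- The square of the invariant `y |f|`. -/
def heightSq (f : CuspForm (Gamma0 N) 2) (τ : ℍ) : ℝ := ‖petersson 2 f f τ‖

theorem heightSq_eq (f : CuspForm (Gamma0 N) 2) (τ : ℍ) :
    heightSq f τ = (‖f τ‖ * τ.im) ^ 2 := by
  simp only [heightSq, petersson, norm_mul, Complex.norm_conj, norm_zpow, Complex.norm_real,
    Real.norm_of_nonneg τ.im_pos.le]
  rw [mul_pow, sq ‖f τ‖]
  norm_cast

theorem continuous_heightSq (f : CuspForm (Gamma0 N) 2) : Continuous (heightSq f) :=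
  (petersson_continuous 2 (CuspFormClass.holo f).continuous
    (CuspFormClass.holo f).continuous).norm

theorem tendsto_heightSq_smul (f : CuspForm (Gamma0 N) 2) (g : SL(2, ℤ)) :
    Tendsto (fun τ => heightSq f (g • τ)) atImInfty (𝓝 0) := by
  have : ((ConjAct.toConjAct (g : GL (Fin 2) ℝ)⁻¹) •
      ((Gamma0 N : Subgroup SL(2, ℤ)) : Subgroup (GL (Fin 2) ℝ))).IsArithmetic := by
    simpa [(show Rat.castHom ℝ = algebraMap ℚ ℝ by rfl), map_inv, map_mapGL]
      using! Subgroup.IsArithmetic.conj ((Gamma0 N : Subgroup SL(2, ℤ)) : Subgroup (GL (Fin 2) ℝ))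
        (mapGL ℚ g)⁻¹
  have h := (CuspFormClass.zero_at_infty <| CuspForm.translate f g).petersson_isZeroAtImInfty_left
    2 ((ConjAct.toConjAct (g : GL (Fin 2) ℝ)⁻¹) •
      ((Gamma0 N : Subgroup SL(2, ℤ)) : Subgroup (GL (Fin 2) ℝ))) (CuspForm.translate f g)
  have h' : Tendsto (fun τ => ‖petersson 2 (⇑f ∣[(2 : ℤ)] g) (⇑f ∣[(2 : ℤ)] g) τ‖) atImInfty
      (𝓝 0) := tendsto_zero_iff_norm_tendsto_zero.1 h
  simpa [heightSq, UpperHalfPlane.petersson_slash_SL] using h'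

theorem heightSq_smul (f : CuspForm (Gamma0 N) 2) {γ : SL(2, ℤ)} (hγ : γ ∈ Gamma0 N) (τ : ℍ) :
    heightSq f (γ • τ) = heightSq f τ :=
  SlashInvariantFormClass.norm_petersson_smul (Γ := ((Gamma0 N : Subgroup SL(2, ℤ)) : Subgroup (GL (Fin 2) ℝ)))
    (Subgroup.mem_map_of_mem _ hγ)

/-- `y |f|` attains its maximum. -/
theorem exists_isMax_heightSq (f : CuspForm (Gamma0 N) 2) :
    ∃ τ₀ : ℍ, ∀ τ, heightSq f τ ≤ heightSq f τ₀ := by
  classical
  by_cases h0 : ∀ τ, heightSq f τ = 0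
  · exact ⟨UpperHalfPlane.I, fun τ => by rw [h0, h0]⟩
  simp only [not_forall] at h0
  obtain ⟨τ₁, hτ₁⟩ := h0
  have hpos : 0 < heightSq f τ₁ := lt_of_le_of_ne (norm_nonneg _) (Ne.symm hτ₁)
  haveI : Fintype (SL(2, ℤ) ⧸ Gamma0 N) := Subgroup.fintypeQuotientOfFiniteIndex
  set R : Finset SL(2, ℤ) := Finset.univ.image fun q : SL(2, ℤ) ⧸ Gamma0 N => (Quotient.out q)⁻¹
    with hR
  have hred : ∀ τ : ℍ, ∃ g ∈ R, ∃ w ∈ 𝒟, heightSq f τ = heightSq f (g • w) := by
    intro τ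
    obtain ⟨h, hh⟩ := exists_smul_mem_fd τ
    set q : SL(2, ℤ) ⧸ Gamma0 N := QuotientGroup.mk h
    refine ⟨(Quotient.out q)⁻¹, Finset.mem_image_of_mem _ (Finset.mem_univ q), h • τ, hh, ?_⟩
    obtain ⟨γ, hγ⟩ := QuotientGroup.mk_out_eq_mul (Gamma0 N) h
    rw [← mul_smul, hγ, mul_inv_rev, mul_assoc, inv_mul_cancel, mul_one,
      heightSq_smul f (inv_mem γ.2)]
  have hsmall : ∀ᶠ w : ℍ in atImInfty, ∀ g ∈ R, heightSq f (g • w) < heightSq f τ₁ :=
    (eventually_all_finset R).2 fun g _ =>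
      (tendsto_heightSq_smul f g).eventually (eventually_lt_nhds hpos)
  obtain ⟨Y, hY⟩ := (atImInfty_mem _).1 hsmall
  set K : Set ℍ := ⋃ g ∈ R, (g • ·) '' truncatedFundamentalDomain Y with hK
  have hKc : IsCompact K := R.finite_toSet.isCompact_biUnion fun g _ =>
    (isCompact_truncatedFundamentalDomain Y).image (by simp only [sl_moeb]; fun_prop)
  have hin : ∀ τ, heightSq f τ₁ ≤ heightSq f τ → ∃ z ∈ K, heightSq f τ = heightSq f z := by
    intro τ hτ
    obtain ⟨g, hg, w, hw, he⟩ := hred τ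
    refine ⟨g • w, Set.mem_biUnion hg ⟨w, ⟨hw, ?_⟩, rfl⟩, he⟩
    by_contra hwY
    have := hY w (le_of_lt (not_le.1 hwY)) g hg
    rw [← he] at this
    exact absurd this (not_lt.2 hτ)
  obtain ⟨z₁, hz₁, hz₁e⟩ := hin τ₁ le_rfl
  obtain ⟨τ₀, -, hmax⟩ := hKc.exists_isMaxOn ⟨z₁, hz₁⟩ (continuous_heightSq f).continuousOn
  refine ⟨τ₀, fun τ => ?_⟩
  rcases le_total (heightSq f τ) (heightSq f τ₁) with h | h
  · exact h.trans (hz₁e ▸ hmax hz₁)
  · obtain ⟨z, hz, he⟩ := hin τ h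
    exact he ▸ hmax hz

/-- The bound on an eigenvalue of `T_ℓ` in weight two. -/
theorem norm_eigenvalue_lt {ℓ : ℕ} (hℓ : ℓ.Prime) (hℓN : ¬ ℓ ∣ N) {f : CuspForm (Gamma0 N) 2}
    (hf : f ≠ 0) {a : ℂ} (h : CuspForm.heckeTLin 2 hℓ hℓN f = a • f) : ‖a‖ < ℓ + 1 := by
  by_contra hlt
  rw [not_lt] at hlt
  obtain ⟨τ₀, hτ₀⟩ := exists_isMax_heightSq f
  set φ : ℍ → ℝ := fun τ => ‖f τ‖ * τ.im with hφ
  have hφ0 : ∀ τ, 0 ≤ φ τ := fun τ => mul_nonneg (norm_nonneg _) τ.im_pos.le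
  have hmax : ∀ τ, φ τ ≤ φ τ₀ := fun τ => by
    have := hτ₀ τ
    rw [heightSq_eq, heightSq_eq] at this
    exact pow_le_pow_iff_left₀ (hφ0 τ) (hφ0 τ₀) two_ne_zero |>.1 this
  have hℓ0 : (0 : ℝ) < ℓ := by exact_mod_cast hℓ.pos
  have key : ∀ τ, φ τ = φ τ₀ → φ (ModularForm.heckeDiagMatrix ℓ • τ) = φ τ₀ := by
    intro τ hτ
    have him : ∀ j : ℕ, (ModularForm.heckeMatrix ℓ j • τ).im = τ.im / ℓ := fun j => by
      rw [← UpperHalfPlane.coe_im, ModularForm.coe_heckeMatrix_smul hℓ.ne_zero]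
      simp
    have himd : (ModularForm.heckeDiagMatrix ℓ • τ).im = ℓ * τ.im := by
      rw [← UpperHalfPlane.coe_im, ModularForm.coe_heckeDiagMatrix_smul hℓ.ne_zero]
      simp
    have happ : a * f τ = (ℓ : ℂ)⁻¹ * ∑ j ∈ Finset.range ℓ, f (ModularForm.heckeMatrix ℓ j • τ)
        + (ℓ : ℂ) * f (ModularForm.heckeDiagMatrix ℓ • τ) := by
      have h' := congrArg (fun u : CuspForm (Gamma0 N) 2 => u τ) h
      simp only [smul_apply, smul_eq_mul] at h'
      rw [← h', CuspForm.coe_heckeTLin_apply, ModularForm.heckeT_apply 2 hℓ.ne_zero]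
      norm_num
    have hsum : ‖a‖ * φ τ ≤ (∑ j ∈ Finset.range ℓ, φ (ModularForm.heckeMatrix ℓ j • τ))
        + φ (ModularForm.heckeDiagMatrix ℓ • τ) := by
      have h1 : ‖a * f τ‖ ≤ (ℓ : ℝ)⁻¹ * ∑ j ∈ Finset.range ℓ, ‖f (ModularForm.heckeMatrix ℓ j • τ)‖
          + (ℓ : ℝ) * ‖f (ModularForm.heckeDiagMatrix ℓ • τ)‖ := by
        rw [happ]
        refine (norm_add_le _ _).trans ?_
        simp only [norm_mul, norm_inv, Complex.norm_natCast]
        gcongr
        exact norm_sum_le _ _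
      have h2 := mul_le_mul_of_nonneg_right h1 τ.im_pos.le
      rw [norm_mul, mul_assoc] at h2
      refine h2.trans (le_of_eq ?_)
      simp only [hφ, him, himd, Finset.mul_sum, Finset.sum_mul, add_mul]
      congr 1
      · exact Finset.sum_congr rfl fun j _ => by ring
      · ring
    have hle : ∑ j ∈ Finset.range ℓ, φ (ModularForm.heckeMatrix ℓ j • τ) ≤ ℓ * φ τ₀ := by
      refine (Finset.sum_le_sum fun j _ => hmax _).trans ?_
      simp
    rw [hτ] at hsum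
    nlinarith [hmax (ModularForm.heckeDiagMatrix ℓ • τ),
      mul_le_mul_of_nonneg_right hlt (hφ0 τ₀)]
  -- iterate towards the cusp
  let seq : ℕ → ℍ := fun n => (fun τ => ModularForm.heckeDiagMatrix ℓ • τ)^[n] τ₀
  have hseq : ∀ n, φ (seq n) = φ τ₀ ∧ (seq n).im = (ℓ : ℝ) ^ n * τ₀.im := by
    intro n
    induction n with
    | zero => simp [seq]
    | succ n ih =>
      simp only [seq, Function.iterate_succ_apply'] at ih ⊢
      refine ⟨key _ ih.1, ?_⟩
      rw [← UpperHalfPlane.coe_im, ModularForm.coe_heckeDiagMatrix_smul hℓ.ne_zero]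
      simp only [Complex.mul_im, Complex.natCast_re, Complex.natCast_im, zero_mul, add_zero,
        UpperHalfPlane.coe_im, ih.2, pow_succ]
      ring
  have hgo : Tendsto seq atTop atImInfty := by
    rw [atImInfty, tendsto_comap_iff]
    have : (UpperHalfPlane.im ∘ seq) = fun n => (ℓ : ℝ) ^ n * τ₀.im := funext fun n => (hseq n).2
    rw [this]
    exact (tendsto_pow_atTop_atTop_of_one_lt (by exact_mod_cast hℓ.one_lt)).atTop_mul_const τ₀.im_pos
  have hlim : Tendsto (fun n => φ (seq n) ^ 2) atTop (𝓝 0) := by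
    have := (tendsto_heightSq_smul f 1).comp hgo
    simpa [Function.comp_def, heightSq_eq] using this
  have hzero : φ τ₀ = 0 := by
    simp only [fun n => (hseq n).1] at hlim
    exact pow_eq_zero_iff two_ne_zero |>.1 (tendsto_const_nhds_iff.1 hlim)
  refine hf (DFunLike.ext _ _ fun τ => ?_)
  have : φ τ = 0 := le_antisymm (hzero ▸ hmax τ) (hφ0 τ)
  simpa [hφ, τ.im_pos.ne'] using this

end Fermat.Agent.Mazur.Descent
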