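/-
At prime level a weight two cusp form is determined by its coefficients of index prime to the
level; hence the operators away from the level span the complexified Hecke algebra.
-/
import Fermat.Agent.Eisenstein.LevelP
import Fermat.Agent.Periods.HeckeCoeff

set_option autoImplicit false

noncomputable section

open CongruenceSubgroup UpperHalfPlane ModularFormClass
open scoped MatrixGroups ModularForm

namespace Fermat.Agent.Mazur.Descent

variable {N : ℕ} [NeZero N]

local notation "S₂" => CuspForm (CongruenceSubgroup.Gamma0 N) 2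

theorem qParam_one_add (z w : ℂ) :
    Function.Periodic.qParam 1 (z + w) =
      Function.Periodic.qParam 1 z * Complex.exp (2 * Real.pi * Complex.I * w) := by
  simp only [Function.Periodic.qParam, Complex.ofReal_one, div_one, ← Complex.exp_add]
  ring_nf

/-- A form supported on indices divisible by `N` satisfies `f ((z + j) / N) = f (z / N)`. -/
theorem apply_heckeMatrix_of_supported (f : S₂) (h : ∀ n, ¬ N ∣ n → qCoeff f n = 0)
    (j : ℕ) (z : ℍ) :
    f (ModularForm.heckeMatrix N j • z) = f (ModularForm.heckeMatrix N 0 • z) := by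
  have hN : N ≠ 0 := NeZero.ne N
  have hΓ : (1 : ℝ) ∈ ((Gamma0 N : Subgroup SL(2, ℤ)) : Subgroup (GL (Fin 2) ℝ)).strictPeriods :=
    CongruenceSubgroup.one_mem_strictPeriods_Gamma0 N
  have h1 := ModularForm.hasSum_qExpansion (f := f) (h := (1 : ℝ)) one_pos hΓ (ModularForm.heckeMatrix N j • z)
  have h2 := ModularForm.hasSum_qExpansion (f := f) (h := (1 : ℝ)) one_pos hΓ (ModularForm.heckeMatrix N 0 • z)
  refine h1.unique ?_
  convert h2 using 1
  funext m
  rw [ModularForm.coe_heckeMatrix_smul hN, ModularForm.coe_heckeMatrix_smul hN, Nat.cast_zero,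
    add_zero, add_div, qParam_one_add, mul_pow]
  by_cases hm : N ∣ m
  · obtain ⟨k, rfl⟩ := hm
    have : Complex.exp (2 * Real.pi * Complex.I * ((j : ℂ) / N)) ^ (N * k) = 1 := by
      rw [← Complex.exp_nat_mul, Complex.exp_eq_one_iff]
      refine ⟨(k * j : ℕ), ?_⟩
      have hN' : (N : ℂ) ≠ 0 := Nat.cast_ne_zero.2 hN
      push_cast
      field_simp
    rw [this, mul_one]
  · rw [show (qExpansion 1 ⇑f).coeff m = 0 from h m hm, zero_mul, zero_mul]

/-- At prime level, a cusp form supported on indices divisible by the level is zero. -/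
theorem eq_zero_of_supported (hN : N.Prime) (f : S₂) (h : ∀ n, ¬ N ∣ n → qCoeff f n = 0) :
    f = 0 := by
  set g : ℍ → ℂ := fun z => f (ModularForm.heckeMatrix N 0 • z) with hg
  have hN0 : (N : ℂ) ≠ 0 := Nat.cast_ne_zero.2 hN.ne_zero
  have hU : ∀ z, CuspForm.heckeULin 2 (dvd_refl N) f z = g z := by
    intro z
    rw [CuspForm.coe_heckeULin_apply, ModularForm.heckeU_apply 2 hN.ne_zero]
    simp only [apply_heckeMatrix_of_supported f h, Finset.sum_const, Finset.card_range,
      nsmul_eq_mul]
    rw [← mul_assoc, inv_mul_cancel₀ hN0, one_mul]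
  let S : ℍ → ℍ := fun z => ⟨-1 / (z : ℂ), by
    simp only [Complex.div_im, Complex.neg_im, Complex.one_im, neg_zero, zero_mul, zero_div,
      Complex.neg_re, Complex.one_re, zero_sub]
    have := Complex.normSq_pos.2 z.ne_zero
    have := z.im_pos
    simp only [UpperHalfPlane.coe_im] at *
    rw [neg_div', neg_mul, neg_neg, one_mul]
    positivity⟩
  have hfun : ∀ z, g z = -((N : ℂ)⁻¹ * (z : ℂ) ^ (-2 : ℤ) * g (S z)) := by
    intro z
    rw [← hU z, Eisenstein.heckeULin_eq_neg_atkinW hN f, Pi.neg_apply, ModularForm.slash_apply]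
    have hdet : ((Eisenstein.atkinW N).det : ℝ) = N := by
      rw [Matrix.GeneralLinearGroup.val_det_apply, Eisenstein.atkinW_val hN.ne_zero,
        Matrix.det_fin_two]
      simp
    have hpos : 0 < ((Eisenstein.atkinW N).det : ℝ) := by
      rw [hdet]; exact_mod_cast hN.pos
    have hden : UpperHalfPlane.denom (Eisenstein.atkinW N) z = (N : ℂ) * z := by
      simp [UpperHalfPlane.denom, Eisenstein.atkinW_val hN.ne_zero]
    have hsmul : Eisenstein.atkinW N • z = ModularForm.heckeMatrix N 0 • S z := by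
      apply UpperHalfPlane.ext
      rw [UpperHalfPlane.coe_smul_of_det_pos hpos, ModularForm.coe_heckeMatrix_smul hN.ne_zero]
      simp [UpperHalfPlane.num, hden, Eisenstein.atkinW_val hN.ne_zero, S]
      field_simp
    have hσ : UpperHalfPlane.σ (Eisenstein.atkinW N) = .refl ℝ ℂ := by
      rw [UpperHalfPlane.σ, if_pos hpos]
    rw [hσ, hsmul, hdet, hden, hg]
    simp only [ContinuousAlgEquiv.refl_apply, Nat.abs_cast, Complex.ofReal_natCast, neg_inj]
    rw [mul_zpow, zpow_neg, zpow_neg, show (2 : ℤ) - 1 = 1 by norm_num, zpow_one]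
    have hz : (z : ℂ) ≠ 0 := z.ne_zero
    simp only [zpow_ofNat]
    field_simp
  have hSS : ∀ z, S (S z) = z := fun z => by
    apply UpperHalfPlane.ext
    have hz : (z : ℂ) ≠ 0 := z.ne_zero
    simp [S]
  have hzero : ∀ z, g z = 0 := by
    intro z
    have h1 := hfun z
    rw [hfun (S z), hSS] at h1
    have hz : (z : ℂ) ≠ 0 := z.ne_zero
    have hc : (z : ℂ) ^ (-2 : ℤ) * ((S z : ℍ) : ℂ) ^ (-2 : ℤ) = 1 := by
      simp only [S, zpow_neg, zpow_ofNat]
      field_simp
    have h2 : g z * (1 - (N : ℂ)⁻¹ ^ 2) = 0 := by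
      calc g z * (1 - (N : ℂ)⁻¹ ^ 2)
          = g z - (N : ℂ)⁻¹ ^ 2 * ((z : ℂ) ^ (-2 : ℤ) * ((S z : ℍ) : ℂ) ^ (-2 : ℤ)) * g z := by
            rw [hc]; ring
        _ = 0 := by nth_rw 1 [h1]; ring
    refine (mul_eq_zero.1 h2).resolve_right fun h3 => ?_
    have h4 : (N : ℂ) ^ 2 = 1 := by
      field_simp at h3
      linear_combination h3
    have h5 : N ^ 2 = 1 := by exact_mod_cast h4
    exact hN.one_lt.ne' (by simpa using h5)
  refine DFunLike.ext _ _ fun τ => ?_
  let z : ℍ := ModularForm.heckeDiagMatrix N • τ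
  have hz : ModularForm.heckeMatrix N 0 • z = τ := by
    apply UpperHalfPlane.ext
    rw [ModularForm.coe_heckeMatrix_smul hN.ne_zero, ModularForm.coe_heckeDiagMatrix_smul hN.ne_zero]
    field_simp
    simp
  simpa [hg, hz] using hzero z

variable (N) in
/-- Operators of the complex span of a ring of good Hecke operators detect every form. -/
theorem eq_zero_of_forall_good (hN : N.Prime) (G : Subalgebra ℤ (Module.End ℂ S₂))
    (hG : ∀ (p : ℕ) (hp : p.Prime) (hpN : ¬ p ∣ N), CuspForm.heckeTLin 2 hp hpN ∈ G)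
    {f : S₂} (h : ∀ t ∈ G, qCoeff (⇑(t f)) 1 = 0) : f = 0 := by
  refine eq_zero_of_supported hN f fun n => ?_
  suffices H : ∀ n, ¬ N ∣ n → ∃ t ∈ G, ∀ g : S₂, qCoeff g n = qCoeff (⇑(t g)) 1 by
    intro hn
    obtain ⟨t, ht, e⟩ := H n hn
    rw [e, h t ht]
  intro n
  induction n using Periods.prime_mul_induction with
  | h0 => exact fun hn => absurd (dvd_zero N) hn
  | h1 => exact fun _ => ⟨1, one_mem _, fun g => rfl⟩
  | hmul p m hp hm ih =>
    intro hn
    obtain ⟨t, ht, htf⟩ := ih m le_rfl fun hd => hn (hd.mul_right p)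
    have hpN : ¬ p ∣ N := fun hd => hn <| by
      rcases hN.eq_one_or_self_of_dvd p hd with h1 | h1
      · exact absurd h1 hp.ne_one
      · exact h1 ▸ dvd_mul_left p m
    by_cases hpm : p ∣ m
    · obtain ⟨s, hs, hsf⟩ := ih (m / p) (Nat.div_le_self m p) fun hd =>
        hn ((hd.trans (Nat.div_dvd_of_dvd hpm)).mul_right p)
      refine ⟨t * CuspForm.heckeTLin 2 hp hpN - (p : Module.End ℂ S₂) * s,
        sub_mem (mul_mem ht (hG p hp hpN)) (mul_mem (natCast_mem _ p) hs), fun g => ?_⟩
      have h := Periods.qCoeff_heckeTLin hp hpN g m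
      rw [if_pos hpm] at h
      simp only [← Periods.qCoeffLin_apply] at h hsf htf ⊢
      rw [LinearMap.sub_apply, map_sub, Module.End.mul_apply, ← htf, Module.End.mul_apply,
        Module.End.natCast_apply, ← Nat.cast_smul_eq_nsmul ℂ, map_smul, ← hsf, h, smul_eq_mul]
      ring
    · refine ⟨t * CuspForm.heckeTLin 2 hp hpN, mul_mem ht (hG p hp hpN), fun g => ?_⟩
      have h := Periods.qCoeff_heckeTLin hp hpN g m
      rw [if_neg hpm, add_zero] at h
      rw [← h, htf]
      rfl

end Fermat.Agent.Mazur.Descent
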