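/-
The Hecke algebra of weight two at prime level: it is reduced, the operators at primes away from
the level generate it rationally, and `|a_ℓ| < ℓ + 1`.
-/
import Fermat.Agent.Mazur.Descent.Points
import Fermat.Agent.Mazur.Descent.EigenvalueBound
import Fermat.Agent.Mazur.Descent.PrimeLevelCoeff
import Fermat.Agent.BadPrime.NewformEigenPart
import Fermat.Agent.Hecke.GoodSemisimple
import Fermat.Agent.HeckeFinite.Finite
import Fermat.Agent.Periods.Integral

set_option autoImplicit false

noncomputable section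

open CongruenceSubgroup ModularCurve
open ModularFormClass (qCoeff)
open scoped Polynomial

namespace Fermat.Agent.Mazur.Descent

open EichlerShimura (cuspRank heckeMatrix)

/-- The Hecke matrices at primes not dividing the level. -/
def goodMatrix (N : ℕ) [NeZero N] (ℓ : {ℓ : Nat.Primes // ¬ (ℓ : ℕ) ∣ N}) :
    Matrix (Fin (cuspRank N)) (Fin (cuspRank N)) ℤ :=
  heckeMatrix N ℓ.1

/-- A map from a reduced ring, integral over `ℤ`, to a torsion-free ring detects nilpotents. -/
theorem eq_zero_of_isNilpotent_map {R S : Type*} [CommRing R] [IsReduced R]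
    [Algebra.IsIntegral ℤ R] [Ring S] (hS : ∀ (n : ℤ) (s : S), n ≠ 0 → n • s = 0 → s = 0)
    (f : R →+* S) {y : R} (h : IsNilpotent (f y)) : f y = 0 := by
  obtain ⟨k, hk⟩ := h
  obtain ⟨p, hp, hpy⟩ := Algebra.IsIntegral.isIntegral (R := ℤ) y
  rw [← Polynomial.aeval_def] at hpy
  obtain ⟨q, hq, hndvd⟩ := p.exists_eq_pow_rootMultiplicity_mul_and_not_dvd hp.ne_zero 0
  rw [map_zero, sub_zero] at hq hndvd
  have hq0 : q.coeff 0 ≠ 0 := fun h0 => hndvd (Polynomial.X_dvd_iff.2 h0)
  generalize Polynomial.rootMultiplicity 0 p = m at hq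
  have h1 : y * Polynomial.aeval y q = 0 := by
    refine IsReduced.eq_zero _ ⟨m + 1, ?_⟩
    rw [hq, map_mul, map_pow, Polynomial.aeval_X] at hpy
    calc (y * Polynomial.aeval y q) ^ (m + 1)
        = (y ^ m * Polynomial.aeval y q) * (y * (Polynomial.aeval y q) ^ m) := by ring
      _ = 0 := by rw [hpy, zero_mul]
  have h2 : (q.coeff 0 : R) * y = y ^ 2 * -Polynomial.aeval y q.divX := by
    rw [← Polynomial.X_mul_divX_add q, map_add, map_mul, Polynomial.aeval_X, Polynomial.aeval_C,
      eq_intCast] at h1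
    linear_combination h1
  have h3 : ∀ j : ℕ, ∃ r : R, (q.coeff 0 : R) ^ j * y = y ^ (j + 1) * r := by
    intro j
    induction j with
    | zero => exact ⟨1, by ring⟩
    | succ j ih =>
      obtain ⟨r, hr⟩ := ih
      exact ⟨r * -Polynomial.aeval y q.divX, by
        linear_combination (q.coeff 0 : R) * hr + y ^ j * r * h2⟩
  obtain ⟨r, hr⟩ := h3 k
  refine hS (q.coeff 0 ^ k) (f y) (pow_ne_zero _ hq0) ?_
  have h4 := congrArg f hr
  rw [map_mul, map_mul, map_pow, map_pow, map_intCast, pow_succ, hk, zero_mul, zero_mul] at h4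
  rw [zsmul_eq_mul, Int.cast_pow, h4]

/-- A sublattice spanning rationally: if `ψ` keeps independence and `ψ x` is in the complex span
of `G`, a multiple of `x` lies in `G`. -/
theorem exists_zsmul_mem_of_span {M E : Type*} [AddCommGroup M] [Module.Finite ℤ M]
    [IsAddTorsionFree M] [AddCommGroup E] [Module ℂ E] (ψ : M →+ E)
    (hψ : ∀ {κ : Type} (t : κ → M), LinearIndependent ℤ t → LinearIndependent ℂ (fun i => ψ (t i)))
    (G : Submodule ℤ M) (x : M) (hx : ψ x ∈ Submodule.span ℂ (ψ '' (G : Set M))) :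
    ∃ m : ℤ, m ≠ 0 ∧ m • x ∈ G := by
  by_contra! hcon
  obtain ⟨n, ⟨b⟩⟩ : ∃ n : ℕ, Nonempty (Module.Basis (Fin n) ℤ G) :=
    ⟨_, ⟨Module.finBasis ℤ G⟩⟩
  let c : Option (Fin n) → M := fun o => o.elim x (fun i => (b i : M))
  have hli : LinearIndependent ℤ c := by
    rw [Fintype.linearIndependent_iff]
    intro g hg
    rw [Fintype.sum_option] at hg
    simp only [c, Option.elim] at hg
    have h0 : g none = 0 := by
      by_contra h0
      refine hcon (g none) h0 ?_
      rw [eq_neg_of_add_eq_zero_left hg]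
      exact neg_mem (Submodule.sum_mem _ fun i _ => Submodule.smul_mem _ _ (b i).2)
    rw [h0, zero_smul, zero_add] at hg
    have hbi := Fintype.linearIndependent_iff.1
      (b.linearIndependent.map' G.subtype (Submodule.ker_subtype _)) (fun i => g (some i)) hg
    rintro (_ | i)
    · exact h0
    · exact hbi i
  refine (hψ c hli).notMem_span_image (s := Set.range some) (x := none) (by simp) ?_
  refine Submodule.span_le.2 ?_ hx
  rintro _ ⟨t, ht, rfl⟩
  have e := congrArg (fun u : G => ψ (u : M)) (b.sum_repr ⟨t, ht⟩)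
  simp only [AddSubmonoidClass.coe_finsetSum, Submodule.coe_smul, map_sum, map_zsmul] at e
  show ψ t ∈ _
  rw [← e]
  refine Submodule.sum_mem _ fun i _ => zsmul_mem (Submodule.subset_span ?_) _
  exact ⟨some i, ⟨i, rfl⟩, rfl⟩

/-- The Hecke matrices at good primes are a quotient of the Hecke algebra away from the level. -/
theorem exists_goodHom (N : ℕ) [NeZero N] :
    ∃ F : CuspForm.heckeAlgebra N 2 {q : ℕ | q ∣ N} →ₐ[ℤ]
        Matrix (Fin (cuspRank N)) (Fin (cuspRank N)) ℤ,
      ∀ ℓ, F (CuspForm.heckeAlgebra.T ℓ.1.2 ℓ.2 (fun h => ℓ.2 h)) = goodMatrix N ℓ := by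
  obtain ⟨Θ, hΘ⟩ := BadPrime.exists_heckeRep N
  refine ⟨Θ.toIntAlgHom.comp
    (Subalgebra.inclusion (CuspForm.heckeAlgebra_mono (Set.empty_subset _))), fun ℓ => ?_⟩
  refine Eq.trans ?_ (hΘ ℓ.1)
  show Θ _ = Θ _
  congr 1
  apply Subtype.ext
  rw [EichlerShimura.heckeTU, dif_neg ℓ.2]
  rfl

theorem goodMatrix_comm (N : ℕ) [NeZero N] (ℓ ℓ' : {ℓ : Nat.Primes // ¬ (ℓ : ℕ) ∣ N}) :
    goodMatrix N ℓ * goodMatrix N ℓ' = goodMatrix N ℓ' * goodMatrix N ℓ := by
  obtain ⟨F, hF⟩ := exists_goodHom N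
  rw [← hF, ← hF, ← map_mul, ← map_mul, mul_comm]

theorem isReduced_adjoin_goodMatrix (N : ℕ) [NeZero N] :
    IsReduced ↥(Algebra.adjoin ℤ (Set.range (goodMatrix N))) := by
  obtain ⟨F, hF⟩ := exists_goodHom N
  have : IsReduced (CuspForm.heckeAlgebra N 2 {q : ℕ | q ∣ N}) :=
    Hecke.isReduced_heckeAlgebra N 2 _ fun q _ h => h
  have : Module.Finite ℤ (CuspForm.heckeAlgebra N 2 {q : ℕ | q ∣ N}) :=
    HeckeFinite.moduleFinite_heckeAlgebra N 2 _
  refine ⟨fun z hz => Subtype.ext ?_⟩
  have hle : Algebra.adjoin ℤ (Set.range (goodMatrix N)) ≤ F.range :=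
    Algebra.adjoin_le (Set.range_subset_iff.2 fun ℓ => ⟨_, hF ℓ⟩)
  obtain ⟨y, hy : F y = z.1⟩ := hle z.2
  rw [← hy]
  refine eq_zero_of_isNilpotent_map (fun n s hn h => (smul_eq_zero.1 h).resolve_left hn)
    F.toRingHom ?_
  show IsNilpotent (F y)
  rw [hy]
  exact hz.map (Algebra.adjoin ℤ (Set.range (goodMatrix N))).val

theorem exists_good_multiple (N : ℕ) [NeZero N] (hN : N.Prime)
    (x : CuspForm.heckeAlgebra N 2 (∅ : Set ℕ)) :
    ∃ m : ℤ, m ≠ 0 ∧ ∃ t ∈ goodHecke N,
      m • x = MvPolynomial.eval₂Hom (Int.castRingHom _) (Immersion.formsGen N) t := by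
  let T := CuspForm.heckeAlgebra N 2 (∅ : Set ℕ)
  let ev : HeckeAlg →ₐ[ℤ] T :=
    (MvPolynomial.eval₂Hom (Int.castRingHom T) (Immersion.formsGen N)).toIntAlgHom
  let G : Subalgebra ℤ T := (goodHecke N).map ev
  suffices H : ∃ m : ℤ, m ≠ 0 ∧ m • x ∈ G by
    obtain ⟨m, hm, t, ht, e⟩ := H
    exact ⟨m, hm, t, ht, e.symm⟩
  have : Module.Finite ℂ (CuspForm (Gamma0 N) 2) := Periods.finite_cuspForm_two N
  have hG : ∀ (p : ℕ) (hp : p.Prime) (hpN : ¬ p ∣ N),
      CuspForm.heckeTLin 2 hp hpN ∈ G.map T.val := fun p hp hpN => by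
    refine ⟨ev (heckeGen ⟨p, hp⟩), ⟨_, heckeGen_mem_goodHecke ⟨p, hp⟩ hpN, rfl⟩, ?_⟩
    show (((MvPolynomial.eval₂Hom (Int.castRingHom T) (Immersion.formsGen N))
      (heckeGen ⟨p, hp⟩) : T) : Module.End ℂ (CuspForm (Gamma0 N) 2)) = _
    rw [show (MvPolynomial.eval₂Hom (Int.castRingHom T) (Immersion.formsGen N))
        (heckeGen ⟨p, hp⟩) = Immersion.formsGen N ⟨p, hp⟩ from MvPolynomial.eval₂Hom_X' _ _ _]
    simp only [Immersion.formsGen, dif_neg hpN]
    rfl
  let W : Submodule ℂ (Module.End ℂ (CuspForm (Gamma0 N) 2)) :=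
    Submodule.span ℂ (T : Set (Module.End ℂ (CuspForm (Gamma0 N) 2)))
  let V : Submodule ℂ (Module.End ℂ (CuspForm (Gamma0 N) 2)) :=
    Submodule.span ℂ (G.map T.val : Set (Module.End ℂ (CuspForm (Gamma0 N) 2)))
  have hVW : V ≤ W := Submodule.span_mono (by rintro _ ⟨t, -, rfl⟩; exact t.2)
  have hWS : Module.finrank ℂ W ≤ Module.finrank ℂ (CuspForm (Gamma0 N) 2) := by
    rw [← Subspace.dual_finrank_eq (K := ℂ) (V := CuspForm (Gamma0 N) 2)]
    let Φ : W →ₗ[ℂ] Module.Dual ℂ (CuspForm (Gamma0 N) 2) :=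
      { toFun := fun w => (Periods.qCoeffLin N 1).comp w.1
        map_add' := fun a b => LinearMap.comp_add _ _ _
        map_smul' := fun c a => LinearMap.comp_smul _ _ _ }
    refine LinearMap.finrank_le_finrank_of_injective (f := Φ) ?_
    refine (injective_iff_map_eq_zero _).2 fun w hw => Subtype.ext (LinearMap.ext fun g => ?_)
    refine Periods.eq_zero_of_forall_qCoeff_one fun t ht => ?_
    have hc : Commute t w.1 := by
      obtain ⟨w, hwW⟩ := w
      clear hw
      induction hwW using Submodule.span_induction with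
      | mem y hy =>
        exact congrArg Subtype.val (mul_comm (⟨t, ht⟩ : T) ⟨y, hy⟩)
      | zero => exact Commute.zero_right t
      | add _ _ _ _ h h' => exact h.add_right h'
      | smul c _ _ h => exact h.smul_right c
    rw [show t (w.1 g) = w.1 (t g) from LinearMap.congr_fun hc.eq g]
    exact LinearMap.congr_fun hw (t g)
  have hSV : Module.finrank ℂ (CuspForm (Gamma0 N) 2) ≤ Module.finrank ℂ V := by
    rw [← Subspace.dual_finrank_eq (K := ℂ) (V := V)]
    let Ψ : CuspForm (Gamma0 N) 2 →ₗ[ℂ] Module.Dual ℂ V :=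
      { toFun := fun g => (Periods.qCoeffLin N 1).comp ((LinearMap.applyₗ g).comp V.subtype)
        map_add' := fun a b => LinearMap.ext fun v => by
          simp only [LinearMap.add_apply, LinearMap.comp_apply, Submodule.subtype_apply,
            LinearMap.applyₗ_apply_apply, map_add]
        map_smul' := fun c a => LinearMap.ext fun v => by
          simp only [LinearMap.smul_apply, LinearMap.comp_apply, Submodule.subtype_apply,
            LinearMap.applyₗ_apply_apply, map_smul, RingHom.id_apply] }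
    refine LinearMap.finrank_le_finrank_of_injective (f := Ψ) ?_
    refine (injective_iff_map_eq_zero _).2 fun g hg => ?_
    exact eq_zero_of_forall_good N hN (G.map T.val) hG fun t ht =>
      LinearMap.congr_fun hg ⟨t, Submodule.subset_span ht⟩
  have hVW' : V = W := Submodule.eq_of_le_of_finrank_le hVW (hWS.trans hSV)
  have : Module.Finite ℤ T := HeckeFinite.moduleFinite_heckeAlgebra N 2 ∅
  have : IsAddTorsionFree T := ⟨fun n hn a b h => Subtype.ext (by
    have h' := congrArg T.val h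
    simp only [map_nsmul, Subalgebra.coe_val] at h'
    rw [← Nat.cast_smul_eq_nsmul ℂ, ← Nat.cast_smul_eq_nsmul ℂ] at h'
    exact smul_right_injective _ (Nat.cast_ne_zero.2 hn : (n : ℂ) ≠ 0) h')⟩
  have hx : (x : Module.End ℂ (CuspForm (Gamma0 N) 2)) ∈ V := hVW' ▸ Submodule.subset_span x.2
  exact exists_zsmul_mem_of_span T.val.toAddMonoidHom
    (fun t ht => Periods.linearIndependent_complex_of_heckeAlgebra N t ht)
    (AddSubgroup.toIntSubmodule G.toSubring.toAddSubgroup) x hx

/-- A common eigenvector of the good Hecke matrices is one of the whole Hecke algebra. -/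
theorem exists_char_of_eigenvector (N : ℕ) [NeZero N] (hN : N.Prime)
    (Θ : CuspForm.heckeAlgebra N 2 (∅ : Set ℕ) →+*
      Matrix (Fin (cuspRank N)) (Fin (cuspRank N)) ℤ)
    (hΘ : ∀ ℓ : Nat.Primes, Θ (Immersion.formsGen N ℓ) = heckeMatrix N ℓ)
    {O : Type} [CommRing O] [IsDomain O] [IsDiscreteValuationRing O] [CharZero O]
    (c : {ℓ : Nat.Primes // ¬ (ℓ : ℕ) ∣ N} → O) {v : Fin (cuspRank N) → O} (hv : v ≠ 0)
    (hev : ∀ ℓ, ((goodMatrix N ℓ).map (Int.castRingHom O)).mulVec v = c ℓ • v) :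
    ∃ χ : CuspForm.heckeAlgebra N 2 (∅ : Set ℕ) →+* O,
      (∀ ℓ, χ (Immersion.formsGen N ℓ.1) = c ℓ) ∧
      ∀ u : Fin (cuspRank N) → O,
        (∀ ℓ, ((goodMatrix N ℓ).map (Int.castRingHom O)).mulVec u = c ℓ • u) →
          ∀ x, ((Θ x).map (Int.castRingHom O)).mulVec u = χ x • u := by
  let T := CuspForm.heckeAlgebra N 2 (∅ : Set ℕ)
  have : Module.Finite ℤ T := HeckeFinite.moduleFinite_heckeAlgebra N 2 ∅
  let Ψ : T →+* Matrix (Fin (cuspRank N)) (Fin (cuspRank N)) O :=
    (Int.castRingHom O).mapMatrix.comp Θ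
  let E : (Fin (cuspRank N) → O) → Prop := fun u =>
    ∀ ℓ, ((goodMatrix N ℓ).map (Int.castRingHom O)).mulVec u = c ℓ • u
  let ev := MvPolynomial.eval₂Hom (Int.castRingHom T) (Immersion.formsGen N)
  have hgen : ∀ ℓ : {ℓ : Nat.Primes // ¬ (ℓ : ℕ) ∣ N},
      Ψ (Immersion.formsGen N ℓ.1) = (goodMatrix N ℓ).map (Int.castRingHom O) :=
    fun ℓ => congrArg (fun M => M.map (Int.castRingHom O)) (hΘ ℓ.1)
  have hgood : ∀ t ∈ goodHecke N, ∃ a : O, ∀ u, E u → (Ψ (ev t)).mulVec u = a • u := by
    intro t ht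
    induction ht using Algebra.adjoin_induction with
    | mem t ht =>
      obtain ⟨ℓ, hℓ, rfl⟩ := ht
      refine ⟨c ⟨ℓ, hℓ⟩, fun u hu => ?_⟩
      rw [show ev (heckeGen ℓ) = Immersion.formsGen N ℓ from MvPolynomial.eval₂Hom_X' _ _ _,
        hgen ⟨ℓ, hℓ⟩]
      exact hu _
    | algebraMap r =>
      refine ⟨(r : O), fun u _ => ?_⟩
      rw [eq_intCast, map_intCast, map_intCast, Matrix.intCast_mulVec]
    | add s t _ _ hs ht =>
      obtain ⟨a, ha⟩ := hs
      obtain ⟨b, hb⟩ := ht
      refine ⟨a + b, fun u hu => ?_⟩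
      rw [map_add, map_add, Matrix.add_mulVec, ha u hu, hb u hu, add_smul]
    | mul s t _ _ hs ht =>
      obtain ⟨a, ha⟩ := hs
      obtain ⟨b, hb⟩ := ht
      refine ⟨b * a, fun u hu => ?_⟩
      rw [map_mul, map_mul, ← Matrix.mulVec_mulVec, hb u hu, Matrix.mulVec_smul, ha u hu,
        smul_smul]
  have hall : ∀ x : T, ∃ y : O, ∀ u, E u → (Ψ x).mulVec u = y • u := by
    intro x
    obtain ⟨m, hm, t, ht, hxt⟩ := exists_good_multiple N hN x
    obtain ⟨a, ha⟩ := hgood t ht
    have hmO : (m : O) ≠ 0 := Int.cast_ne_zero.2 hm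
    have hmx : ∀ u, E u → (m : O) • (Ψ x).mulVec u = a • u := fun u hu => by
      rw [← ha u hu, show ev t = m • x from hxt.symm, map_zsmul, Matrix.smul_mulVec,
        Int.cast_smul_eq_zsmul]
    obtain ⟨y, hy⟩ : ∃ y : O, algebraMap O (FractionRing O) y =
        algebraMap O (FractionRing O) a / (m : FractionRing O) := by
      refine IsIntegrallyClosed.isIntegral_iff.1 (IsIntegral.tower_top (R := ℤ) ?_)
      obtain ⟨p, hp, hpx⟩ := Algebra.IsIntegral.isIntegral (R := ℤ) x
      rw [← Polynomial.aeval_def] at hpx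
      refine ⟨p, hp, ?_⟩
      rw [← Polynomial.aeval_def]
      set K := FractionRing O
      set lam : K := algebraMap O K a / (m : K)
      let vK : Fin (cuspRank N) → K := fun i => algebraMap O K (v i)
      let ΨK : T →+* Matrix (Fin (cuspRank N)) (Fin (cuspRank N)) K :=
        (algebraMap O K).mapMatrix.comp Ψ
      have hx : (ΨK x).mulVec vK = lam • vK := by
        funext i
        have h1 := congrArg (algebraMap O K) (congrFun (hmx v hev) i)
        simp only [Pi.smul_apply, smul_eq_mul, map_mul, map_intCast] at h1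
        rw [RingHom.map_mulVec] at h1
        have hmK : (m : K) ≠ 0 := Int.cast_ne_zero.2 hm
        simp only [Pi.smul_apply, smul_eq_mul, lam, vK]
        rw [div_mul_eq_mul_div, eq_div_iff hmK, mul_comm]
        exact h1
      have hq : ∀ q : ℤ[X], (ΨK (Polynomial.aeval x q)).mulVec vK =
          Polynomial.aeval lam q • vK := by
        intro q
        induction q using Polynomial.induction_on with
        | C r =>
          rw [Polynomial.aeval_C, Polynomial.aeval_C, eq_intCast, eq_intCast, map_intCast,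
            Matrix.intCast_mulVec]
        | add p q hp hq => rw [map_add, map_add, map_add, Matrix.add_mulVec, hp, hq, add_smul]
        | monomial n r ih =>
          rw [pow_succ, ← mul_assoc]
          generalize Polynomial.C r * Polynomial.X ^ n = q at ih ⊢
          rw [map_mul, map_mul, map_mul, Polynomial.aeval_X,
            Polynomial.aeval_X, ← Matrix.mulVec_mulVec, hx, Matrix.mulVec_smul, ih, smul_smul,
            mul_comm]
      have h0 := hq p
      rw [hpx, map_zero, Matrix.zero_mulVec] at h0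
      refine (smul_eq_zero.1 h0.symm).resolve_right fun h => hv (funext fun i => ?_)
      exact IsFractionRing.injective O K (by simpa [vK] using congrFun h i)
    have hmy : (m : O) * y = a := by
      apply IsFractionRing.injective O (FractionRing O)
      rw [map_mul, map_intCast, hy, mul_div_cancel₀ _ (Int.cast_ne_zero.2 hm)]
    exact ⟨y, fun u hu => smul_right_injective _ hmO
      (show (m : O) • (Ψ x).mulVec u = (m : O) • y • u by rw [hmx u hu, smul_smul, hmy])⟩
  choose χ hχ using hall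
  have huniq : ∀ x a, (Ψ x).mulVec v = a • v → χ x = a := fun x a h =>
    smul_left_injective O hv ((hχ x v hev).symm.trans h)
  refine ⟨{ toFun := χ
            map_one' := huniq 1 1 (by rw [map_one, Matrix.one_mulVec, one_smul])
            map_mul' := fun a b => huniq _ _ (by
              rw [map_mul, ← Matrix.mulVec_mulVec, hχ b v hev, Matrix.mulVec_smul, hχ a v hev,
                smul_smul, mul_comm])
            map_zero' := huniq 0 0 (by rw [map_zero, Matrix.zero_mulVec, zero_smul])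
            map_add' := fun a b => huniq _ _ (by
              rw [map_add, Matrix.add_mulVec, hχ a v hev, hχ b v hev, add_smul]) },
    fun ℓ => huniq _ _ ?_, fun u hu x => hχ x u hu⟩
  rw [hgen ℓ]
  exact hev ℓ

theorem eigenvalue_ne (N : ℕ) [NeZero N] {O : Type} [CommRing O] [IsDomain O] [CharZero O]
    (χ : CuspForm.heckeAlgebra N 2 (∅ : Set ℕ) →+* O) (ℓ : Nat.Primes) (hℓ : ¬ (ℓ : ℕ) ∣ N) :
    χ (Immersion.formsGen N ℓ) ≠ ((ℓ : ℕ) : O) + 1 ∧
      χ (Immersion.formsGen N ℓ) ≠ -(((ℓ : ℕ) : O) + 1) := by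
  obtain ⟨φ, f, hker, hf, hcoef⟩ := EichlerShimura.exists_eigenform_ker_eq N χ
  have hf0 : f ≠ 0 := by
    rintro rfl
    exact one_ne_zero (hf.qCoeff_one.symm.trans (map_zero (Periods.qCoeffLin N 1)))
  have hb : ‖φ (Immersion.formsGen N ℓ)‖ < ((ℓ : ℕ) : ℝ) + 1 := by
    have h := norm_eigenvalue_lt ℓ.2 hℓ hf0
      ((Periods.isEigen_of_isNormalizedEigenform hf).1 ℓ ℓ.2 hℓ)
    simp only [hcoef ℓ] at h
    exact h
  have key : ∀ n : ℤ, χ (Immersion.formsGen N ℓ) = n → φ (Immersion.formsGen N ℓ) = n := by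
    intro n h
    have hk : Immersion.formsGen N ℓ - n ∈ RingHom.ker φ := by
      rw [hker, RingHom.mem_ker, map_sub, h, map_intCast, sub_self]
    rwa [RingHom.mem_ker, map_sub, map_intCast, sub_eq_zero] at hk
  constructor
  · intro h
    rw [key ((ℓ : ℕ) + 1 : ℤ) (by rw [h]; push_cast; rfl), Complex.norm_intCast] at hb
    rw [abs_of_nonneg (by positivity)] at hb
    push_cast at hb
    exact lt_irrefl _ hb
  · intro h
    rw [key (-((ℓ : ℕ) + 1) : ℤ) (by rw [h]; push_cast; rfl), Complex.norm_intCast] at hb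
    push_cast at hb
    rw [abs_neg, abs_of_nonneg (by positivity)] at hb
    exact lt_irrefl _ hb

end Fermat.Agent.Mazur.Descent
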