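import Fermat.Agent.Mazur.Descent.CuspDivisor
import Fermat.Agent.Reduction.S37Assembly
import Fermat.Agent.BadPrime.GaussLaurent

/-!
# The cuspidal class modulo `r`

For `r ^ e ∣ p - 1` with `r ^ e ∤ 24` the reduction of `Δ(q)/Δ(q^p)` modulo `r` is not a constant
times an `r ^ e`-th power, so the specialisation at `r` of the class `(p - 1) / r ^ e • cuspClass p`
is nonzero.
-/

set_option autoImplicit false
set_option synthInstance.maxHeartbeats 400000

noncomputable section

open ModularCurve AlgebraicCurve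

namespace Fermat.Agent.Mazur.Descent

open Fermat.Agent.Mazur.Immersion

section Series

variable {k : Type*} [Field k] (r : ℕ) [Fact r.Prime] [CharP k r]

/-- An `r ^ e`-th power is supported on exponents divisible by `r ^ e`. -/
theorem coeff_pow_charPow_of_not_dvd (g : LaurentSeries k) :
    ∀ (e : ℕ) {n : ℤ}, ¬ ((r ^ e : ℕ) : ℤ) ∣ n → (g ^ (r ^ e)).coeff n = 0 := by
  intro e
  induction e with
  | zero => exact fun {n} h => absurd (by simp) h
  | succ e ih =>
    intro n h
    have : NeZero r := ⟨(Fact.out : r.Prime).ne_zero⟩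
    rw [pow_succ, pow_mul, BadPrime.pow_char_eq_qExpand]
    by_cases hr : (r : ℤ) ∣ n
    · obtain ⟨i, rfl⟩ := hr
      rw [qExpand_coeff_mul, coeffMap_coeff, ih fun hi => h ?_, map_zero]
      rw [pow_succ', Nat.cast_mul]
      exact mul_dvd_mul_left _ hi
    · exact qExpand_coeff_of_not_dvd r _ hr

theorem exists_one_add_pow {R : Type*} [CommRing R] (y : R) (s : ℕ) :
    ∃ c, (1 + y) ^ s = 1 + (s : R) * y + y ^ 2 * c := by
  induction s with
  | zero => exact ⟨0, by simp⟩
  | succ s ih =>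
    obtain ⟨c, hc⟩ := ih
    exact ⟨c + (s : R) + y * c, by rw [pow_succ, hc]; push_cast; ring⟩

omit [Fact r.Prime] [CharP k r] in
theorem coeff_one_etaProd : (ModularCurve.etaProd).coeff 1 = -1 := by
  rw [Modular.coeff_etaProd_eq 1 (N := 1) le_rfl]
  simp [Polynomial.coeff_one]

/-- The coefficient of `q ^ (1 + r ^ a)` of `Δ` modulo `r` is `-s`, for `24 = r ^ a * s`. -/
theorem coeff_deltaSeries_charPow {a s : ℕ} (h24 : 24 = r ^ a * s) :
    (Igusa.deltaSeries k).coeff (((r ^ a : ℕ) : ℤ) + 1) = -(s : k) := by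
  have hR : 0 < r ^ a := pow_pos (Fact.out : r.Prime).pos a
  rw [Igusa.deltaSeries, add_comm, HahnSeries.coeff_single_mul, one_mul, add_sub_cancel_left,
    HahnSeries.ofPowerSeries_apply_coeff, dedekindEtaUnit, map_pow]
  set E := ModularCurve.etaProd.map (Int.castRingHom k) with hE
  have h0 : PowerSeries.coeff 0 E = 1 := by
    rw [hE, PowerSeries.coeff_map, PowerSeries.coeff_zero_eq_constantCoeff, constantCoeff_etaProd,
      map_one]
  have h1 : PowerSeries.coeff 1 E = -1 := by
    rw [hE, PowerSeries.coeff_map, coeff_one_etaProd, map_neg, map_one]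
  obtain ⟨G, hG⟩ : ∃ G, E = 1 - PowerSeries.X + PowerSeries.X ^ 2 * G := by
    refine ⟨PowerSeries.mk fun n => PowerSeries.coeff (n + 2) E, PowerSeries.ext fun n => ?_⟩
    rcases n with _ | _ | n
    · simp [h0]
    · simp [h1, PowerSeries.coeff_X_pow_mul', PowerSeries.coeff_one]
    · rw [map_add, map_sub, PowerSeries.coeff_X_pow_mul', if_pos (by omega), PowerSeries.coeff_mk,
        PowerSeries.coeff_one, PowerSeries.coeff_X, if_neg (by omega), if_neg (by omega),
        sub_zero, zero_add]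
      congr 2
  have : CharP (PowerSeries k) r := charP_of_injective_ringHom PowerSeries.C_injective r
  have hpow : E ^ (r ^ a) = 1 + PowerSeries.X ^ (r ^ a) *
      (-1 + PowerSeries.X ^ (r ^ a) * G ^ (r ^ a)) := by
    rw [hG, add_pow_char_pow, sub_pow_char_pow, one_pow, mul_pow, ← pow_mul]
    ring
  obtain ⟨c, hc⟩ := exists_one_add_pow
    (PowerSeries.X ^ (r ^ a) * (-1 + PowerSeries.X ^ (r ^ a) * G ^ (r ^ a))) s
  rw [h24, pow_mul, hpow, hc, mul_pow, ← pow_mul, mul_assoc (PowerSeries.X ^ (r ^ a * 2)), map_add,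
    map_add, PowerSeries.coeff_X_pow_mul', if_neg (by omega), PowerSeries.coeff_one,
    if_neg hR.ne', zero_add, add_zero, ← mul_assoc, mul_comm (s : PowerSeries k), mul_assoc,
    PowerSeries.coeff_X_pow_mul', if_pos le_rfl, Nat.sub_self, mul_add, map_add,
    ← mul_assoc, mul_comm ((s : PowerSeries k)) (PowerSeries.X ^ _), mul_assoc,
    PowerSeries.coeff_X_pow_mul', if_neg (by omega), add_zero]
  simp

variable (p : ℕ) [NeZero p]

omit [Fact r.Prime] [CharP k r] in
/-- Below `q ^ (p + 1)` the series of `Δ` is that of `u` shifted by `p`. -/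
theorem coeff_deltaSeries_of_le {n : ℤ} (hn : n ≤ p) :
    (Igusa.deltaSeries k).coeff n = (uSeries p k).coeff (n - p) := by
  have e : uSeries p k * qExpand k p (Igusa.deltaSeries k) = Igusa.deltaSeries k := by
    have hne : qExpand k p (Igusa.deltaSeries k) ≠ 0 :=
      ((Igusa.hasLead_deltaSeries (R := k)).qExpand p).ne_zero one_ne_zero
    rw [uSeries, Igusa.ratioUnit, inv_div, Units.val_div_eq_div_val]
    simp [hne]
  set P : LaurentSeries k :=
    qExpand k p (HahnSeries.ofPowerSeries ℤ k (dedekindEtaUnit.map (Int.castRingHom k))) with hP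
  have hw : ∀ j < (p : ℤ), (P - 1).coeff j = 0 := by
    intro j hj
    rw [HahnSeries.coeff_sub, hP]
    by_cases h : (p : ℤ) ∣ j
    · obtain ⟨i, rfl⟩ := h
      have hi : i ≤ 0 := by
        by_contra! hi
        nlinarith [(Nat.cast_nonneg p : (0 : ℤ) ≤ p)]
      rw [qExpand_coeff_mul]
      rcases hi.lt_or_eq with hi | rfl
      · rw [ofPowerSeries_coeff_of_neg _ hi, HahnSeries.coeff_one, if_neg, sub_zero]
        exact mul_ne_zero (Int.natCast_ne_zero.2 (NeZero.ne p)) hi.ne
      · rw [mul_zero, (Igusa.hasLead_ofPowerSeries _).coeff_eq, HahnSeries.coeff_one, if_pos rfl,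
          ← PowerSeries.coeff_zero_eq_constantCoeff, PowerSeries.coeff_map,
          PowerSeries.coeff_zero_eq_constantCoeff, constantCoeff_dedekindEtaUnit, map_one, sub_self]
    · rw [qExpand_coeff_of_not_dvd p _ h, HahnSeries.coeff_one, if_neg, sub_zero]
      rintro rfl
      exact h (dvd_zero _)
  conv_lhs => rw [← e, Igusa.deltaSeries, map_mul, qExpand_single, mul_one, ← hP, mul_comm,
    mul_assoc, HahnSeries.coeff_single_mul, one_mul, mul_comm,
    show uSeries p k * P = uSeries p k + uSeries p k * (P - 1) by ring, HahnSeries.coeff_add]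
  rw [add_eq_left]
  exact ((hasLead_uSeries p k).mul (⟨hw, rfl⟩ : Igusa.HasLead (P - 1) (p : ℤ) _)).below _
    (by omega)

/-- `Δ(q)/Δ(q^p)` modulo `r` is not a constant times an `r ^ e`-th power. -/
theorem uSeries_ne_const_mul_pow {e : ℕ} (hpe : r ^ e ∣ p - 1) (hp : 2 ≤ p) (h24 : ¬ r ^ e ∣ 24)
    (g : LaurentSeries k) (c : k) : uSeries p k ≠ HahnSeries.C c * g ^ (r ^ e) := by
  intro hu
  have hr : r.Prime := Fact.out
  obtain ⟨a, s, hs, has⟩ :=
    Nat.exists_eq_pow_mul_and_not_dvd (show (24 : ℕ) ≠ 0 by norm_num) r hr.ne_one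
  have hae : a < e := by
    by_contra! h
    exact h24 (has ▸ Dvd.dvd.mul_right (pow_dvd_pow r h) s)
  have hlt : r ^ a < r ^ e := Nat.pow_lt_pow_right hr.one_lt hae
  have hle : r ^ e ≤ p - 1 := Nat.le_of_dvd (by omega) hpe
  have hdel : ¬ ((r ^ e : ℕ) : ℤ) ∣ ((r ^ a : ℕ) : ℤ) + 1 - p := fun h => by
    have h' : ((r ^ e : ℕ) : ℤ) ∣ ((r ^ a : ℕ) : ℤ) := by
      have hp' : ((r ^ e : ℕ) : ℤ) ∣ ((p - 1 : ℕ) : ℤ) := Int.natCast_dvd_natCast.mpr hpe
      have := dvd_add h hp'
      rwa [Nat.cast_sub (by omega), show ((r ^ a : ℕ) : ℤ) + 1 - p + ((p : ℤ) - (1 : ℕ)) =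
        ((r ^ a : ℕ) : ℤ) by push_cast; ring] at this
    exact absurd (Nat.le_of_dvd (pow_pos hr.pos a) (Int.natCast_dvd_natCast.mp h')) (by omega)
  have h1 := coeff_deltaSeries_charPow (k := k) r has
  rw [coeff_deltaSeries_of_le p (by omega), hu, HahnSeries.C_mul_eq_smul, HahnSeries.coeff_smul,
    coeff_pow_charPow_of_not_dvd r g e hdel, smul_zero] at h1
  exact hs ((CharP.cast_eq_zero_iff k r s).1 (neg_eq_zero.1 h1.symm))

end Series

local notation "Qb" => AlgebraicClosure ℚ

/-- The specialisation at `r` of the `r ^ e`-torsion cuspidal class is nonzero. -/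
theorem specPic_nsmul_cuspClass_ne_zero {p : ℕ} [NeZero p] [Fact p.Prime] {k : Type*} [Field k]
    [IsAlgClosed k] (r : ℕ) [Fact r.Prime] [CharP k r] {e : ℕ} (hpe : r ^ e ∣ p - 1)
    (h24 : ¬ r ^ e ∣ 24) {A : ValuationSubring Qb} {π : A →+* k} {M : ℕ} [NeZero M]
    {Ψ : Divisor Qb (modularFunctionFieldBar p) →+ Divisor k (modularFunctionFieldFullC k M)}
    (hΨ : Reduction.IsDivisorSpec A π p M Ψ)
    (hgen : PrincipalGeneratedByIntegral A π p) :
    Reduction.specPic hΨ hgen (((p - 1) / r ^ e) • cuspClass p) ≠ 0 := by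
  have hp : p.Prime := Fact.out
  have hpk : (p : k) ≠ 0 := by
    intro h
    have hrp : r = p := (Nat.prime_dvd_prime_iff_eq Fact.out hp).1 ((CharP.cast_eq_zero_iff k r p).1 h)
    rcases e with _ | e
    · exact h24 (by simp)
    · have := hp.two_le
      have := Nat.le_of_dvd (by omega) ((dvd_pow_self r e.succ_ne_zero).trans hpe)
      omega
  have hyk : coeffMap π (uSeries p A) ∈ modularFunctionFieldFullC k p := by
    rw [coeffMap_uSeries, uSeries, Units.val_inv_eq_inv_val]
    refine inv_mem ?_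
    rw [Igusa.ratioUnit, Units.val_div_eq_div_val]
    simpa using Reduction.deltaRatio_mem (k := k) p p dvd_rfl hpk
      (Reduction.isIntegral_jqd k p).isAlgebraic
  have hy : coeffMap A.subtype (uSeries p A) ∈ modularFunctionFieldBar p := by
    rw [coeffMap_uSeries]; exact uSeries_mem p
  have hne : coeffMap π (uSeries p A) ≠ 0 := by
    rw [coeffMap_uSeries]; exact (hasLead_uSeries p k).ne_zero one_ne_zero
  have hdiv := hΨ.map_integral _ hy hyk hne
    ((p - 1 : ℕ) • (cuspDiv p : Divisor Qb (modularFunctionFieldBar p))) fun P => by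
      rw [← ord_uBar p P]
      exact congrArg P.ord (Subtype.ext (coeffMap_uSeries p A.subtype).symm)
  intro h0
  rw [cuspClass, show ((p - 1) / r ^ e) • Pic0.mk (cuspDiv p) =
    Pic0.mk (((p - 1) / r ^ e) • cuspDiv p) from rfl, Reduction.specPic_mk_eq_zero_iff,
    AddSubgroupClass.coe_nsmul, map_nsmul] at h0
  obtain ⟨g, hg, hgd⟩ := h0
  set w : modularFunctionFieldFullC k M := ⟨coeffMap π (uSeries p A), hΨ.le hyk⟩ with hw
  have hw0 : w ≠ 0 := fun h => hne (congrArg Subtype.val h)
  have hord : ∀ Q : Place k (modularFunctionFieldFullC k M),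
      Q.ord (w / g ^ (r ^ e)) = 0 := by
    intro Q
    have h1 := hdiv Q
    have h2 := hgd Q
    rw [map_nsmul, Finsupp.smul_apply, nsmul_eq_mul] at h1
    rw [Finsupp.smul_apply, nsmul_eq_mul] at h2
    have hmul : ((p - 1 : ℕ) : ℤ) = ((r ^ e : ℕ) : ℤ) * (((p - 1) / r ^ e : ℕ) : ℤ) := by
      rw [← Nat.cast_mul, Nat.mul_div_cancel' hpe]
    rw [hmul, mul_assoc, h2] at h1
    rw [Curve.ord_div Q hw0 (pow_ne_zero _ hg), Curve.ord_pow, hw, ← h1, sub_self]
  have halg := Curve.isAlgebraic_of_forall_ord_nonneg fun Q => (hord Q).ge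
  obtain ⟨c, hc⟩ := minpoly.mem_range_of_degree_eq_one k _
    (IsAlgClosed.degree_eq_one_of_irreducible k (minpoly.irreducible halg.isIntegral))
  refine uSeries_ne_const_mul_pow r p hpe hp.two_le h24 (g : LaurentSeries k) c ?_
  have e1 : w = algebraMap k (modularFunctionFieldFullC k M) c * g ^ (r ^ e) := by
    rw [hc, div_mul_cancel₀ _ (pow_ne_zero _ hg)]
  rw [← coeffMap_uSeries p π]
  refine (congrArg Subtype.val e1).trans ?_
  show algebraMap k (LaurentSeries k) c * ((g : LaurentSeries k) ^ (r ^ e)) = _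
  rw [algebraMap_laurentSeries_eq_single, HahnSeries.C_apply]

end Fermat.Agent.Mazur.Descent

end
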