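/-
The kernel of the specialisation of `J₀(N)` at `r`, and a rational torsion point outside it.
Owner: helper39.
-/
import Fermat.Agent.Mazur.Descent.CuspOgg
import Fermat.Agent.EichlerShimura.GaloisHecke

set_option autoImplicit false
set_option synthInstance.maxHeartbeats 400000

noncomputable section

open ModularCurve AlgebraicCurve Fermat.Agent.Reduction Fermat.Agent.Curve

namespace Fermat.Agent.Mazur.Descent

local notation "ℚ̄" => AlgebraicClosure ℚ
local notation "Γℚ" => (AlgebraicClosure ℚ ≃ₐ[ℚ] AlgebraicClosure ℚ)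

/-- The properties used of the kernel of the specialisation at a place `A` over `r`. -/
structure IsRedKernel (N : ℕ) [NeZero N] (r : Nat.Primes) (A : ValuationSubring ℚ̄)
    (K : AddSubgroup (JZero N)) : Prop where
  hecke : ∀ t : HeckeAlg, ∀ x ∈ K, (letI := heckeModuleBar N; t • x) ∈ K
  inertia : ∀ σ ∈ A.inertiaSubgroupIn ℚ, ∀ x : JZero N, σ • x - x ∈ K
  decomposition : ∀ σ ∈ A.decompositionSubgroup ℚ, ∀ x ∈ K, σ • x ∈ K
  frobenius : ∀ σ : Γℚ, A.IsFrobeniusAt σ (r : ℕ) → ∀ x : JZero N,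
    σ • σ • x - heckeOperatorBar N r (σ • x) + (r : ℕ) • x ∈ K

/-- Some multiple of the class of the two cusps is a rational `r`-power torsion point with
non-zero specialisation at `r`. -/
theorem exists_isRedKernel_torsion (N : ℕ) [NeZero N] (hN : N.Prime)
    (hcomm : HeckeOperatorsCommuteBar N) (r : Nat.Primes)
    (hr : (r : ℕ) ^ (padicValNat r 24 + 1) ∣ N - 1)
    (A : ValuationSubring ℚ̄) (hA : A.LiesOverPrime (r : ℕ)) :
    ∃ K : AddSubgroup (JZero N), IsRedKernel N r A K ∧
      ∃ (P : JZero N) (k : ℕ), (∀ σ : Γℚ, σ • P = P) ∧ (r : ℕ) ^ k • P = 0 ∧ P ∉ K := by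
  have hN' : Fact N.Prime := ⟨hN⟩
  have hr' : Fact (r : ℕ).Prime := ⟨r.2⟩
  have : NeZero (r : ℕ) := ⟨r.2.ne_zero⟩
  set e := padicValNat r 24 + 1 with he
  have h24 : ¬ (r : ℕ) ^ e ∣ 24 := pow_succ_padicValNat_not_dvd (by norm_num)
  have hrN : ¬ (r : ℕ) ∣ N := by
    intro h
    have hrN' := (Nat.prime_dvd_prime_iff_eq r.2 hN).1 h
    have h2 := Nat.le_of_dvd (by have := hN.two_le; omega) hr
    have h3 : (r : ℕ) ≤ (r : ℕ) ^ e := Nat.le_self_pow (by omega) _
    have := hN.two_le
    omega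
  have := EC.isAlgClosed_residueField A
  have := EC.charP_residueField A r.2 hA
  letI := heckeModuleBar N
  haveI := EichlerShimura.smulCommClass_galois_heckeAlg N
  set t := auxFactor N (r : ℕ) with ht
  obtain ⟨rM, -, hrM, -⟩ := exists_placeReduction_aux N hrN A hA
  have hα := isIntegralAlong (heckeAlphaBar ℚ̄ N t)
  have hΨ := IsDivisorSpec.of_pullback (N := N) (t := t) hα (fundamentalIdentityAlong _ hα)
    (fun P => Fermat.Agent.Curve.deg_eq_one P) (fun Q => one_le_deg Q) hrM
  set hgen := principalGeneratedByIntegral N hrN A hA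
  let τA : A.decompositionSubgroup ℚ → (A →+* A) := fun g => MulSemiringAction.toRingHom _ A g
  let αk : A.decompositionSubgroup ℚ →
      (IsLocalRing.ResidueField A ≃+* IsLocalRing.ResidueField A) :=
    fun g => MulSemiringAction.toRingEquiv _ _ g
  have hαk : ∀ (g : A.decompositionSubgroup ℚ) (a : A),
      IsLocalRing.residue A (τA g a) = αk g (IsLocalRing.residue A a) :=
    fun g a => IsLocalRing.ResidueField.residue_smul _ g a
  let K : AddSubgroup (JZero N) :=
    { carrier := {x | ∀ t : HeckeAlg, specPic hΨ hgen (t • x) = 0}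
      zero_mem' := fun t => by rw [smul_zero, map_zero]
      add_mem' := fun hx hy t => by rw [smul_add, map_add, hx t, hy t, add_zero]
      neg_mem' := fun hx t => by rw [smul_neg, map_neg, hx t, neg_zero] }
  have hK : ∀ {x : JZero N}, x ∈ K ↔ ∀ t : HeckeAlg, specPic hΨ hgen (t • x) = 0 := Iff.rfl
  refine ⟨K, ⟨?_, ?_, ?_, ?_⟩, ((N - 1) / (r : ℕ) ^ e) • cuspClass N, e, fun σ => ?_, ?_, ?_⟩
  · intro c x hx
    exact hK.mpr fun t => by rw [smul_smul]; exact hx (t * c)
  · rintro τ ⟨g', hg', rfl⟩ x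
    refine hK.mpr fun t => ?_
    rw [smul_sub, Subgroup.coe_subtype, ← smul_comm g'.1 t x]
    have hone : ∀ a : A, IsLocalRing.residue A (τA g' a) =
        (RingEquiv.refl (IsLocalRing.ResidueField A)) (IsLocalRing.residue A a) := fun a =>
      (hαk g' a).trans (congrArg (fun e : IsLocalRing.ResidueField A ≃+* _ =>
        e (IsLocalRing.residue A a)) hg')
    simpa using specPic_galois_sub_eq_zero one_le_deg weakRiemann hΨ hgen g'.1 1
      (τA g') (RingHom.id A) (fun _ => rfl) (fun _ => rfl) _ hone (fun _ => rfl) (t • x)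
  · intro σ hσ x hx
    refine hK.mpr fun t => ?_
    rw [← smul_comm σ t x]
    exact specPic_galois_eq_zero one_le_deg weakRiemann hΨ hgen σ (τA ⟨σ, hσ⟩) (fun _ => rfl)
      (αk ⟨σ, hσ⟩) (hαk ⟨σ, hσ⟩) (hK.mp hx t)
  · intro σ hσ x
    refine hK.mpr fun t => ?_
    let g : A.decompositionSubgroup ℚ := ⟨σ, hσ.mem_decompositionSubgroup⟩
    have hT : ∀ y : JZero N, heckeGen r • y = heckeOperatorBar N r y :=
      fun y => heckeModuleBar_heckeGen_smul hcomm r y
    have key := specPic_frobenius_relation one_le_deg weakRiemann hΨ hgen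
      (heckeInputsAlongBar N r) (αk g)
      (normCongruenceModL N r r.2 hrN A hA (αk g) fun a => hσ.smul_residue_eq a) σ (τA g)
      (fun _ => rfl) (hαk g) (t • x)
    rw [← hT, smul_add, smul_sub, smul_comm t (r : ℕ) x, smul_comm t (heckeGen r) (σ • x),
      ← smul_comm σ t (σ • x), ← smul_comm σ t x, hT (σ • t • x)]
    exact key
  · exact (map_nsmul (DistribSMul.toAddMonoidHom (JZero N) σ) _ _).trans
      (congrArg (((N - 1) / (r : ℕ) ^ e) • ·) (galois_smul_cuspClass N σ))
  · rw [smul_smul, Nat.mul_div_cancel' hr, nsmul_cuspClass]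
  · intro h
    have h1 := hK.mp h 1
    rw [one_smul] at h1
    exact specPic_nsmul_cuspClass_ne_zero (r : ℕ) hr h24 hΨ hgen h1

end Fermat.Agent.Mazur.Descent
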