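/-
The Kummer cocycle of a rational point of `J₀(N)` in `r`-adic coordinates.
Owner: helper40.
-/
import Fermat.Agent.Mazur.Descent.Points
import Fermat.Agent.EichlerShimura.FiniteLevelX0
import Fermat.Agent.MordellWeil.Weak
import Fermat.Agent.Mazur.Descent.RedKernel
import Fermat.Prelude.Def_HeckeGalois_EichlerShimura
import Mathlib.GroupTheory.Finiteness
import Mathlib.LinearAlgebra.Dual.Lemmas

set_option autoImplicit false

noncomputable section

open CongruenceSubgroup ModularCurve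
open scoped MatrixGroups

namespace Fermat.Agent.Mazur.Descent

open EichlerShimura (QZ torsionPts cuspRank galMatrix padicToRing torsionCoords)
open Kummer (DivSeq fixedPts kummerClass diffVec)
open Matrix

local notation "ℚ̄" => AlgebraicClosure ℚ
local notation "Γℚ" => (AlgebraicClosure ℚ ≃ₐ[ℚ] AlgebraicClosure ℚ)

local instance : Algebra.IsAlgebraic ℚ ℚ̄ := AlgebraicClosure.isAlgebraic ℚ

variable {N : ℕ} [NeZero N] (e : torsionPts N ≃+ Periods.cuspidalHoms ℤ (Gamma0 N) QZ)
  (r : ℕ) [Fact r.Prime]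

/-- `κ` is the coordinate vector of `σ y_k - y_k` for a compatible system of `r`-power division
points `y` of the rational point `x`. -/
structure IsKummerCocycle (x : JZero N) (κ : Γℚ → Fin (cuspRank N) → ℤ_[r]) : Prop where
  fixed : ∀ σ : Γℚ, σ • x = x
  seq : ∃ y : ℕ → JZero N, y 0 = x ∧ (∀ k, r • y (k + 1) = y k) ∧
    ∀ σ k, tatePt e r k (κ σ) = σ • y k - y k

theorem exists_nsmul_eq_jZero (N : ℕ) [NeZero N] {n : ℕ} (hn : n ≠ 0) (x : JZero N) :
    ∃ y : JZero N, n • y = x := by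
  let ι : ℚ̄ →ₐ[ℚ] ℂ := IsAlgClosed.lift
  let F' := laurentBaseChange ℂ (modularFunctionFieldFull N)
  have : Curve.IsFunctionField1 ℂ F' :=
    EichlerShimura.isFunctionField1_laurentBaseChange (modularFunctionFieldFull N) ι
  refine (MordellWeil.divisible_and_finite_laurentBaseChange (n := n) (modularFunctionFieldFull N) ι
    (Torsion.Analytic.exists_nsmul_eq_complex F' n hn) ?_).1 x
  have hcard := Torsion.Analytic.natCard_torsion_complex F' n hn
  have : Finite (AlgebraicCurve.Pic0.torsion ℂ F' n) :=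
    Nat.finite_of_card_ne_zero (by rw [hcard]; exact pow_ne_zero _ hn)
  refine (Set.toFinite (Set.range fun t : AlgebraicCurve.Pic0.torsion ℂ F' n =>
    (t : AlgebraicCurve.Pic0 ℂ F'))).subset fun z hz => ?_
  exact ⟨⟨z, AlgebraicCurve.Pic0.mem_torsion.2 ((natCast_zsmul z n).trans hz)⟩, rfl⟩

theorem exists_isKummerCocycle {x : JZero N} (hx : ∀ σ : Γℚ, σ • x = x) :
    ∃ κ, IsKummerCocycle e r x κ := by
  obtain ⟨s⟩ := DivSeq.nonempty_of_surjective
    (fun z => exists_nsmul_eq_jZero N (Fact.out (p := r.Prime)).ne_zero z) x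
  choose κ hκ using fun σ : Γℚ => exists_tatePt_eq_seq e r
    (x := fun k => σ • s.y k - s.y k) (by rw [s.y_zero, hx, sub_self])
    (fun k => by rw [nsmul_sub, ← Kummer.smul_nsmul_pt σ r, s.nsmul_succ])
  exact ⟨κ, hx, s.y, s.y_zero, s.nsmul_succ, hκ⟩

variable {e r} {x : JZero N} {κ : Γℚ → Fin (cuspRank N) → ℤ_[r]}

theorem IsKummerCocycle.exists_divSeq (h : IsKummerCocycle e r x κ) :
    ∃ s : DivSeq r x, ∀ σ k, tatePt e r k (κ σ) = σ • s.y k - s.y k := by
  obtain ⟨y, h0, hs, hy⟩ := h.seq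
  exact ⟨⟨y, h0, hs⟩, hy⟩

theorem IsKummerCocycle.map_mul (h : IsKummerCocycle e r x κ) (σ τ : Γℚ) :
    κ (σ * τ) = κ σ + (galPadic e r σ).mulVec (κ τ) := by
  obtain ⟨s, hs⟩ := h.exists_divSeq
  refine eq_of_forall_tatePt e r fun k => ?_
  rw [map_add, tatePt_galPadic, hs, hs, hs, smul_sub, mul_smul]
  abel

theorem IsKummerCocycle.cont (h : IsKummerCocycle e r x κ) (n : ℕ) :
    ∃ L : IntermediateField ℚ ℚ̄, FiniteDimensional ℚ L ∧
      ∀ σ : Γℚ, (∀ a ∈ L, σ a = a) → ∀ i, (r : ℤ_[r]) ^ n ∣ κ σ i := by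
  obtain ⟨s, hs⟩ := h.exists_divSeq
  obtain ⟨L, hL, hfix⟩ := EichlerShimura.galoisFiniteLevel_x0 N (s.y n)
  exact ⟨L, hL, fun σ hσ => (tatePt_eq_zero_iff e r n _).mp (by rw [hs, hfix σ hσ, sub_self])⟩

theorem IsKummerCocycle.eq_zero_of_inertia (h : IsKummerCocycle e r x κ)
    (hcomm : HeckeOperatorsCommuteBar N) {l : ℕ} (hl : l.Prime) (hlN : ¬ l ∣ N) (hlr : l ≠ r)
    {B : ValuationSubring ℚ̄} (hB : B.LiesOverPrime l) {σ : Γℚ}
    (hσ : σ ∈ B.inertiaSubgroupIn ℚ) : κ σ = 0 := by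
  letI := heckeModuleBar N
  haveI := EichlerShimura.smulCommClass_galois_heckeAlg N
  have hlNr : ¬ l ∣ N * r := fun hd => (hl.dvd_mul.mp hd).elim hlN fun hdr =>
    hlr ((Nat.prime_dvd_prime_iff_eq hl Fact.out).mp hdr)
  obtain ⟨J', _, _, sp, F, hsp, -⟩ :=
    Reduction.specializationExists_JZero N r hcomm inferInstance l hl hlNr B hB
  obtain ⟨s, hs⟩ := h.exists_divSeq
  refine eq_of_forall_tatePt e r fun k => ?_
  rw [map_zero, hs]
  exact hsp.injective_torsion _ ⟨k, s.nsmul_diff h.fixed σ k⟩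
    (by rw [map_sub, hsp.inertia_comm σ hσ, sub_self])

theorem IsKummerCocycle.mem_tateSubmodule (h : IsKummerCocycle e r x κ)
    {Θ : CuspForm.heckeAlgebra N 2 (∅ : Set ℕ) →+*
      Matrix (Fin (cuspRank N)) (Fin (cuspRank N)) ℤ} (hΘ : IsHeckeIso e Θ)
    {t : HeckeAlg} (ht : t ∈ goodHecke N)
    {r' : Nat.Primes} {A : ValuationSubring ℚ̄} {K : AddSubgroup (JZero N)}
    (hK : IsRedKernel N r' A K) {σ : Γℚ} (hσ : σ ∈ A.inertiaSubgroupIn ℚ) :
    ((heckeMat Θ t).map (Int.castRingHom ℤ_[r])).mulVec (κ σ) ∈ tateSubmodule e r K := by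
  obtain ⟨s, hs⟩ := h.exists_divSeq
  intro k
  rw [tatePt_heckeMat e r hΘ ht, hs]
  exact hK.hecke t _ (hK.inertia σ hσ _)

theorem IsKummerCocycle.add (h : IsKummerCocycle e r x κ) {x' : JZero N}
    {κ' : Γℚ → Fin (cuspRank N) → ℤ_[r]} (h' : IsKummerCocycle e r x' κ') :
    IsKummerCocycle e r (x + x') (κ + κ') := by
  obtain ⟨s, hs⟩ := h.exists_divSeq
  obtain ⟨s', hs'⟩ := h'.exists_divSeq
  refine ⟨fun σ => by rw [smul_add, h.fixed, h'.fixed], (s.add s').y, (s.add s').y_zero,
    (s.add s').nsmul_succ, fun σ k => ?_⟩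
  show tatePt e r k (κ σ + κ' σ) = σ • (s.y k + s'.y k) - (s.y k + s'.y k)
  rw [_root_.map_add, hs, hs', smul_add]
  abel

theorem IsKummerCocycle.hecke (h : IsKummerCocycle e r x κ)
    {Θ : CuspForm.heckeAlgebra N 2 (∅ : Set ℕ) →+*
      Matrix (Fin (cuspRank N)) (Fin (cuspRank N)) ℤ} (hΘ : IsHeckeIso e Θ)
    {t : HeckeAlg} (ht : t ∈ goodHecke N) :
    IsKummerCocycle e r (letI := heckeModuleBar N; t • x)
      (fun σ => ((heckeMat Θ t).map (Int.castRingHom ℤ_[r])).mulVec (κ σ)) := by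
  letI := heckeModuleBar N
  haveI := EichlerShimura.smulCommClass_galois_heckeAlg N
  obtain ⟨s, hs⟩ := h.exists_divSeq
  refine ⟨fun σ => by rw [smul_comm, h.fixed], fun k => t • s.y k, congrArg (t • ·) s.y_zero,
    fun k => by rw [smul_comm, s.nsmul_succ], fun σ k => ?_⟩
  rw [tatePt_heckeMat e r hΘ ht, hs, smul_sub, smul_comm σ t]

/-- Two Kummer cocycles of the same point differ by a coboundary. -/
theorem IsKummerCocycle.exists_sub_eq (h : IsKummerCocycle e r x κ)
    {κ' : Γℚ → Fin (cuspRank N) → ℤ_[r]} (h' : IsKummerCocycle e r x κ') :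
    ∃ w, ∀ σ, κ' σ = κ σ + ((galPadic e r σ).mulVec w - w) := by
  obtain ⟨s, hs⟩ := h.exists_divSeq
  obtain ⟨s', hs'⟩ := h'.exists_divSeq
  obtain ⟨w, hw⟩ := exists_tatePt_eq_seq e r (x := fun k => s'.y k - s.y k)
    (by rw [s.y_zero, s'.y_zero, sub_self])
    (fun k => by rw [nsmul_sub, s.nsmul_succ, s'.nsmul_succ])
  refine ⟨w, fun σ => eq_of_forall_tatePt e r fun k => ?_⟩
  rw [_root_.map_add, _root_.map_sub, tatePt_galPadic, hw, hs, hs', smul_sub]
  abel

section Saturation

variable {O : Type} [CommRing O] [IsDomain O] [IsLocalRing O]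
  [IsAdicComplete (IsLocalRing.maximalIdeal O) O] [CharZero O]
  (hrO : (r : O) ∈ IsLocalRing.maximalIdeal O)

variable (e) in
/-- Cochains with a non-zero multiple that is a coboundary. -/
def cobSat : Submodule O (Γℚ → Fin (cuspRank N) → O) where
  carrier := {f | ∃ a : O, a ≠ 0 ∧ ∃ v : Fin (cuspRank N) → O, ∀ σ : Γℚ,
    a • f σ = (galMatrix e r hrO σ).mulVec v - v}
  zero_mem' := ⟨1, one_ne_zero, 0, fun σ => by simp⟩
  add_mem' := by
    rintro f g ⟨a, ha, v, hv⟩ ⟨b, hb, w, hw⟩
    refine ⟨a * b, mul_ne_zero ha hb, b • v + a • w, fun σ => ?_⟩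
    rw [Pi.add_apply, smul_add, mulVec_add, mulVec_smul, mulVec_smul]
    calc (a * b) • f σ + (a * b) • g σ = b • (a • f σ) + a • (b • g σ) := by
          rw [smul_smul, smul_smul, mul_comm b a]
      _ = _ := by rw [hv, hw, smul_sub, smul_sub]; abel
  smul_mem' := by
    rintro c f ⟨a, ha, v, hv⟩
    refine ⟨a, ha, c • v, fun σ => ?_⟩
    rw [Pi.smul_apply, smul_comm, hv, smul_sub, mulVec_smul]

theorem mem_cobSat_of_smul {a : O} (ha : a ≠ 0) {f : Γℚ → Fin (cuspRank N) → O}
    (h : a • f ∈ cobSat e hrO) : f ∈ cobSat e hrO := by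
  obtain ⟨b, hb, v, hv⟩ := h
  exact ⟨b * a, mul_ne_zero hb ha, v, fun σ => by rw [mul_smul]; exact hv σ⟩

variable (e) in
/-- The class of a cochain, up to coboundaries and torsion. -/
def cochainClass : (Γℚ → Fin (cuspRank N) → O) →ₗ[O]
    (Γℚ → Fin (cuspRank N) → O) ⧸ cobSat e hrO :=
  (cobSat e hrO).mkQ

/-- A cochain over `O` from one over `ℤ_r`. -/
def extCochain : (Γℚ → Fin (cuspRank N) → ℤ_[r]) →+ (Γℚ → Fin (cuspRank N) → O) where
  toFun κ σ := padicToRing hrO ∘ κ σ
  map_zero' := funext fun σ => funext fun i => _root_.map_zero _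
  map_add' κ κ' := funext fun σ => funext fun i => _root_.map_add _ _ _

theorem IsKummerCocycle.class_eq (h : IsKummerCocycle e r x κ)
    {κ' : Γℚ → Fin (cuspRank N) → ℤ_[r]} (h' : IsKummerCocycle e r x κ') :
    cochainClass e hrO (extCochain hrO κ') = cochainClass e hrO (extCochain hrO κ) := by
  obtain ⟨w, hw⟩ := h.exists_sub_eq h'
  refine (Submodule.Quotient.eq _).mpr ⟨1, one_ne_zero, padicToRing hrO ∘ w, fun σ => ?_⟩
  rw [one_smul, galMatrix_eq_map_galPadic, Pi.sub_apply]
  funext i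
  simp [extCochain, hw, Function.comp_def, RingHom.map_mulVec]

theorem kummerClass_eq_of_tatePt (s : DivSeq r x) (hx : ∀ σ : Γℚ, σ • x = x)
    (hs : ∀ σ k, tatePt e r k (κ σ) = σ • s.y k - s.y k) (σ : Γℚ) :
    kummerClass e s hx hrO σ = extCochain hrO κ σ := by
  refine Kummer.eq_of_forall_approx hrO (Kummer.approx_kummerClass e s hx hrO σ) fun k => ?_
  have h : diffVec e s hx σ k = vecQZ r k (κ σ) :=
    (torsionCoords e).symm.injective (Subtype.ext (by
      rw [diffVec, AddEquiv.symm_apply_apply, ← tatePt_apply, hs]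
      rfl))
  rw [h]
  exact (approx_vecQZ r k (κ σ)).mapBase hrO (padicToRing hrO)

variable (e) in
/-- The class of a rational point. -/
def pointClass : fixedPts N →+ (Γℚ → Fin (cuspRank N) → O) ⧸ cobSat e hrO :=
  AddMonoidHom.mk' (fun y => cochainClass e hrO (extCochain hrO
      (exists_isKummerCocycle e r (x := (y : JZero N)) y.2).choose)) fun y y' => by
    rw [((exists_isKummerCocycle e r (x := (y : JZero N)) y.2).choose_spec.add
      (exists_isKummerCocycle e r (x := (y' : JZero N)) y'.2).choose_spec).class_eq hrO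
        (exists_isKummerCocycle e r (x := ((y + y' : fixedPts N) : JZero N))
          (y + y').2).choose_spec, _root_.map_add, _root_.map_add]

theorem pointClass_eq {y : fixedPts N} {κ' : Γℚ → Fin (cuspRank N) → ℤ_[r]}
    (h : IsKummerCocycle e r (y : JZero N) κ') :
    pointClass e hrO y = cochainClass e hrO (extCochain hrO κ') :=
  h.class_eq hrO (exists_isKummerCocycle e r (x := (y : JZero N)) y.2).choose_spec

theorem pointClass_eq_zero_of_torsion {y : fixedPts N}
    (hy : y ∈ Submodule.torsion ℤ (fixedPts N)) : pointClass e hrO y = 0 := by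
  obtain ⟨n, hn⟩ := hy
  obtain ⟨f, hf⟩ := Submodule.Quotient.mk_surjective _ (pointClass e hrO y)
  rw [← hf]
  refine (Submodule.Quotient.mk_eq_zero _).mpr (mem_cobSat_of_smul hrO
    (Int.cast_ne_zero.mpr (nonZeroDivisors.coe_ne_zero n)) ((Submodule.Quotient.mk_eq_zero _).mp ?_))
  rw [Submodule.Quotient.mk_smul, hf, Int.cast_smul_eq_zsmul, ← map_zsmul,
    ← Submonoid.smul_def, hn, _root_.map_zero]

theorem pointClass_expand {ι : Type*} [Fintype ι]
    (β : Module.Basis ι ℤ (fixedPts N ⧸ Submodule.torsion ℤ (fixedPts N))) (P : ι → fixedPts N)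
    (hP : ∀ l, (Submodule.torsion ℤ (fixedPts N)).mkQ (P l) = β l) (y : fixedPts N) :
    pointClass e hrO y = ∑ l, (β.repr ((Submodule.torsion ℤ (fixedPts N)).mkQ y) l : O) •
      pointClass e hrO (P l) := by
  have h1 : y - ∑ l, β.repr ((Submodule.torsion ℤ (fixedPts N)).mkQ y) l • P l ∈
      Submodule.torsion ℤ (fixedPts N) := by
    rw [← Submodule.Quotient.mk_eq_zero, ← Submodule.mkQ_apply, _root_.map_sub, map_sum]
    simp only [map_zsmul, hP, β.sum_repr, sub_self]
  have h2 := pointClass_eq_zero_of_torsion hrO (e := e) h1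
  rw [_root_.map_sub, sub_eq_zero, map_sum] at h2
  simpa only [map_zsmul, ← Int.cast_smul_eq_zsmul O] using h2

variable (hfin : (padicToRing hrO).Finite)

include hfin in
/-- The classes of a basis of the rational points modulo torsion are linearly independent. -/
theorem eq_zero_of_sum_pointClass (hfg : AddGroup.FG (fixedPts N)) {ι : Type*} [Fintype ι]
    (β : Module.Basis ι ℤ (fixedPts N ⧸ Submodule.torsion ℤ (fixedPts N))) (P : ι → fixedPts N)
    (hP : ∀ l, (Submodule.torsion ℤ (fixedPts N)).mkQ (P l) = β l) (b : ι → O)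
    (hb : ∑ l, b l • pointClass e hrO (P l) = 0) : b = 0 := by
  letI : Algebra ℤ_[r] O := (padicToRing hrO).toAlgebra
  haveI : Module.Finite ℤ_[r] O := hfin
  choose κP hκP using fun l => exists_isKummerCocycle e r (x := (P l : JZero N)) (P l).2
  have h3 : cochainClass e hrO (∑ l, b l • extCochain hrO (κP l)) = 0 := by
    rw [map_sum, ← hb]
    exact Finset.sum_congr rfl fun l _ => by rw [_root_.map_smul, pointClass_eq hrO (hκP l)]
  obtain ⟨c, hc, v, hv⟩ := (Submodule.Quotient.mk_eq_zero _).mp h3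
  choose s hs using fun l => (hκP l).exists_divSeq
  have h4 := Kummer.eq_zero_of_sum_coboundary e hrO hfg (fun l => (P l : JZero N)) s
    (fun l => (P l).2) (fun z hz => ?_) (fun l => c * b l) v fun σ => ?_
  · exact funext fun l => (mul_eq_zero.mp (congrFun h4 l)).resolve_left hc
  · have h5 : (∑ l, z l • P l) ∈ Submodule.torsion ℤ (fixedPts N) := by
      obtain ⟨k, hk, hk0⟩ := isOfFinAddOrder_iff_zsmul_eq_zero.mp hz
      refine ⟨⟨k, mem_nonZeroDivisors_of_ne_zero hk⟩, Subtype.ext ?_⟩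
      rw [Submonoid.smul_def, AddSubgroupClass.coe_zsmul, AddSubmonoidClass.coe_finsetSum]
      simpa using hk0
    rw [← Submodule.Quotient.mk_eq_zero, ← Submodule.mkQ_apply, map_sum] at h5
    simp only [map_zsmul, hP] at h5
    exact funext (Fintype.linearIndependent_iff.mp β.linearIndependent z h5)
  · rw [← hv σ, Finset.sum_apply, Finset.smul_sum]
    refine Finset.sum_congr rfl fun l _ => ?_
    rw [kummerClass_eq_of_tatePt hrO (s l) (P l).2 (hs l), mul_smul, Pi.smul_apply]

/-- The Kummer class of a Hecke image. -/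
theorem pointClass_hecke {Θ : CuspForm.heckeAlgebra N 2 (∅ : Set ℕ) →+*
      Matrix (Fin (cuspRank N)) (Fin (cuspRank N)) ℤ} (hΘ : IsHeckeIso e Θ)
    {t : HeckeAlg} (ht : t ∈ goodHecke N) (y y' : fixedPts N)
    (hy : (y' : JZero N) = (letI := heckeModuleBar N; t • (y : JZero N)))
    {κ' : Γℚ → Fin (cuspRank N) → ℤ_[r]} (h : IsKummerCocycle e r (y : JZero N) κ') :
    pointClass e hrO y' = cochainClass e hrO
      (fun σ => ((heckeMat Θ t).map (Int.castRingHom O)).mulVec (padicToRing hrO ∘ κ' σ)) := by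
  have h1 := h.hecke hΘ ht
  rw [← hy] at h1
  rw [pointClass_eq hrO h1]
  refine congrArg _ (funext fun σ => funext fun j => ?_)
  show padicToRing hrO (((heckeMat Θ t).map (Int.castRingHom ℤ_[r])).mulVec (κ' σ) j) = _
  rw [RingHom.map_mulVec, Matrix.map_map]
  congr 2
  funext z
  simp

end Saturation

/-- A common denominator. -/
theorem exists_int_mul_eq {δ : Type*} [Fintype δ] (q : δ → ℚ) :
    ∃ (D : ℤ) (c : δ → ℤ), D ≠ 0 ∧ ∀ d, (c d : ℚ) = (D : ℚ) * q d := by
  classical
  refine ⟨∏ d, ((q d).den : ℤ), fun d => (∏ d' ∈ Finset.univ.erase d, ((q d').den : ℤ)) *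
    (q d).num, Finset.prod_ne_zero_iff.mpr fun d _ => by exact_mod_cast (q d).den_nz,
    fun d => ?_⟩
  rw [← Finset.mul_prod_erase Finset.univ _ (Finset.mem_univ d)]
  push_cast
  rw [← Rat.mul_den_eq_num]
  ring

/-- If an integral combination of `f (t k)` vanishes, either so does that of `g (t k)` or some
element is killed by `f` and not by `g`. -/
theorem exists_map_eq_zero_ne_zero {T : Type*} [AddCommGroup T] {ι : Type*} [Fintype ι]
    (f : T →+ (ι → ℤ)) (g : T →+ ℤ) {R : Type*} [CommRing R] [IsDomain R] [CharZero R]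
    {κ : Type*} [Fintype κ] (a : κ → R) (t : κ → T)
    (hf : ∀ i, ∑ k, a k * (f (t k) i : R) = 0) (hg : ∑ k, a k * (g (t k) : R) ≠ 0) :
    ∃ s, f s = 0 ∧ g s ≠ 0 := by
  classical
  by_contra hne
  have H : ∀ s, f s = 0 → g s = 0 := fun s hs => by_contra fun hgs => hne ⟨s, hs, hgs⟩
  let F : (κ → ℚ) →ₗ[ℚ] (ι → ℚ) := Fintype.linearCombination ℚ fun k i => (f (t k) i : ℚ)
  let G : (κ → ℚ) →ₗ[ℚ] ℚ := Fintype.linearCombination ℚ fun k => (g (t k) : ℚ)
  have hker : G ∈ (LinearMap.ker F).dualAnnihilator := by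
    rw [Submodule.mem_dualAnnihilator]
    intro z hz
    obtain ⟨D, c, hD, hc⟩ := exists_int_mul_eq z
    have h1 : f (∑ k, c k • t k) = 0 := funext fun i => by
      have h2 := congrFun (LinearMap.mem_ker.mp hz) i
      simp only [F, Fintype.linearCombination_apply, Finset.sum_apply, Pi.smul_apply,
        smul_eq_mul, Pi.zero_apply] at h2
      have h3 : ((f (∑ k, c k • t k) i : ℤ) : ℚ) = 0 := by
        simp [hc, mul_assoc, ← Finset.mul_sum, h2]
      exact_mod_cast h3
    have h4 : ((g (∑ k, c k • t k) : ℤ) : ℚ) = 0 := by rw [H _ h1, Int.cast_zero]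
    simp [hc, mul_assoc, ← Finset.mul_sum, hD] at h4
    simpa [G, Fintype.linearCombination_apply] using h4
  rw [← LinearMap.range_dualMap_eq_dualAnnihilator_ker] at hker
  obtain ⟨φ, hφ⟩ := hker
  obtain ⟨D, c, hD, hc⟩ := exists_int_mul_eq fun i => φ (Pi.single i 1)
  have key : ∀ k, D * g (t k) = ∑ i, c i * f (t k) i := fun k => by
    have h1 := LinearMap.congr_fun hφ (Pi.single k 1)
    rw [LinearMap.dualMap_apply, LinearMap.pi_apply_eq_sum_univ φ] at h1
    have hFk : F (Pi.single k 1) = fun i => (f (t k) i : ℚ) := by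
      simp [F, Fintype.linearCombination_apply_single]
    have hGk : G (Pi.single k 1) = (g (t k) : ℚ) := by
      simp [G, Fintype.linearCombination_apply_single]
    rw [hFk, hGk] at h1
    apply Int.cast_injective (α := ℚ)
    push_cast
    rw [← h1, Finset.mul_sum]
    refine Finset.sum_congr rfl fun i _ => ?_
    rw [hc, show (Pi.single i 1 : ι → ℚ) = fun j => if i = j then 1 else 0 by
      funext j; simp [Pi.single_apply, eq_comm], smul_eq_mul]
    ring
  refine hg ((mul_eq_zero.mp ?_).resolve_left (Int.cast_ne_zero.mpr hD : (D : R) ≠ 0))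
  calc (D : R) * ∑ k, a k * (g (t k) : R) = ∑ k, ∑ i, (c i : R) * (a k * (f (t k) i : R)) := by
        rw [Finset.mul_sum]
        refine Finset.sum_congr rfl fun k _ => ?_
        rw [mul_left_comm, ← Int.cast_mul, key, Int.cast_sum, Finset.mul_sum]
        exact Finset.sum_congr rfl fun i _ => by push_cast; ring
    _ = 0 := by
        rw [Finset.sum_comm]
        exact Finset.sum_eq_zero fun i _ => by rw [← Finset.mul_sum, hf, mul_zero]

/-- The good Hecke operators on rational points. -/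
def goodAct (N : ℕ) [NeZero N] : goodHecke N →+ (fixedPts N →+ fixedPts N) :=
  letI := heckeModuleBar N
  AddMonoidHom.mk' (fun t => AddMonoidHom.mk' (fun y => ⟨(t : HeckeAlg) • (y : JZero N), fun σ => by
      haveI := EichlerShimura.smulCommClass_galois_heckeAlg N
      rw [smul_comm, y.2 σ]⟩)
      fun y y' => Subtype.ext (smul_add (t : HeckeAlg) (y : JZero N) (y' : JZero N)))
    fun t t' => AddMonoidHom.ext fun y =>
      Subtype.ext (add_smul (t : HeckeAlg) (t' : HeckeAlg) (y : JZero N))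

theorem coe_goodAct (t : goodHecke N) (y : fixedPts N) :
    (goodAct N t y : JZero N) = (letI := heckeModuleBar N; (t : HeckeAlg) • (y : JZero N)) :=
  rfl

/-- The coordinates of the Hecke images of a family of points. -/
def coordHom {ι : Type*} (β : Module.Basis ι ℤ (fixedPts N ⧸ Submodule.torsion ℤ (fixedPts N)))
    (P : ι → fixedPts N) : goodHecke N →+ (ι × ι → ℤ) :=
  AddMonoidHom.pi fun il => ((Finsupp.applyAddHom il.2).comp (β.repr.toAddMonoidHom.comp
    (Submodule.torsion ℤ (fixedPts N)).mkQ.toAddMonoidHom)).comp ((goodAct N).flip (P il.1))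

theorem coordHom_apply {ι : Type*}
    (β : Module.Basis ι ℤ (fixedPts N ⧸ Submodule.torsion ℤ (fixedPts N)))
    (P : ι → fixedPts N) (t : goodHecke N) (i l : ι) :
    coordHom β P t (i, l) =
      β.repr ((Submodule.torsion ℤ (fixedPts N)).mkQ (goodAct N t (P i))) l :=
  rfl

/-- If the image of every Kummer cocycle under a non-zero combination `π` of Hecke operators
becomes a coboundary up to a non-zero scalar, a Hecke operator acting non-trivially on forms
kills the rational points modulo torsion. -/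
theorem exists_hecke_torsion
    {Θ : CuspForm.heckeAlgebra N 2 (∅ : Set ℕ) →+*
      Matrix (Fin (cuspRank N)) (Fin (cuspRank N)) ℤ} (hΘ : IsHeckeIso e Θ)
    (hfg : AddGroup.FG ↥(FixedPoints.addSubgroup Γℚ (JZero N)))
    {O : Type} [CommRing O] [IsDomain O] [IsDiscreteValuationRing O]
    [IsAdicComplete (IsLocalRing.maximalIdeal O) O] [CharZero O]
    (hrO : (r : O) ∈ IsLocalRing.maximalIdeal O) (hfin : (padicToRing hrO).Finite)
    (π : Matrix (Fin (cuspRank N)) (Fin (cuspRank N)) O) (hπ0 : π ≠ 0)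
    (hπ : π ∈ Submodule.span O ((fun t => (heckeMat Θ t).map (Int.castRingHom O)) ''
      (goodHecke N : Set HeckeAlg)))
    (hcob : ∀ x κ, IsKummerCocycle e r x κ → ∃ a : O, a ≠ 0 ∧
      ∃ v : Fin (cuspRank N) → O, ∀ σ : Γℚ,
        a • π.mulVec (padicToRing hrO ∘ κ σ) = (galMatrix e r hrO σ).mulVec v - v) :
    ∃ t ∈ goodHecke N, heckeMat Θ t ≠ 0 ∧ ∀ x : JZero N, (∀ σ : Γℚ, σ • x = x) →
      IsOfFinAddOrder (letI := heckeModuleBar N; t • x) := by
  classical
  letI := heckeModuleBar N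
  haveI := EichlerShimura.smulCommClass_galois_heckeAlg N
  haveI : Module.Finite ℤ (fixedPts N) := Module.Finite.iff_addGroup_fg.mpr hfg
  let T := Submodule.torsion ℤ (fixedPts N)
  let β := Module.finBasis ℤ (fixedPts N ⧸ T)
  choose P hP using fun l => Submodule.mkQ_surjective T (β l)
  let n : goodHecke N →+ (Fin _ × Fin _ → ℤ) := coordHom β P
  obtain ⟨ij, hij⟩ : ∃ ij : Fin (cuspRank N) × Fin (cuspRank N), π ij.1 ij.2 ≠ 0 := by
    by_contra h
    exact hπ0 (Matrix.ext fun i j => by_contra fun hh => h ⟨(i, j), hh⟩)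
  obtain ⟨m, a, g, hsum⟩ := Submodule.mem_span_set'.mp hπ
  choose u hu using fun k => (g k).2
  let t : Fin m → goodHecke N := fun k => ⟨u k, (hu k).1⟩
  have hπeq : π = ∑ k, a k • (heckeMat Θ (t k : HeckeAlg)).map (Int.castRingHom O) := by
    rw [← hsum]
    exact Finset.sum_congr rfl fun k _ => congrArg (a k • ·) (hu k).2.symm
  have hn0 : ∀ il, ∑ k, a k * (n (t k) il : O) = 0 := by
    rintro ⟨i, l⟩
    obtain ⟨κi, hκi⟩ := exists_isKummerCocycle e r (x := (P i : JZero N)) (P i).2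
    refine congrFun (eq_zero_of_sum_pointClass (e := e) hrO hfin hfg β P hP
      (fun l => ∑ k, a k * (n (t k) (i, l) : O)) ?_) l
    simp only [Finset.sum_smul, mul_smul]
    rw [Finset.sum_comm]
    simp only [← Finset.smul_sum]
    have h1 : ∀ k, ∑ l, (n (t k) (i, l) : O) • pointClass e hrO (P l) =
        cochainClass e hrO (fun σ => ((heckeMat Θ (t k : HeckeAlg)).map (Int.castRingHom O)).mulVec
          (padicToRing hrO ∘ κi σ)) := fun k =>
      (pointClass_expand hrO β P hP (goodAct N (t k) (P i))).symm.trans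
        (pointClass_hecke hrO hΘ (t k).2 (P i) (goodAct N (t k) (P i)) (coe_goodAct _ _) hκi)
    simp only [h1, ← _root_.map_smul, ← map_sum]
    refine (Submodule.Quotient.mk_eq_zero _).mpr ?_
    obtain ⟨c, hc, v, hv⟩ := hcob _ _ hκi
    refine ⟨c, hc, v, fun σ => ?_⟩
    rw [← hv σ, hπeq, sum_mulVec, Finset.sum_apply]
    simp only [Pi.smul_apply, smul_mulVec]
  obtain ⟨t₀, h0, hne⟩ := exists_map_eq_zero_ne_zero n
    (AddMonoidHom.mk' (fun t : goodHecke N => heckeMat Θ (t : HeckeAlg) ij.1 ij.2) fun t t' => by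
      rw [Subalgebra.coe_add, _root_.map_add, Matrix.add_apply]) a t hn0 (by
    convert hij using 1
    rw [hπeq, Matrix.sum_apply]
    exact Finset.sum_congr rfl fun k _ => rfl)
  refine ⟨t₀, t₀.2, fun h => hne ?_, fun x hx => ?_⟩
  · show heckeMat Θ (t₀ : HeckeAlg) ij.1 ij.2 = 0
    rw [h, Matrix.zero_apply]
  · let y : fixedPts N := ⟨x, hx⟩
    have hfP : ∀ l, T.mkQ (goodAct N t₀ (P l)) = 0 := fun l => β.repr.injective <| by
      rw [_root_.map_zero]
      ext l'
      exact congrFun h0 (l, l')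
    have h1 : y - ∑ l, β.repr (T.mkQ y) l • P l ∈ T := by
      rw [← Submodule.Quotient.mk_eq_zero, ← Submodule.mkQ_apply, _root_.map_sub, map_sum]
      simp only [map_zsmul, hP, β.sum_repr, sub_self]
    obtain ⟨k, hk⟩ := h1
    have h2 : T.mkQ (goodAct N t₀ y) = 0 := by
      have h3 : T.mkQ (goodAct N t₀ (y - ∑ l, β.repr (T.mkQ y) l • P l)) = 0 := by
        rw [Submodule.mkQ_apply, Submodule.Quotient.mk_eq_zero]
        refine ⟨k, ?_⟩
        rw [Submonoid.smul_def, ← map_zsmul, ← Submonoid.smul_def, hk, _root_.map_zero]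
      rw [_root_.map_sub, map_sum, _root_.map_sub, map_sum] at h3
      simpa only [map_zsmul, hfP, smul_zero, Finset.sum_const_zero, sub_zero] using h3
    rw [Submodule.mkQ_apply, Submodule.Quotient.mk_eq_zero] at h2
    obtain ⟨k', hk'⟩ := h2
    refine isOfFinAddOrder_iff_zsmul_eq_zero.mpr ⟨k', nonZeroDivisors.coe_ne_zero k', ?_⟩
    simpa [Submonoid.smul_def, coe_goodAct] using congrArg Subtype.val hk'

end Fermat.Agent.Mazur.Descent
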