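import Fermat.Agent.Density.Transfer

/-!
# A residual line with trivial or determinant character

A monoid of `2 × 2` matrices over a field, all having `1` as an eigenvalue, has a common fixed
vector or an invariant line on which it acts by the determinant.  By density this applies modulo
`𝔪` to a Galois representation with Frobenius traces `1 + ℓ`.
-/

set_option autoImplicit false

noncomputable section

open Polynomial

namespace Fermat.Agent.Mazur.Descent

section Pure

variable {k : Type*} [Field k]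

/-- The alternating form on `k²`. -/
private def wedgeTwo (v w : Fin 2 → k) : k := v 0 * w 1 - v 1 * w 0

private lemma wedgeTwo_mulVec (A : Matrix (Fin 2) (Fin 2) k) (v w : Fin 2 → k) :
    wedgeTwo (A.mulVec v) (A.mulVec w) = A.det * wedgeTwo v w := by
  simp only [wedgeTwo, Matrix.mulVec, dotProduct, Fin.sum_univ_two, Matrix.det_fin_two]
  ring

private lemma exists_eq_smul_of_wedgeTwo {v w : Fin 2 → k} (hv : v ≠ 0) (h : wedgeTwo v w = 0) :
    ∃ a : k, w = a • v := by
  simp only [wedgeTwo] at h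
  by_cases h0 : v 0 = 0
  · have h1 : v 1 ≠ 0 := fun h1 => hv (funext fun i => by fin_cases i <;> assumption)
    refine ⟨w 1 / v 1, funext fun i => ?_⟩
    fin_cases i
    · simp [h0] at h ⊢
      tauto
    · simp [h1]
  · refine ⟨w 0 / v 0, funext fun i => ?_⟩
    fin_cases i
    · simp [h0]
    · simp only [Pi.smul_apply, smul_eq_mul, Fin.mk_one]
      field_simp
      linear_combination h

/-- A monoid of `2 × 2` matrices with eigenvalue `1` fixes a vector or stabilises a line by the
determinant. -/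
theorem exists_fixed_or_det_vector {G : Type*} [Monoid G] (M : G →* Matrix (Fin 2) (Fin 2) k)
    (h : ∀ g, (M g - 1).det = 0) :
    ∃ x : Fin 2 → k, x ≠ 0 ∧
      ((∀ g, (M g).mulVec x = x) ∨ ∀ g, (M g).mulVec x = (M g).det • x) := by
  classical
  have hdet : ∀ A B : Matrix (Fin 2) (Fin 2) k, A.det = 0 → B.det = 0 →
      ∀ v w : Fin 2 → k, wedgeTwo (A.mulVec v) (B.mulVec w) + wedgeTwo (B.mulVec v) (A.mulVec w) =
        (A + B).det * wedgeTwo v w := by
    intro A B hA hB v w
    rw [← wedgeTwo_mulVec, Matrix.add_mulVec, Matrix.add_mulVec]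
    have h1 := wedgeTwo_mulVec A v w
    have h2 := wedgeTwo_mulVec B v w
    rw [hA, zero_mul] at h1
    rw [hB, zero_mul] at h2
    simp only [wedgeTwo, Pi.add_apply] at *
    linear_combination -h1 - h2
  -- the span of the `M g - 1` is isotropic
  have hsum : ∀ g g', ((M g - 1) + (M g' - 1)).det = 0 := by
    intro g g'
    have h1 := h (g * g')
    have hg := h g
    have hg' := h g'
    rw [map_mul] at h1
    simp only [Matrix.det_fin_two, Matrix.sub_apply, Matrix.add_apply, Matrix.mul_apply,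
      Fin.sum_univ_two, Matrix.one_apply_eq, Matrix.one_apply_ne (show (0 : Fin 2) ≠ 1 by decide),
      Matrix.one_apply_ne (show (1 : Fin 2) ≠ 0 by decide)] at h1 hg hg' ⊢
    linear_combination h1 - ((M g' 0 0 - 1) + (M g' 1 1 - 1) + ((M g' 0 0 - 1) * (M g' 1 1 - 1)
      - M g' 0 1 * M g' 1 0)) * hg - ((M g 0 0 - 1) + (M g 1 1 - 1)) * hg'
  have hpol : ∀ g g' (v w : Fin 2 → k),
      wedgeTwo ((M g - 1).mulVec v) ((M g' - 1).mulVec w) +
        wedgeTwo ((M g' - 1).mulVec v) ((M g - 1).mulVec w) = 0 := fun g g' v w => by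
    rw [hdet _ _ (h g) (h g'), hsum, zero_mul]
  by_cases h0 : ∀ g, M g - 1 = 0
  · refine ⟨![1, 0], fun e => one_ne_zero (congrFun e 0), Or.inl fun g => ?_⟩
    rw [sub_eq_zero.mp (h0 g), Matrix.one_mulVec]
  push Not at h0
  obtain ⟨g₀, hg₀⟩ := h0
  obtain ⟨x, hx, hx₀⟩ := Matrix.exists_mulVec_eq_zero_iff.mpr (h g₀)
  by_cases hall : ∀ g, (M g - 1).mulVec x = 0
  · refine ⟨x, hx, Or.inl fun g => ?_⟩
    have := hall g
    rwa [Matrix.sub_mulVec, Matrix.one_mulVec, sub_eq_zero] at this
  push Not at hall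
  obtain ⟨g₁, hg₁⟩ := hall
  obtain ⟨y, hxy⟩ : ∃ y, wedgeTwo x y = 1 := by
    by_cases hx0 : x 0 = 0
    · have h1 : x 1 ≠ 0 := fun h1 => hx (funext fun i => by fin_cases i <;> assumption)
      exact ⟨![-(x 1)⁻¹, 0], by simp [wedgeTwo, hx0, h1]⟩
    · exact ⟨![0, (x 0)⁻¹], by simp [wedgeTwo, hx0]⟩
  have hbasis : ∀ v : Fin 2 → k, v = wedgeTwo v y • x + wedgeTwo x v • y := by
    intro v
    simp only [wedgeTwo] at hxy
    funext i
    fin_cases i <;> simp only [wedgeTwo, Pi.add_apply, Pi.smul_apply, smul_eq_mul, Fin.zero_eta,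
      Fin.mk_one]
    · linear_combination -(v 0) * hxy
    · linear_combination -(v 1) * hxy
  set u := (M g₀ - 1).mulVec y with hu
  have hu0 : u ≠ 0 := by
    intro e
    refine hg₀ (Matrix.ext_iff_mulVec.mpr fun v => ?_)
    rw [hbasis v, Matrix.mulVec_add, Matrix.mulVec_smul, Matrix.mulVec_smul, hx₀, ← hu, e]
    simp
  -- images of the vector `x`
  have hXu : ∀ g, ∃ a : k, (M g - 1).mulVec x = a • u := by
    intro g
    have := hpol g g₀ x y
    rw [hx₀, ← hu] at this
    refine exists_eq_smul_of_wedgeTwo hu0 ?_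
    simp only [wedgeTwo, Pi.zero_apply] at this ⊢
    linear_combination -this
  obtain ⟨a₁, ha₁⟩ := hXu g₁
  have ha10 : a₁ ≠ 0 := fun e => hg₁ (by rw [ha₁, e, zero_smul])
  have hYu : ∀ g, ∃ a : k, (M g - 1).mulVec y = a • u := by
    intro g
    obtain ⟨a, ha⟩ := hXu g
    refine exists_eq_smul_of_wedgeTwo hu0 ?_
    by_cases hga : a = 0
    · have := hpol g₁ g x y
      rw [ha₁, ha, hga] at this
      refine (mul_eq_zero.mp ?_).resolve_left ha10
      simp only [wedgeTwo, Pi.smul_apply, smul_eq_mul] at this ⊢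
      linear_combination this
    · have := wedgeTwo_mulVec (M g - 1) x y
      rw [h g, zero_mul, ha] at this
      refine (mul_eq_zero.mp ?_).resolve_left hga
      simp only [wedgeTwo, Pi.smul_apply, smul_eq_mul] at this ⊢
      linear_combination this
  have himg : ∀ g v, ∃ a : k, (M g - 1).mulVec v = a • u := by
    intro g v
    obtain ⟨a, ha⟩ := hXu g
    obtain ⟨b, hb⟩ := hYu g
    refine ⟨wedgeTwo v y * a + wedgeTwo x v * b, ?_⟩
    conv_lhs => rw [hbasis v]
    rw [Matrix.mulVec_add, Matrix.mulVec_smul, Matrix.mulVec_smul, ha, hb, smul_smul, smul_smul,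
      ← add_smul]
  refine ⟨u, hu0, Or.inr fun g => ?_⟩
  obtain ⟨a, ha⟩ := himg g u
  have hMu : (M g).mulVec u = (1 + a) • u := by
    rw [add_smul, one_smul, ← ha, Matrix.sub_mulVec, Matrix.one_mulVec, add_sub_cancel]
  obtain ⟨w, hw⟩ : ∃ w, wedgeTwo u w = 1 := by
    by_cases hu0' : u 0 = 0
    · have h1 : u 1 ≠ 0 := fun h1 => hu0 (funext fun i => by fin_cases i <;> assumption)
      exact ⟨![-(u 1)⁻¹, 0], by simp [wedgeTwo, hu0', h1]⟩
    · exact ⟨![0, (u 0)⁻¹], by simp [wedgeTwo, hu0']⟩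
  obtain ⟨b, hb⟩ := himg g w
  have hMw : (M g).mulVec w = w + b • u := by
    rw [← hb, Matrix.sub_mulVec, Matrix.one_mulVec, add_sub_cancel]
  have hd := wedgeTwo_mulVec (M g) u w
  rw [hMu, hMw, hw, mul_one] at hd
  rw [hMu, ← hd]
  congr 1
  simp only [wedgeTwo, Pi.add_apply, Pi.smul_apply, smul_eq_mul] at hw ⊢
  linear_combination -(1 + a) * hw

end Pure

section Residual

local notation "ℚ̄" => AlgebraicClosure ℚ
local notation "Γℚ" => (AlgebraicClosure ℚ ≃ₐ[ℚ] AlgebraicClosure ℚ)

variable {O : Type} [CommRing O] [IsLocalRing O]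

/-- Membership of `𝔪 V` is read on coordinates. -/
theorem mem_maximalIdeal_smul_top_iff {V : Type*} [AddCommGroup V] [Module O V] {ι : Type*}
    [Fintype ι] (b : Module.Basis ι O V) (v : V) :
    v ∈ IsLocalRing.maximalIdeal O • (⊤ : Submodule O V) ↔
      ∀ i, b.repr v i ∈ IsLocalRing.maximalIdeal O := by
  refine ⟨fun h i => ?_, fun h => ?_⟩
  · refine Submodule.smul_induction_on (p := fun x => b.repr x i ∈ IsLocalRing.maximalIdeal O)
      h ?_ ?_
    · intro r hr x _
      simpa using Ideal.mul_mem_right _ _ hr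
    · intro x y hx hy
      simpa using Ideal.add_mem _ hx hy
  · rw [← b.sum_repr v]
    exact Submodule.sum_mem _ fun i _ => Submodule.smul_mem_smul (h i) Submodule.mem_top

/-- A representation with Frobenius traces `1 + ℓ` modulo the maximal ideal has a residual line
with trivial or cyclotomic character. -/
theorem exists_residual_line [IsNoetherianRing O] (r : ℕ) [Fact r.Prime]
    (hrO : (r : O) ∈ IsLocalRing.maximalIdeal O) (ρ : GaloisRepAdic O) (S : Finset ℕ)
    (htr : ∀ ℓ : ℕ, ℓ.Prime → ℓ ∉ S → ∀ A : ValuationSubring ℚ̄, A.LiesOverPrime ℓ →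
      ∀ σ : Γℚ, A.IsFrobeniusAt σ ℓ → ∃ a : O, a - (1 + (ℓ : O)) ∈ IsLocalRing.maximalIdeal O ∧
        LinearMap.charpoly (ρ.ρ σ) = X ^ 2 - C a * X + C (ℓ : O)) :
    ∃ x : ρ.V, x ∉ (IsLocalRing.maximalIdeal O) • (⊤ : Submodule O ρ.V) ∧
      ((∀ σ : Γℚ, ρ.ρ σ x - x ∈ (IsLocalRing.maximalIdeal O) • (⊤ : Submodule O ρ.V)) ∨
        ∀ (σ : Γℚ) (a : ℕ), (∀ μ : ℚ̄, μ ^ r = 1 → σ μ = μ ^ a) →
          ρ.ρ σ x - (a : O) • x ∈ (IsLocalRing.maximalIdeal O) • (⊤ : Submodule O ρ.V)) := by
  classical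
  have hdet : ρ.DetIsCyclotomic r := Density.detIsCyclotomic_of_charpoly_frobenius ρ r Fact.out
    hrO S fun ℓ hℓ hℓS A hA σ hσ => (htr ℓ hℓ hℓS A hA σ hσ).imp fun _ h => h.2
  let q : O →+* IsLocalRing.ResidueField O := IsLocalRing.residue O
  have hq : ∀ a : O, q a = 0 ↔ a ∈ IsLocalRing.maximalIdeal O :=
    fun a => IsLocalRing.residue_eq_zero_iff a
  let b := Module.finBasisOfFinrankEq O ρ.V ρ.finrank_eq
  let T : Γℚ → Matrix (Fin 2) (Fin 2) O := fun σ => LinearMap.toMatrixAlgEquiv b (ρ.ρ σ)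
  let M : Γℚ →* Matrix (Fin 2) (Fin 2) (IsLocalRing.ResidueField O) :=
    q.mapMatrix.toMonoidHom.comp
      { toFun := T
        map_one' := by simp [T]
        map_mul' := fun σ τ => by simp [T] }
  have hlev : ∃ L : IntermediateField ℚ ℚ̄, FiniteDimensional ℚ L ∧
      ∀ σ : Γℚ, (∀ x ∈ L, σ x = x) → M σ = 1 := by
    obtain ⟨L, hL, h⟩ := Density.adic_exists_level_map_mk ρ b 1
    refine ⟨L, hL, fun σ hσ => Matrix.ext fun i j => ?_⟩
    have h1 := congrFun (congrFun (h σ hσ) i) j
    rw [Matrix.map_apply, Matrix.one_apply,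
      ← (show Ideal.Quotient.mk (IsLocalRing.maximalIdeal O ^ 1) (if i = j then 1 else 0) =
        (if i = j then 1 else 0) by split_ifs <;> simp), Ideal.Quotient.eq, pow_one,
      ← IsLocalRing.residue_eq_zero_iff, map_sub, sub_eq_zero] at h1
    show q (T σ i j) = _
    rw [Matrix.one_apply]
    exact h1.trans (by split_ifs <;> simp)
  have hfix : ∀ g, (M g - 1).det = 0 := by
    intro g
    obtain ⟨ℓ, hℓ, hℓS, A, σ, hA, hσ, -, a, e, -, he⟩ :=
      Density.exists_isFrobeniusAt_map_pow M hlev g S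
    obtain ⟨t, ht, hchar⟩ := htr ℓ hℓ hℓS A hA σ hσ
    have h1 : (M σ - 1).det = 0 := by
      have hev := congrArg (Polynomial.eval 1) hchar
      rw [← LinearMap.charpoly_toMatrix (ρ.ρ σ) b, Matrix.eval_charpoly] at hev
      simp only [map_one, eval_add, eval_sub, eval_pow, eval_X, eval_mul, eval_C, one_pow,
        mul_one] at hev
      have h2 : q (1 - T σ).det = 0 := by
        rw [show (1 - T σ).det = 1 - t + (ℓ : O) from hev, hq]
        have := neg_mem ht
        rwa [show -(t - (1 + (ℓ : O))) = 1 - t + ℓ by ring] at this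
      rw [RingHom.map_det, map_sub, map_one] at h2
      have h3 := Matrix.det_neg (1 - M σ)
      rw [neg_sub] at h3
      rw [h3]
      exact mul_eq_zero_of_right _ h2
    rw [he, ← geom_sum_mul (M σ) e, Matrix.det_mul, h1, mul_zero]
  obtain ⟨x, hx0, hx⟩ := exists_fixed_or_det_vector M hfix
  choose xL hxL using fun i => IsLocalRing.residue_surjective (x i)
  have hco : ∀ (σ : Γℚ) (c : O) (i : Fin 2),
      q (b.repr (ρ.ρ σ (b.equivFun.symm xL) - c • b.equivFun.symm xL) i) =
        (M σ).mulVec x i - q c * x i := by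
    intro σ c i
    have h1 : b.repr (b.equivFun.symm xL) i = xL i := by
      rw [← b.equivFun_apply, LinearEquiv.apply_symm_apply]
    have h2 : b.repr (ρ.ρ σ (b.equivFun.symm xL)) i = (T σ).mulVec xL i := by
      have := LinearMap.toMatrix_mulVec_repr b b (ρ.ρ σ) (b.equivFun.symm xL)
      have h3 : (b.repr (b.equivFun.symm xL) : Fin 2 → O) = xL := funext fun j => by
        rw [← b.equivFun_apply, LinearEquiv.apply_symm_apply]
      rw [h3] at this
      exact (congrFun this i).symm
    rw [map_sub, map_smul, Finsupp.sub_apply, Finsupp.smul_apply, smul_eq_mul, h1, h2, map_sub,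
      map_mul, RingHom.map_mulVec]
    rw [show q ∘ xL = x from funext hxL, show q (xL i) = x i from hxL i]
    rfl
  refine ⟨b.equivFun.symm xL, fun h => hx0 (funext fun i => ?_), ?_⟩
  · have h1 := (mem_maximalIdeal_smul_top_iff b _).mp h i
    rw [← b.equivFun_apply, LinearEquiv.apply_symm_apply, ← IsLocalRing.residue_eq_zero_iff,
      hxL] at h1
    exact h1
  rcases hx with hx | hx
  · refine Or.inl fun σ => (mem_maximalIdeal_smul_top_iff b _).mpr fun i => (hq _).mp ?_
    have := hco σ 1 i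
    rw [one_smul] at this
    rw [this, hx σ, map_one, one_mul, sub_self]
  · refine Or.inr fun σ a ha => (mem_maximalIdeal_smul_top_iff b _).mpr fun i => (hq _).mp ?_
    have hd : (M σ).det = q (a : O) := by
      show (q.mapMatrix (T σ)).det = _
      rw [← RingHom.map_det, ← sub_eq_zero, ← map_sub, hq]
      have h1 := hdet.2 1 σ a fun μ hμ => ha μ (by simpa using hμ)
      rw [show (T σ).det = LinearMap.det (ρ.ρ σ) from LinearMap.det_toMatrix b _]
      refine (Ideal.span_singleton_le_iff_mem _).mpr ?_ h1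
      simpa using hrO
    rw [hco, hx σ, hd]
    simp

end Residual

end Fermat.Agent.Mazur.Descent
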