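/-
The Galois lattice of a Hecke eigen system inside the `r`-adic coordinates, and its residual
shape for an Eisenstein congruence.
-/
import Fermat.Agent.Mazur.Descent.Points
import Fermat.Agent.EichlerShimura.Eigensystem
import Fermat.Agent.EichlerShimura.FiniteLevelX0
import Fermat.Agent.Mazur.Descent.ResidualLine
import Fermat.Prelude.Def_GaloisRep_LocalConditions

set_option autoImplicit false

noncomputable section

open CongruenceSubgroup ModularCurve Polynomial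
open scoped MatrixGroups

namespace Fermat.Agent.Mazur.Descent

open EichlerShimura (QZ torsionPts cuspRank galMatrix heckeMatrix)

local notation "ℚ̄" => AlgebraicClosure ℚ
local notation "Γℚ" => (AlgebraicClosure ℚ ≃ₐ[ℚ] AlgebraicClosure ℚ)

variable {N : ℕ} [NeZero N]

/-- The joint eigen lattice of `χ`. -/
def eigenLattice {O : Type} [CommRing O] (χ : CuspForm.heckeAlgebra N 2 (∅ : Set ℕ) →+* O) :
    Submodule O (Fin (cuspRank N) → O) :=
  EichlerShimura.matrixJointKer fun ℓ : Nat.Primes =>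
    (heckeMatrix N ℓ).map (Int.castRingHom O) - χ (Immersion.formsGen N ℓ) • 1

theorem formsGen_eq_heckeTU (ℓ : Nat.Primes) :
    Immersion.formsGen N ℓ = EichlerShimura.heckeTU N ℓ := rfl

theorem mem_eigenLattice_iff {O : Type} [CommRing O]
    (χ : CuspForm.heckeAlgebra N 2 (∅ : Set ℕ) →+* O) (w : Fin (cuspRank N) → O) :
    w ∈ eigenLattice χ ↔ ∀ ℓ : Nat.Primes, ((heckeMatrix N ℓ).map (Int.castRingHom O)).mulVec w =
      χ (Immersion.formsGen N ℓ) • w := by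
  simp only [eigenLattice, EichlerShimura.mem_matrixJointKer, Matrix.sub_mulVec,
    Matrix.smul_mulVec, Matrix.one_mulVec, sub_eq_zero]

theorem exists_lattice_rep (e : torsionPts N ≃+ Periods.cuspidalHoms ℤ (Gamma0 N) QZ)
    {Θ : CuspForm.heckeAlgebra N 2 (∅ : Set ℕ) →+*
      Matrix (Fin (cuspRank N)) (Fin (cuspRank N)) ℤ} (hΘ : IsHeckeIso e Θ)
    (r : ℕ) [Fact r.Prime] (hF : EichlerShimura.FrobeniusOnTorsion N r)
    {O : Type} [CommRing O] [IsDomain O] [IsDiscreteValuationRing O]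
    [IsAdicComplete (IsLocalRing.maximalIdeal O) O] [Finite (IsLocalRing.ResidueField O)]
    [CharZero O] (hrO : (r : O) ∈ IsLocalRing.maximalIdeal O)
    (χ : CuspForm.heckeAlgebra N 2 (∅ : Set ℕ) →+* O) :
    ∃ (ρ : GaloisRepAdic O) (j : ρ.V →ₗ[O] (Fin (cuspRank N) → O)),
      Function.Injective j ∧ LinearMap.range j = eigenLattice χ ∧
      (∀ σ v, j (ρ.ρ σ v) = (galMatrix e r hrO σ).mulVec (j v)) ∧
      ρ.DetIsCyclotomic r ∧
      (∀ q : ℕ, q.Prime → ¬ q ∣ N → q ≠ r → ρ.IsUnramifiedAt q) ∧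
      ∀ ℓ : Nat.Primes, ¬ (ℓ : ℕ) ∣ N → (ℓ : ℕ) ≠ r →
        ∀ A : ValuationSubring ℚ̄, A.LiesOverPrime (ℓ : ℕ) →
          ∀ σ : Γℚ, A.IsFrobeniusAt σ (ℓ : ℕ) →
            LinearMap.charpoly (ρ.ρ σ) =
              X ^ 2 - C (χ (Immersion.formsGen N ℓ)) * X + C ((ℓ : ℕ) : O) := by
  obtain ⟨ρ, hfrob, hunr, ι, hι, hιg, hιev, -, hιmax⟩ :=
    EichlerShimura.exists_galoisRepAdic_of_kummerIso_lattice N r e hΘ.hecke hΘ.bad hΘ.conj hF
      (EichlerShimura.galoisFiniteLevel_x0 N) O hrO χ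
  refine ⟨ρ, ι, hι, ?_, hιg, ?_, hunr, fun ℓ hℓN hℓr A hA σ hσ => ?_⟩
  · refine le_antisymm ?_ fun w hw => hιmax w fun ℓ => ?_
    · rintro _ ⟨v, rfl⟩
      exact (mem_eigenLattice_iff χ _).mpr fun ℓ => hιev v ℓ
    · exact (mem_eigenLattice_iff χ w).mp hw ℓ
  · refine Density.detIsCyclotomic_of_charpoly_frobenius ρ r Fact.out hrO
      (insert r N.primeFactors) fun ℓ hℓ hℓS A hA σ hσ => ⟨_, hfrob ℓ hℓ ?_ ?_ A hA σ hσ⟩
    · exact fun h => hℓS (Finset.mem_insert_of_mem (Nat.mem_primeFactors.mpr ⟨hℓ, h, NeZero.ne N⟩))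
    · exact fun h => hℓS (by rw [h]; exact Finset.mem_insert_self r _)
  · have h := hfrob ℓ ℓ.2 hℓN hℓr A hA σ hσ
    rw [Immersion.formsGen, dif_neg hℓN]
    exact h

/-- A representation with Frobenius traces `1 + ℓ` modulo the maximal ideal has a residual
line with character `1` or the cyclotomic one. -/
theorem exists_residual_eigenvector {O : Type} [CommRing O] [IsDomain O]
    [IsDiscreteValuationRing O] [IsAdicComplete (IsLocalRing.maximalIdeal O) O]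
    [Finite (IsLocalRing.ResidueField O)] [CharZero O]
    (r : ℕ) [Fact r.Prime] (hrO : (r : O) ∈ IsLocalRing.maximalIdeal O)
    (ρ : GaloisRepAdic O) (S : Finset ℕ)
    (htr : ∀ ℓ : ℕ, ℓ.Prime → ℓ ∉ S → ∀ A : ValuationSubring ℚ̄, A.LiesOverPrime ℓ →
      ∀ σ : Γℚ, A.IsFrobeniusAt σ ℓ → ∃ a : O, a - (1 + (ℓ : O)) ∈ IsLocalRing.maximalIdeal O ∧
        LinearMap.charpoly (ρ.ρ σ) = X ^ 2 - C a * X + C (ℓ : O)) :
    ∃ x : ρ.V, x ∉ (IsLocalRing.maximalIdeal O) • (⊤ : Submodule O ρ.V) ∧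
      ((∀ σ : Γℚ, ρ.ρ σ x - x ∈ (IsLocalRing.maximalIdeal O) • (⊤ : Submodule O ρ.V)) ∨
        ∀ (σ : Γℚ) (a : ℕ), (∀ μ : ℚ̄, μ ^ r = 1 → σ μ = μ ^ a) →
          ρ.ρ σ x - (a : O) • x ∈ (IsLocalRing.maximalIdeal O) • (⊤ : Submodule O ρ.V)) := by
  exact exists_residual_line r hrO ρ S htr

end Fermat.Agent.Mazur.Descent
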