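/-
Definitions for the descent showing that an Eisenstein component of `J₀(N)` has rank zero.

All conditions are elementwise on continuous cocycles with values in a lattice `V`:
* `IsSelmer`: vanishes on inertia away from `{N, r}` and takes values in the connected line `Vp`
  on inertia at `r`;
* `HasUnitKummerShape`: modulo the maximal ideal, on the part of inertia fixing the `r`-th roots
  of unity it is a combination of Kummer characters of units.
-/
import Fermat.Prelude.Def_GaloisRep_LocalConditions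
import Fermat.Prelude.Def_FLTPrelim_Ramification
import Fermat.Prelude.Def_EllipticCurve_FrobeniusTrace
import Mathlib.RingTheory.RootsOfUnity.PrimitiveRoots

set_option autoImplicit false

noncomputable section

namespace Fermat.Agent.Mazur.Descent

local notation "ℚ̄" => AlgebraicClosure ℚ
local notation "Γℚ" => (AlgebraicClosure ℚ ≃ₐ[ℚ] AlgebraicClosure ℚ)

variable {O : Type} [CommRing O] [IsLocalRing O]

/-- An adically continuous one-cocycle with values in the lattice of `ρ`. -/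
structure IsContCocycle (ρ : GaloisRepAdic O) (c : Γℚ → ρ.V) : Prop where
  map_mul : ∀ σ τ, c (σ * τ) = c σ + ρ.ρ σ (c τ)
  cont : ∀ n : ℕ, ∃ L : IntermediateField ℚ ℚ̄, FiniteDimensional ℚ L ∧
    ∀ σ : Γℚ, (∀ x ∈ L, σ x = x) →
      c σ ∈ (IsLocalRing.maximalIdeal O ^ n) • (⊤ : Submodule O ρ.V)

/-- The coboundary of a vector. -/
def coboundary (ρ : GaloisRepAdic O) (v : ρ.V) : Γℚ → ρ.V := fun σ => ρ.ρ σ v - v

/-- The Selmer conditions for the Eisenstein descent of level `N` at `r`. -/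
structure IsSelmer (ρ : GaloisRepAdic O) (N r : ℕ) (A : ValuationSubring ℚ̄)
    (Vp : Submodule O ρ.V) (c : Γℚ → ρ.V) : Prop extends IsContCocycle ρ c where
  unramified : ∀ l : ℕ, l.Prime → l ≠ N → l ≠ r →
    ∀ B : ValuationSubring ℚ̄, B.LiesOverPrime l → ∀ σ ∈ B.inertiaSubgroupIn ℚ, c σ = 0
  at_r : ∀ σ ∈ A.inertiaSubgroupIn ℚ, c σ ∈ Vp

/-- Inertia elements at `A` fixing all `r`-th roots of unity. -/
def InTameTwist (A : ValuationSubring ℚ̄) (r : ℕ) (σ : Γℚ) : Prop :=
  σ ∈ A.inertiaSubgroupIn ℚ ∧ ∀ μ : ℚ̄, μ ^ r = 1 → σ μ = μ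

/-- `f` is, on `InTameTwist A r`, the Kummer character of a unit whose `r`-th power is fixed by
inertia. -/
def IsUnitKummer (A : ValuationSubring ℚ̄) (r : ℕ) (ζ : ℚ̄) (f : Γℚ → ZMod r) : Prop :=
  ∃ y : ℚ̄, A.valuation y = 1 ∧ (∀ τ ∈ A.inertiaSubgroupIn ℚ, τ (y ^ r) = y ^ r) ∧
    ∀ σ : Γℚ, InTameTwist A r σ → σ y = ζ ^ (f σ).val * y

/-- Modulo `W`, the function `c` is on `InTameTwist A r` a combination of unit Kummer
characters. -/
def HasUnitKummerShape {G : Type*} [AddCommGroup G] (A : ValuationSubring ℚ̄) (r : ℕ) (ζ : ℚ̄)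
    (W : AddSubgroup G) (c : Γℚ → G) : Prop :=
  ∃ (s : ℕ) (f : Fin s → Γℚ → ZMod r) (v : Fin s → G), (∀ i, IsUnitKummer A r ζ (f i)) ∧
    ∀ σ : Γℚ, InTameTwist A r σ → c σ - ∑ i, (f i σ).val • v i ∈ W

end Fermat.Agent.Mazur.Descent
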