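/-
The maximal `r`-quotient of inertia at `N ≠ r` is procyclic, with Frobenius acting as `N`.

A finite-level `r`-group valued homomorphism `h` of inertia has cyclic image; pairing `h` with
the Kummer character of an `r`-power root of `N` shows that one element moving `N^(1/r)` generates
all these images, and computes the Frobenius conjugation.
-/
import Fermat.Agent.RT.Tame
import Fermat.Agent.EC.Mult.Ramification
import Fermat.Agent.EC.Det.CyclotomicChar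
import Mathlib.GroupTheory.PGroup

set_option autoImplicit false
set_option linter.style.haveILetI false

noncomputable section

open scoped NumberField

namespace Fermat.Agent.Mazur.Descent

local notation "ℚ̄" => AlgebraicClosure ℚ
local notation "Γℚ" => (AlgebraicClosure ℚ ≃ₐ[ℚ] AlgebraicClosure ℚ)

variable {A : ValuationSubring ℚ̄}

theorem conj_mem_inertiaSubgroupIn_of_mem {F τ : Γℚ} (hF : F ∈ A.decompositionSubgroup ℚ)
    (hτ : τ ∈ A.inertiaSubgroupIn ℚ) : F * τ * F⁻¹ ∈ A.inertiaSubgroupIn ℚ := by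
  obtain ⟨t, ht, rfl⟩ := hτ
  refine Subgroup.mem_map.mpr ⟨(⟨F, hF⟩ : A.decompositionSubgroup ℚ) * t *
    (⟨F, hF⟩ : A.decompositionSubgroup ℚ)⁻¹, ?_, ?_⟩
  · have h2 : t ∈ A.inertiaSubgroup ℚ := ht
    rw [ValuationSubring.inertiaSubgroup, MonoidHom.mem_ker] at h2 ⊢
    rw [map_mul, map_mul, h2, mul_one, ← map_mul, mul_inv_cancel, map_one]
  · rw [map_mul, map_mul, map_inv]
    rfl

/-- A finite-level homomorphism on inertia at `q` with values of `p`-power order, `p ≠ q`, has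
cyclic image. -/
theorem exists_generator_map_inertia {H : Type*} [Group H] (h : Γℚ → H)
    (hmul : ∀ σ ∈ A.inertiaSubgroupIn ℚ, ∀ σ' ∈ A.inertiaSubgroupIn ℚ, h (σ * σ') = h σ * h σ')
    (hfin : ∃ L : IntermediateField ℚ ℚ̄, FiniteDimensional ℚ L ∧
      ∀ σ ∈ A.inertiaSubgroupIn ℚ, (∀ x ∈ L, σ x = x) → h σ = 1)
    {p q : ℕ} (hp : p.Prime) (hq : q.Prime) (hpq : p ≠ q) (hA : A.LiesOverPrime q)
    (hpow : ∀ σ ∈ A.inertiaSubgroupIn ℚ, ∃ a : ℕ, h σ ^ p ^ a = 1) :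
    ∃ σ₀ ∈ A.inertiaSubgroupIn ℚ, ∀ σ ∈ A.inertiaSubgroupIn ℚ,
      ∃ n : ℤ, h σ = h σ₀ ^ n := by
  classical
  obtain ⟨L, hL, hker⟩ := hfin
  let K : IntermediateField ℚ ℚ̄ := IntermediateField.normalClosure ℚ L ℚ̄
  have : Algebra.IsAlgebraic ℚ ℚ̄ := AlgebraicClosure.isAlgebraic ℚ
  have : IsAlgClosure ℚ ℚ̄ := ⟨inferInstance, inferInstance⟩
  have : Normal ℚ ℚ̄ := IsAlgClosure.normal ℚ _
  have : Normal ℚ K := normalClosure.normal ℚ L _
  have : FiniteDimensional ℚ K := normalClosure.is_finiteDimensional ℚ L _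
  let π := AlgEquiv.restrictNormalHom (F := ℚ) (K₁ := ℚ̄) K
  let f₀ : A.inertiaSubgroupIn ℚ →* H :=
    MonoidHom.mk' (fun σ => h σ) fun σ σ' => hmul σ σ.2 σ' σ'.2
  let π₀ := π.subgroupMap (A.inertiaSubgroupIn ℚ)
  have hle : π₀.ker ≤ f₀.ker := fun σ hσ => MonoidHom.mem_ker.mpr <| hker σ σ.2 fun x hx => by
    have hxK : x ∈ K := IntermediateField.le_normalClosure L hx
    have h2 := AlgEquiv.restrictNormal_commutes (σ : Γℚ) K ⟨x, hxK⟩
    have h3 : π (σ : Γℚ) = 1 := congrArg Subtype.val (MonoidHom.mem_ker.mp hσ)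
    rw [show AlgEquiv.restrictNormal (σ : Γℚ) K = π σ from rfl, h3] at h2
    exact h2.symm
  have hsurj : Function.Surjective π₀ := π.subgroupMap_surjective _
  let fbar := π₀.liftOfSurjective hsurj ⟨f₀, hle⟩
  have hcomp : ∀ σ, fbar (π₀ σ) = f₀ σ :=
    fun σ => MonoidHom.liftOfRightInverse_comp_apply _ _ _ _ σ
  let I := (A.inertiaSubgroupIn ℚ).map π
  let Q := Density.center K A
  have hI : I ≤ Q.inertia (K ≃ₐ[ℚ] K) := by
    rintro _ ⟨σ, hσ, rfl⟩
    exact Density.restrictNormalHom_mem_inertia hσ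
  have hQp : Q.IsPrime := Density.isPrime_center K A
  have hQq : (q : 𝓞 K) ∈ Q := Density.natCast_mem_center hA
  have hQ0 : Q ≠ ⊥ := Density.ne_bot_of_natCast_mem hq hQq
  have hQmax : Q.IsMaximal := hQp.isMaximal hQ0
  have hpQ : (p : 𝓞 K) ∉ Q := fun hpQ => by
    obtain ⟨a, b, hab⟩ := Nat.Coprime.isCoprime ((Nat.coprime_primes hp hq).mpr hpq)
    refine hQp.ne_top ((Ideal.eq_top_iff_one Q).mpr ?_)
    have := congrArg (Int.cast : ℤ → 𝓞 K) hab
    push_cast at this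
    rw [← this]
    exact add_mem (Q.mul_mem_left _ hpQ) (Q.mul_mem_left _ hQq)
  have : FaithfulSMul I (𝓞 K) := ⟨fun {g g'} hgg' => by
    by_contra hne
    obtain ⟨a, ha⟩ := Density.exists_smul_ne (K := K) (σ := (g' : K ≃ₐ[ℚ] K)⁻¹ * g)
      (fun e => hne (Subtype.ext (inv_mul_eq_one.mp e).symm))
    exact ha (by rw [mul_smul]; exact inv_smul_eq_iff.mpr (hgg' a))⟩
  have htop : Q.inertia I = ⊤ := eq_top_iff.mpr fun g _ x => hI g.2 x
  have hcyc := RT.isCyclic_map_inertia (R := 𝓞 K) (G := I) hQmax hQ0 fbar hp hpQ fun g _ => by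
    obtain ⟨σ, rfl⟩ := hsurj g
    obtain ⟨a, ha⟩ := hpow σ σ.2
    exact ⟨a, by rw [hcomp]; exact ha⟩
  rw [htop] at hcyc
  obtain ⟨⟨g₀, hg₀⟩, hg⟩ := hcyc.exists_generator
  obtain ⟨g, -, hgg⟩ := Subgroup.mem_map.mp hg₀
  subst hgg
  obtain ⟨σ₀, rfl⟩ := hsurj g
  refine ⟨σ₀, σ₀.2, fun σ hσ => ?_⟩
  obtain ⟨n, hn⟩ := Subgroup.mem_zpowers_iff.mp
    (hg ⟨fbar (π₀ ⟨σ, hσ⟩), Subgroup.mem_map_of_mem fbar trivial⟩)
  refine ⟨n, ?_⟩
  have hn' : fbar (π₀ σ₀) ^ n = fbar (π₀ ⟨σ, hσ⟩) := by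
    simpa using congrArg Subtype.val hn
  rw [hcomp, hcomp] at hn'
  exact hn'.symm

variable {N r : ℕ}

/-- Inertia at `N` fixes the roots of unity of `r`-power order. -/
theorem apply_eq_of_pow_eq_one (hN : N.Prime) (hr : r.Prime) (hrN : r ≠ N)
    (hA : A.LiesOverPrime N) {σ : Γℚ} (hσ : σ ∈ A.inertiaSubgroupIn ℚ) {k : ℕ} {z : ℚ̄}
    (hz : z ^ r ^ k = 1) : σ z = z := by
  haveI : NeZero (r ^ k) := ⟨pow_ne_zero k hr.ne_zero⟩
  have hn : ¬ N ∣ r ^ k := fun h =>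
    hrN ((Nat.prime_dvd_prime_iff_eq hN hr).mp (hN.dvd_of_dvd_pow h)).symm
  rw [EC.apply_eq_pow_cycloChar (r ^ k) σ hz, EC.cycloChar_eq_one_of_mem_inertia hN hn hA hσ,
    Units.val_one]
  rcases Nat.lt_or_ge 1 (r ^ k) with h1 | h1
  · haveI : Fact (1 < r ^ k) := ⟨h1⟩
    rw [ZMod.val_one, pow_one]
  · have h0 : 0 < r ^ k := pow_pos hr.pos k
    rw [show r ^ k = 1 by omega, pow_one] at hz
    rw [hz, one_pow]

/-- A Frobenius at `N` raises the roots of unity of `r`-power order to the `N`-th power. -/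
theorem frobenius_apply_eq_pow (hN : N.Prime) (hr : r.Prime) (hrN : r ≠ N)
    (hA : A.LiesOverPrime N) {F : Γℚ} (hF : A.IsFrobeniusAt F N) {k : ℕ} {z : ℚ̄}
    (hz : z ^ r ^ k = 1) : F z = z ^ N := by
  haveI : NeZero (r ^ k) := ⟨pow_ne_zero k hr.ne_zero⟩
  have hn : ¬ N ∣ r ^ k := fun h =>
    hrN ((Nat.prime_dvd_prime_iff_eq hN hr).mp (hN.dvd_of_dvd_pow h)).symm
  rw [EC.apply_eq_pow_cycloChar (r ^ k) F hz, EC.cycloChar_eq_of_isFrobeniusAt hN hn hA hF,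
    ZMod.val_natCast, ← pow_eq_pow_mod _ hz]

/-- The Kummer character of a radical of `N`. -/
def radicalChar (y : ℚ̄) (σ : Γℚ) : ℚ̄ˣ :=
  if h : σ y / y = 0 then 1 else Units.mk0 _ h

theorem val_radicalChar {y : ℚ̄} (hy : y ≠ 0) (σ : Γℚ) :
    (radicalChar y σ : ℚ̄) = σ y / y := by
  rw [radicalChar, dif_neg (div_ne_zero (by simpa using hy) hy), Units.val_mk0]

theorem exists_tame_generator {N r : ℕ} (hN : N.Prime) (hr : r.Prime) (hrN : r ≠ N)
    (A : ValuationSubring ℚ̄) (hA : A.LiesOverPrime N) :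
    ∃ τ F : Γℚ, τ ∈ A.inertiaSubgroupIn ℚ ∧ A.IsFrobeniusAt F N ∧
      F * τ * F⁻¹ ∈ A.inertiaSubgroupIn ℚ ∧
      ∀ (M : Type) [Group M] [Finite M], IsPGroup r M →
        ∀ h : Γℚ → M,
          (∀ σ ∈ A.inertiaSubgroupIn ℚ, ∀ σ' ∈ A.inertiaSubgroupIn ℚ, h (σ * σ') = h σ * h σ') →
          (∃ L : IntermediateField ℚ ℚ̄, FiniteDimensional ℚ L ∧
            ∀ σ ∈ A.inertiaSubgroupIn ℚ, (∀ x ∈ L, σ x = x) → h σ = 1) →
          (h τ = 1 → ∀ σ ∈ A.inertiaSubgroupIn ℚ, h σ = 1) ∧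
            h (F * τ * F⁻¹) = h τ ^ N := by
  classical
  haveI : Algebra.IsAlgebraic ℚ ℚ̄ := AlgebraicClosure.isAlgebraic ℚ
  have hN0 : (N : ℚ̄) ≠ 0 := Nat.cast_ne_zero.mpr hN.ne_zero
  obtain ⟨b, hb⟩ := IsAlgClosed.exists_pow_nat_eq (N : ℚ̄) hr.pos
  have hb0 : b ≠ 0 := by
    rintro rfl
    exact hN0 (by rw [← hb, zero_pow hr.ne_zero])
  obtain ⟨τ, hτ, hτb, -, -⟩ := EC.Mult.exists_mem_inertia_valuation_div_sub_one hN hA hr hrN hb0
    (n := 1) (by rw [← map_pow, hb, zpow_one])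
    (by
      intro h
      have := Int.eq_one_of_dvd_one (by positivity) h
      exact hr.ne_one (by exact_mod_cast this))
    (fun σ _ => by rw [hb, map_natCast])
  obtain ⟨F, hF⟩ := Galois.exists_isFrobeniusAt A hN hA
  have hconj := conj_mem_inertiaSubgroupIn_of_mem hF.mem_decompositionSubgroup hτ
  refine ⟨τ, F, hτ, hF, hconj, fun M _ _ hM h hmul hfin => ?_⟩
  obtain ⟨j, hj⟩ := hM (h τ)
  -- a radical of level `j + 1` above `b`
  obtain ⟨y, hy⟩ := IsAlgClosed.exists_pow_nat_eq b (pow_pos hr.pos j)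
  have hy0 : y ≠ 0 := by
    rintro rfl
    exact hb0 (by rw [← hy, zero_pow (pow_ne_zero j hr.ne_zero)])
  have hyN : y ^ r ^ (j + 1) = N := by rw [pow_succ, pow_mul, hy, hb]
  have hval := val_radicalChar hy0
  have hroot : ∀ σ : Γℚ, (σ y / y) ^ r ^ (j + 1) = 1 := fun σ => by
    rw [div_pow, ← map_pow, hyN, map_natCast, div_self hN0]
  -- pair `h` with the Kummer character
  set h' : Γℚ → M × ℚ̄ˣ := fun σ => (h σ, radicalChar y σ) with hh'
  have hmul' : ∀ σ ∈ A.inertiaSubgroupIn ℚ, ∀ σ' ∈ A.inertiaSubgroupIn ℚ,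
      h' (σ * σ') = h' σ * h' σ' := by
    intro σ hσ σ' hσ'
    refine Prod.ext (hmul σ hσ σ' hσ') (Units.ext ?_)
    show (radicalChar y (σ * σ') : ℚ̄) = (radicalChar y σ : ℚ̄) * radicalChar y σ'
    rw [hval, hval, hval, AlgEquiv.mul_apply]
    have h1 : σ (σ' y / y) = σ' y / y := apply_eq_of_pow_eq_one hN hr hrN hA hσ (hroot σ')
    rw [map_div₀, div_eq_div_iff (by simpa using hy0) hy0] at h1
    field_simp
    linear_combination h1
  have hfin' : ∃ L : IntermediateField ℚ ℚ̄, FiniteDimensional ℚ L ∧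
      ∀ σ ∈ A.inertiaSubgroupIn ℚ, (∀ x ∈ L, σ x = x) → h' σ = 1 := by
    obtain ⟨L, hL, hLh⟩ := hfin
    haveI : FiniteDimensional ℚ (IntermediateField.adjoin ℚ {y}) :=
      IntermediateField.adjoin.finiteDimensional (Algebra.IsIntegral.isIntegral y)
    refine ⟨L ⊔ IntermediateField.adjoin ℚ {y}, inferInstance, fun σ hσ hfix => ?_⟩
    refine Prod.ext (hLh σ hσ fun x hx => hfix x (SetLike.le_def.mp le_sup_left hx)) (Units.ext ?_)
    rw [hval, hfix y (SetLike.le_def.mp le_sup_right (IntermediateField.mem_adjoin_simple_self ℚ y)),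
      div_self hy0]
    rfl
  have hpow' : ∀ σ ∈ A.inertiaSubgroupIn ℚ, ∃ a : ℕ, h' σ ^ r ^ a = 1 := by
    intro σ _
    obtain ⟨a, ha⟩ := hM (h σ)
    refine ⟨a + (j + 1), Prod.ext ?_ (Units.ext ?_)⟩
    · show h σ ^ r ^ (a + (j + 1)) = 1
      rw [pow_add, pow_mul, ha, one_pow]
    · show ((radicalChar y σ ^ r ^ (a + (j + 1)) : ℚ̄ˣ) : ℚ̄) = 1
      rw [Units.val_pow_eq_pow_val, hval, pow_add, mul_comm, pow_mul, hroot, one_pow]
  obtain ⟨σ₀, hσ₀, hgen⟩ :=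
    exists_generator_map_inertia h' hmul' hfin' hr hN hrN hA hpow'
  -- `h' τ` also generates, as its Kummer component is primitive
  have hτy : (τ y / y) ^ r ^ j ≠ 1 := by
    rw [div_pow, ← map_pow, hy]
    exact fun h1 => hτb ((div_eq_one_iff_eq hb0).mp h1)
  obtain ⟨n, hn⟩ := hgen τ hτ
  have hrn : ¬ (r : ℤ) ∣ n := by
    rintro ⟨m, rfl⟩
    apply hτy
    have h2 : (τ y / y) = (σ₀ y / y) ^ ((r : ℤ) * m) := by
      have := congrArg (fun g : M × ℚ̄ˣ => (g.2 : ℚ̄)) hn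
      simpa [h', hval, Units.val_zpow_eq_zpow_val] using this
    rw [h2, ← zpow_natCast, ← zpow_mul,
      show (r : ℤ) * m * ((r ^ j : ℕ) : ℤ) = ((r ^ (j + 1) : ℕ) : ℤ) * m by push_cast; ring,
      zpow_mul, zpow_natCast, hroot, one_zpow]
  obtain ⟨a, ha⟩ := hpow' σ₀ hσ₀
  obtain ⟨u, w, huw⟩ : IsCoprime n ((r : ℤ) ^ a) :=
    ((Nat.prime_iff_prime_int.mp hr).coprime_iff_not_dvd.mpr hrn).symm.pow_right
  have hσ₀τ : h' σ₀ = h' τ ^ u := by
    have ha' : h' σ₀ ^ ((r : ℤ) ^ a) = 1 := by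
      rw [← Nat.cast_pow, zpow_natCast]; exact ha
    calc h' σ₀ = h' σ₀ ^ (u * n + w * (r : ℤ) ^ a) := by rw [huw, zpow_one]
      _ = h' τ ^ u := by
        rw [zpow_add, mul_comm u, zpow_mul, ← hn, mul_comm w, zpow_mul, ha', one_zpow, mul_one]
  have hall : ∀ σ ∈ A.inertiaSubgroupIn ℚ, ∃ m : ℤ, h' σ = h' τ ^ m := fun σ hσ => by
    obtain ⟨m, hm⟩ := hgen σ hσ
    exact ⟨u * m, by rw [zpow_mul, ← hσ₀τ, hm]⟩
  refine ⟨fun hτ1 σ hσ => ?_, ?_⟩
  · obtain ⟨m, hm⟩ := hall σ hσ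
    have := congrArg Prod.fst hm
    simpa [h', hτ1] using this
  · obtain ⟨m, hm⟩ := hall _ hconj
    set z := τ y / y with hz
    -- the Kummer component of the conjugate is `z ^ N`
    have hFconj : (F * τ * F⁻¹) y / y = z ^ N := by
      set w := F.symm y / y with hw
      have hwroot : w ^ r ^ (j + 1) = 1 := hroot F.symm
      have hFy : F.symm y = w * y := by rw [hw, div_mul_cancel₀ _ hy0]
      have e : (F * τ * F⁻¹) y = F (τ (F.symm y)) := rfl
      have e1 : F w * F y = y := by rw [← map_mul, ← hFy, F.apply_symm_apply]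
      have e2 : τ y = z * y := by rw [hz, div_mul_cancel₀ _ hy0]
      rw [e, hFy, map_mul, apply_eq_of_pow_eq_one hN hr hrN hA hτ hwroot, e2, map_mul, map_mul,
        frobenius_apply_eq_pow hN hr hrN hA hF (hroot τ),
        mul_left_comm, e1, mul_div_cancel_right₀ _ hy0]
    have hz0 : z ≠ 0 := div_ne_zero (by simpa using hy0) hy0
    have hzm : z ^ m = z ^ (N : ℤ) := by
      have := congrArg (fun g : M × ℚ̄ˣ => (g.2 : ℚ̄)) hm
      rw [zpow_natCast, ← hFconj]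
      simpa [h', hval, Units.val_zpow_eq_zpow_val] using this.symm
    have hord : orderOf z = r ^ (j + 1) := by
      haveI : Fact r.Prime := ⟨hr⟩
      exact orderOf_eq_prime_pow hτy (hroot τ)
    have hzm' : Units.mk0 z hz0 ^ (m - N) = 1 := by
      refine Units.ext ?_
      rw [Units.val_zpow_eq_zpow_val, Units.val_mk0, zpow_sub₀ hz0, hzm,
        div_self (zpow_ne_zero _ hz0), Units.val_one]
    obtain ⟨c, hc⟩ : ((r ^ (j + 1) : ℕ) : ℤ) ∣ m - N := by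
      have := orderOf_dvd_iff_zpow_eq_one.mpr hzm'
      rwa [← orderOf_units, Units.val_mk0, hord] at this
    have hfst : h (F * τ * F⁻¹) = h τ ^ m := by simpa [h'] using congrArg Prod.fst hm
    rw [hfst, show m = (N : ℤ) + ((r ^ j : ℕ) : ℤ) * ((r : ℤ) * c) by
      push_cast at hc ⊢; rw [pow_succ] at hc; linear_combination hc,
      zpow_add, zpow_mul, zpow_natCast, zpow_natCast, hj, one_zpow, mul_one]

end Fermat.Agent.Mazur.Descent
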