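/-
The Selmer bound at the level `N`: evaluation at a tame generator has rank at most one.
Owner: helper64.

A cocycle gives affine actions on the finite quotients `V ⧸ 𝔪 ^ n`, whose images on inertia are
`r`-groups; the relation `F τ F⁻¹ = τ ^ N` there forces `c τ` into a fixed cyclic submodule.
-/
import Fermat.Agent.Mazur.Descent.Defs
import Fermat.Agent.Mazur.Descent.Tame
import Fermat.Prelude.Def_GaloisRep_LocalConditions
import Mathlib.RingTheory.DiscreteValuationRing.Basic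
import Mathlib.RingTheory.AdicCompletion.Basic
import Mathlib.RingTheory.Ideal.Quotient.Index
import Mathlib.RingTheory.Filtration
import Mathlib.LinearAlgebra.FreeModule.PID

set_option autoImplicit false
set_option linter.style.haveILetI false
set_option linter.unusedSectionVars false

noncomputable section

namespace Fermat.Agent.Mazur.Descent

local notation "ℚ̄" => AlgebraicClosure ℚ
local notation "Γℚ" => (AlgebraicClosure ℚ ≃ₐ[ℚ] AlgebraicClosure ℚ)

section Affine

variable {O : Type} [CommRing O] [IsLocalRing O]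

/-- The submodule `𝔪 ^ n • V`. -/
private abbrev filt (ρ : GaloisRepAdic O) (n : ℕ) : Submodule O ρ.V :=
  (IsLocalRing.maximalIdeal O ^ n) • (⊤ : Submodule O ρ.V)

private theorem filt_le_comap (ρ : GaloisRepAdic O) (n : ℕ) (σ : Γℚ) :
    filt ρ n ≤ (filt ρ n).comap (ρ.ρ σ) := by
  rw [← Submodule.map_le_iff_le_comap, Submodule.map_smul'']
  exact Submodule.smul_mono le_rfl le_top

private theorem cocycle_one {ρ : GaloisRepAdic O} {c : Γℚ → ρ.V} (hc : IsContCocycle ρ c) :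
    c 1 = 0 := by
  have h := hc.map_mul 1 1
  simp only [mul_one, map_one, Module.End.one_apply] at h
  exact left_eq_add.mp h

/-- The affine action attached to a cocycle on `V ⧸ 𝔪 ^ n • V`. -/
private def affineHom {ρ : GaloisRepAdic O} {c : Γℚ → ρ.V} (hc : IsContCocycle ρ c) (n : ℕ) :
    Γℚ →* Equiv.Perm (ρ.V ⧸ filt ρ n) :=
  (Equiv.Perm.equivUnitsEnd (α := ρ.V ⧸ filt ρ n)).symm.toMonoidHom.comp
    (MonoidHom.toHomUnits
      { toFun := fun σ (x : ρ.V ⧸ filt ρ n) =>
          (filt ρ n).mapQ (filt ρ n) (ρ.ρ σ) (filt_le_comap ρ n σ) x + Submodule.Quotient.mk (c σ)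
        map_one' := by
          funext x
          induction x using Submodule.Quotient.induction_on with
          | _ v =>
            rw [Submodule.mapQ_apply, map_one, cocycle_one hc, Submodule.Quotient.mk_zero, add_zero]
            rfl
        map_mul' := fun σ τ => by
          funext x
          induction x using Submodule.Quotient.induction_on with
          | _ v =>
            show _ = (filt ρ n).mapQ (filt ρ n) (ρ.ρ σ) (filt_le_comap ρ n σ)
              ((filt ρ n).mapQ (filt ρ n) (ρ.ρ τ) (filt_le_comap ρ n τ) (Submodule.Quotient.mk v) +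
                Submodule.Quotient.mk (c τ)) + Submodule.Quotient.mk (c σ)
            simp only [Submodule.mapQ_apply, hc.map_mul, map_mul, Module.End.mul_apply,
              ← Submodule.Quotient.mk_add]
            congr 1
            rw [map_add]
            abel })

private theorem affineHom_mk {ρ : GaloisRepAdic O} {c : Γℚ → ρ.V} (hc : IsContCocycle ρ c) (n : ℕ)
    (σ : Γℚ) (v : ρ.V) :
    affineHom hc n σ (Submodule.Quotient.mk v) = Submodule.Quotient.mk (ρ.ρ σ v + c σ) :=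
  rfl

private theorem affineHom_pow_mk {ρ : GaloisRepAdic O} {c : Γℚ → ρ.V} (hc : IsContCocycle ρ c)
    (n : ℕ) {σ : Γℚ} (hg : ∀ v, (ρ.ρ σ - 1) ((ρ.ρ σ - 1) v) = 0) (m : ℕ) (v : ρ.V) :
    (affineHom hc n σ ^ m) (Submodule.Quotient.mk v) = Submodule.Quotient.mk
      (v + m • ((ρ.ρ σ - 1) v + c σ) + m.choose 2 • (ρ.ρ σ - 1) (c σ)) := by
  induction m with
  | zero => simp
  | succ m ih =>
    rw [pow_succ', Equiv.Perm.mul_apply, ih, affineHom_mk]
    congr 1
    have h : ∀ x, ρ.ρ σ x = x + (ρ.ρ σ - 1) x := fun x => by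
      rw [LinearMap.sub_apply, Module.End.one_apply, add_sub_cancel]
    rw [h, Nat.choose_succ_succ', Nat.choose_one_right, add_smul, succ_nsmul]
    generalize ρ.ρ σ - 1 = G at hg ⊢
    generalize m.choose 2 = k
    simp only [map_add, map_nsmul, hg, smul_zero, zero_add, add_zero, add_smul]
    abel

private theorem natCast_pow_nsmul_mem {ρ : GaloisRepAdic O} {r : ℕ}
    (hr : (r : O) ∈ IsLocalRing.maximalIdeal O) (n : ℕ) (x : ρ.V) : r ^ n • x ∈ filt ρ n := by
  rw [← Nat.cast_smul_eq_nsmul O, Nat.cast_pow]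
  exact Submodule.smul_mem_smul (Ideal.pow_mem_pow hr n) Submodule.mem_top

private theorem affineHom_pow_eq_one {ρ : GaloisRepAdic O} {c : Γℚ → ρ.V}
    (hc : IsContCocycle ρ c) {r : ℕ} (hr : (r : O) ∈ IsLocalRing.maximalIdeal O) (n : ℕ) {σ : Γℚ}
    (hg : ∀ v, (ρ.ρ σ - 1) ((ρ.ρ σ - 1) v) = 0) : affineHom hc n σ ^ r ^ (n + n) = 1 := by
  set d := (r ^ n).choose 2 • (ρ.ρ σ - 1) (c σ) with hd
  have h1 : ∀ v : ρ.V, (affineHom hc n σ ^ r ^ n) (Submodule.Quotient.mk v) =
      Submodule.Quotient.mk (v + d) := fun v => by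
    rw [affineHom_pow_mk hc n hg, Submodule.Quotient.eq]
    convert natCast_pow_nsmul_mem hr n ((ρ.ρ σ - 1) v + c σ) using 1
    rw [hd]; abel
  have h2 : ∀ (m : ℕ) (v : ρ.V), ((affineHom hc n σ ^ r ^ n) ^ m) (Submodule.Quotient.mk v) =
      Submodule.Quotient.mk (v + m • d) := by
    intro m
    induction m with
    | zero => simp
    | succ m ih =>
      intro v
      rw [pow_succ', Equiv.Perm.mul_apply, ih, h1, succ_nsmul, add_assoc]
  refine Equiv.ext fun x => ?_
  induction x using Submodule.Quotient.induction_on with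
  | _ v =>
    rw [pow_add, pow_mul, h2, Equiv.Perm.one_apply, Submodule.Quotient.eq, add_sub_cancel_left]
    exact natCast_pow_nsmul_mem hr n d

private theorem affineHom_finiteLevel {ρ : GaloisRepAdic O} {c : Γℚ → ρ.V}
    (hc : IsContCocycle ρ c) (n : ℕ) :
    ∃ L : IntermediateField ℚ ℚ̄, FiniteDimensional ℚ L ∧
      ∀ σ : Γℚ, (∀ x ∈ L, σ x = x) → affineHom hc n σ = 1 := by
  obtain ⟨L₁, hL₁, h₁⟩ := ρ.isAdicContinuous n
  obtain ⟨L₂, hL₂, h₂⟩ := hc.cont n
  refine ⟨L₁ ⊔ L₂, inferInstance, fun σ hσ => Equiv.ext fun x => ?_⟩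
  induction x using Submodule.Quotient.induction_on with
  | _ v =>
    rw [affineHom_mk, Equiv.Perm.one_apply, Submodule.Quotient.eq]
    convert add_mem (h₁ σ (fun x hx => hσ x (SetLike.le_def.mp le_sup_left hx)) v)
      (h₂ σ fun x hx => hσ x (SetLike.le_def.mp le_sup_right hx)) using 1
    abel

end Affine

variable {O : Type} [CommRing O] [IsDomain O] [IsDiscreteValuationRing O]

private theorem sub_one_sq_eq_zero {q : ℕ} {ρ : GaloisRepAdic O}
    (hunip : ρ.IsUnipotentOnInertiaAt q) {B : ValuationSubring ℚ̄} (hB : B.LiesOverPrime q)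
    {σ : Γℚ} (hσ : σ ∈ B.inertiaSubgroupIn ℚ) (v : ρ.V) :
    (ρ.ρ σ - 1) ((ρ.ρ σ - 1) v) = 0 := by
  have h := LinearMap.aeval_self_charpoly (ρ.ρ σ)
  rw [hunip B hB σ hσ, map_pow, map_sub, Polynomial.aeval_X, map_one, pow_two] at h
  exact LinearMap.congr_fun h v

/-- Cayley–Hamilton in rank two. -/
private theorem exists_apply_apply_eq (ρ : GaloisRepAdic O) (σ : Γℚ) :
    ∃ t : O, ∀ v : ρ.V,
      ρ.ρ σ (ρ.ρ σ v) - t • ρ.ρ σ v + LinearMap.det (ρ.ρ σ) • v = 0 := by
  set P := LinearMap.charpoly (ρ.ρ σ) with hP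
  refine ⟨-P.coeff 1, fun v => ?_⟩
  have hdeg : P.natDegree = 2 := by rw [hP, LinearMap.charpoly_natDegree, ρ.finrank_eq]
  have hdet : LinearMap.det (ρ.ρ σ) = P.coeff 0 := by
    rw [LinearMap.det_eq_sign_charpoly_coeff, ρ.finrank_eq, neg_one_sq, one_mul]
  have hlc : P.coeff 2 = 1 := by
    have := (LinearMap.charpoly_monic (ρ.ρ σ)).coeff_natDegree
    rwa [← hP, hdeg] at this
  have h := LinearMap.congr_fun (LinearMap.aeval_self_charpoly (ρ.ρ σ)) v
  rw [Polynomial.aeval_eq_sum_range, ← hP, hdeg] at h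
  simp only [Finset.sum_range_succ, Finset.range_one, Finset.sum_singleton, hlc, one_smul,
    LinearMap.add_apply, LinearMap.smul_apply, pow_zero, pow_one, pow_two, Module.End.one_apply,
    Module.End.mul_apply, LinearMap.zero_apply] at h
  rw [hdet, neg_smul, sub_neg_eq_add]
  rw [← h]
  abel

private theorem eq_of_sub_mem_filt (ρ : GaloisRepAdic O) {x y : ρ.V}
    (h : ∀ n, x - y ∈ filt ρ n) : x = y := by
  have h' := Ideal.iInf_pow_smul_eq_bot_of_isLocalRing (R := O) (M := ρ.V)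
    (IsLocalRing.maximalIdeal O) (Ideal.IsMaximal.ne_top inferInstance)
  exact sub_eq_zero.mp (by rw [← Submodule.mem_bot O, ← h']; exact Submodule.mem_iInf _ |>.mpr h)

/-- A nonzero endomorphism of the rank two lattice has cyclic kernel. -/
private theorem exists_generator_ker {ρ : GaloisRepAdic O} (φ : ρ.V →ₗ[O] ρ.V) (hφ : φ ≠ 0) :
    ∃ g₀ : ρ.V, ∀ v, φ v = 0 → ∃ a : O, a • g₀ = v := by
  have h1 : 1 ≤ Module.finrank O (LinearMap.range φ) :=
    Submodule.one_le_finrank_iff.mpr (by rwa [ne_eq, LinearMap.range_eq_bot])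
  have h2 := Submodule.finrank_quotient_add_finrank (LinearMap.ker φ)
  rw [φ.quotKerEquivRange.finrank_eq, ρ.finrank_eq] at h2
  obtain ⟨w, hw⟩ := (finrank_le_one_iff (K := O) (V := LinearMap.ker φ)).mp (by omega)
  refine ⟨w, fun v hv => ?_⟩
  obtain ⟨a, ha⟩ := hw ⟨v, hv⟩
  exact ⟨a, congrArg Subtype.val ha⟩

variable [IsAdicComplete (IsLocalRing.maximalIdeal O) O] [Finite (IsLocalRing.ResidueField O)]
  [CharZero O]

private instance finite_quotient_filt (ρ : GaloisRepAdic O) (n : ℕ) :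
    Finite (ρ.V ⧸ filt ρ n) := by
  haveI : Finite (O ⧸ IsLocalRing.maximalIdeal O) := ‹Finite (IsLocalRing.ResidueField O)›
  haveI := Ideal.finite_quotient_pow (I := IsLocalRing.maximalIdeal O) (IsNoetherian.noetherian _) n
  haveI : Finite (ρ.V ⧸ (⊤ : Submodule O ρ.V)) := inferInstance
  exact Submodule.finite_quotient_smul _ Module.Finite.fg_top

theorem exists_tame_evaluation (N r : ℕ) [Fact r.Prime] (hN : N.Prime) (hrN : r ≠ N)
    (ρ : GaloisRepAdic O) (hdet : ρ.DetIsCyclotomic r) (hunip : ρ.IsUnipotentOnInertiaAt N)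
    (B : ValuationSubring ℚ̄) (hB : B.LiesOverPrime N) :
    ∃ τ ∈ B.inertiaSubgroupIn ℚ, ∃ g₀ : ρ.V, ∀ c : Γℚ → ρ.V, IsContCocycle ρ c →
      (∃ a : O, c τ - a • g₀ ∈ (IsLocalRing.maximalIdeal O) • (⊤ : Submodule O ρ.V)) ∧
      (c τ ∈ (IsLocalRing.maximalIdeal O) • (⊤ : Submodule O ρ.V) →
        ∀ σ ∈ B.inertiaSubgroupIn ℚ,
          c σ ∈ (IsLocalRing.maximalIdeal O) • (⊤ : Submodule O ρ.V)) := by
  classical
  have hr : r.Prime := Fact.out
  obtain ⟨τ, F, hτ, hF, hconj, htame⟩ := exists_tame_generator hN hr hrN B hB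
  set g : Module.End O ρ.V := ρ.ρ τ - 1 with hg
  have hgg : ∀ v, g (g v) = 0 := sub_one_sq_eq_zero hunip hB hτ
  -- the affine images of inertia
  have himg : ∀ (c : Γℚ → ρ.V) (hc : IsContCocycle ρ c) (n : ℕ),
      let H := affineHom hc n
      (H (F * τ * F⁻¹) = H τ ^ N) ∧
        ∀ σ ∈ B.inertiaSubgroupIn ℚ, H σ ∈ Subgroup.zpowers (H τ) := by
    intro c hc n H
    set M := (B.inertiaSubgroupIn ℚ).map H with hMdef
    have hpow : ∀ σ ∈ B.inertiaSubgroupIn ℚ, H σ ^ r ^ (n + n) = 1 := fun σ hσ =>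
      affineHom_pow_eq_one hc hdet.1 n (sub_one_sq_eq_zero hunip hB hσ)
    have hM : IsPGroup r M := by
      rintro ⟨_, σ, hσ, rfl⟩
      exact ⟨n + n, Subtype.ext (hpow σ hσ)⟩
    obtain ⟨L, hL, hLH⟩ := affineHom_finiteLevel hc n
    let h : Γℚ → M := fun σ =>
      if hσ : σ ∈ B.inertiaSubgroupIn ℚ then ⟨H σ, Subgroup.mem_map_of_mem H hσ⟩ else 1
    have hval : ∀ σ (hσ : σ ∈ B.inertiaSubgroupIn ℚ), (h σ : Equiv.Perm _) = H σ :=
      fun σ hσ => by simp only [h, dif_pos hσ]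
    have hmul : ∀ σ ∈ B.inertiaSubgroupIn ℚ, ∀ σ' ∈ B.inertiaSubgroupIn ℚ,
        h (σ * σ') = h σ * h σ' := fun σ hσ σ' hσ' => Subtype.ext <| by
      rw [Subgroup.coe_mul, hval _ (mul_mem hσ hσ'), hval _ hσ, hval _ hσ', map_mul]
    have hker : ∀ σ ∈ B.inertiaSubgroupIn ℚ, (∀ x ∈ L, σ x = x) → h σ = 1 :=
      fun σ hσ hx => Subtype.ext <| by rw [hval _ hσ, hLH σ hx, Subgroup.coe_one]
    refine ⟨?_, ?_⟩
    · have h1 := congrArg Subtype.val (htame M hM h hmul ⟨L, hL, hker⟩).2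
      rwa [hval _ hconj, SubgroupClass.coe_pow, hval _ hτ] at h1
    -- the image is cyclic, so `zpowers (h τ)` is normal and the quotient is trivial
    obtain ⟨σ₀, hσ₀, hgen⟩ := exists_generator_map_inertia h hmul ⟨L, hL, hker⟩ hr hN hrN hB
      fun σ hσ => ⟨n + n, Subtype.ext (by rw [SubgroupClass.coe_pow, hval _ hσ]; exact hpow σ hσ)⟩
    have hcomm : ∀ x : M, ∃ m : ℤ, x = h σ₀ ^ m := by
      rintro ⟨_, σ, hσ, rfl⟩
      obtain ⟨m, hm⟩ := hgen σ hσ
      exact ⟨m, by rw [← hm]; exact Subtype.ext (hval σ hσ).symm⟩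
    haveI : (Subgroup.zpowers (h τ)).Normal := ⟨fun x hx y => by
      obtain ⟨a, rfl⟩ := hcomm x
      obtain ⟨b, rfl⟩ := hcomm y
      rwa [← zpow_add, ← zpow_neg, ← zpow_add, add_comm b a, add_neg_cancel_right]⟩
    intro σ hσ
    have h2 : (QuotientGroup.mk (h σ) : M ⧸ Subgroup.zpowers (h τ)) = 1 :=
      (htame (M ⧸ Subgroup.zpowers (h τ)) (hM.to_quotient _) (fun x => QuotientGroup.mk (h x))
        (fun x hx y hy => by rw [hmul x hx y hy, QuotientGroup.mk_mul])
        ⟨L, hL, fun x hx hfix => by rw [hker x hx hfix, QuotientGroup.mk_one]⟩).1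
          ((QuotientGroup.eq_one_iff _).mpr (Subgroup.mem_zpowers _)) σ hσ
    obtain ⟨m, hm⟩ := Subgroup.mem_zpowers_iff.mp ((QuotientGroup.eq_one_iff _).mp h2)
    refine Subgroup.mem_zpowers_iff.mpr ⟨m, ?_⟩
    rw [← hval σ hσ, ← hm, SubgroupClass.coe_zpow, hval τ hτ]
  -- the relation between Frobenius and `τ`
  have hrel : ∀ (c : Γℚ → ρ.V) (_ : IsContCocycle ρ c) (v : ρ.V),
      ρ.ρ F (g v) + ρ.ρ F (c τ) =
        N • (g (ρ.ρ F v) + g (c F) + c τ) + N.choose 2 • g (c τ) := by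
    intro c hc v
    refine eq_of_sub_mem_filt ρ fun n => ?_
    have h1 := (himg c hc n).1
    rw [map_mul, map_mul, map_inv, mul_inv_eq_iff_eq_mul] at h1
    have h2 := Equiv.ext_iff.mp h1 (Submodule.Quotient.mk v)
    rw [Equiv.Perm.mul_apply, Equiv.Perm.mul_apply, affineHom_mk, affineHom_mk, affineHom_mk,
      affineHom_pow_mk hc n hgg, Submodule.Quotient.eq] at h2
    convert h2 using 1
    have h3 : ρ.ρ τ v = v + g v := by
      rw [hg, LinearMap.sub_apply, Module.End.one_apply, add_sub_cancel]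
    rw [h3, ← hg]
    simp only [map_add]
    abel
  have hcoc0 : IsContCocycle ρ (fun _ => (0 : ρ.V)) :=
    ⟨fun σ σ' => by rw [map_zero, add_zero],
      fun _ => ⟨⊥, inferInstance, fun _ _ => Submodule.zero_mem _⟩⟩
  have hFg : ∀ v, ρ.ρ F (g v) = (N : O) • g (ρ.ρ F v) := fun v => by
    simpa [Nat.cast_smul_eq_nsmul] using hrel _ hcoc0 v
  have hdetF : LinearMap.det (ρ.ρ F) = (N : O) := by
    refine sub_eq_zero.mp ?_
    rw [← Submodule.mem_bot O,
      ← Ideal.iInf_pow_eq_bot_of_isLocalRing (IsLocalRing.maximalIdeal O)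
        (Ideal.IsMaximal.ne_top inferInstance)]
    refine Submodule.mem_iInf _ |>.mpr fun n => ?_
    refine Ideal.span_le.mpr ?_ (hdet.2 n F N fun μ hμ => frobenius_apply_eq_pow hN hr hrN hB hF hμ)
    rw [Set.singleton_subset_iff, SetLike.mem_coe, Nat.cast_pow]
    exact Ideal.pow_mem_pow hdet.1 n
  obtain ⟨t, ht⟩ := exists_apply_apply_eq ρ F
  have hN0 : (N : O) ≠ 0 := Nat.cast_ne_zero.mpr hN.ne_zero
  have hN1 : (N : O) ≠ 1 := Nat.cast_ne_one.mpr hN.ne_one
  -- every `c τ` is killed by `g` and satisfies `F v - N v ∈ g V`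
  have hkey : ∀ c : Γℚ → ρ.V, IsContCocycle ρ c →
      g (c τ) = 0 ∧ ∃ w, ρ.ρ F (c τ) = (N : O) • c τ + g w := by
    intro c hc
    set v := c τ with hv
    have hFv : ρ.ρ F v = (N : O) • v + g ((N : O) • c F + (N.choose 2 : O) • v) := by
      have := hrel c hc 0
      simp only [map_zero, zero_add, ← hv] at this
      rw [this, map_add, map_smul, map_smul, ← Nat.cast_smul_eq_nsmul O,
        ← Nat.cast_smul_eq_nsmul O (N.choose 2), smul_add]
      abel
    refine ⟨?_, _, hFv⟩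
    have h1 : g (ρ.ρ F v) = (N : O) • g v := by rw [hFv, map_add, hgg, add_zero, map_smul]
    have h2 : (N : O) • g (ρ.ρ F (ρ.ρ F v)) = (N : O) • ((N : O) ^ 2 • g v) := by
      rw [← hFg, h1, map_smul, hFg, h1, smul_smul, smul_smul, smul_smul]
      ring_nf
    have h2' : g (ρ.ρ F (ρ.ρ F v)) = (N : O) ^ 2 • g v :=
      smul_right_injective ρ.V (R := O) hN0 h2
    have h3 := congrArg g (ht v)
    rw [map_zero, map_add, map_sub, map_smul, map_smul, h1, hdetF,
      h2', smul_smul, ← sub_smul, ← add_smul] at h3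
    by_contra hne
    have h4 := (smul_eq_zero.mp h3).resolve_right hne
    -- compare with the eigenvalue `N ^ 2` of `F` on `g v`
    have e1 : ρ.ρ F (g v) = (N : O) ^ 2 • g v := by rw [hFg, h1, smul_smul, pow_two]
    have h5 := ht (g v)
    rw [e1, map_smul, e1, hdetF, smul_smul, smul_smul, ← sub_smul, ← add_smul] at h5
    have h6 := (smul_eq_zero.mp h5).resolve_right hne
    have h7 : ((N : O) - 1) * ((N : O) - 1) * (((N + 1 : ℕ) : O)) * (N : O) = 0 := by
      push_cast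
      linear_combination h6 - (N : O) * h4
    simp only [mul_eq_zero, sub_eq_zero, hN1, hN0, Nat.cast_eq_zero, Nat.succ_ne_zero,
      or_false] at h7
  obtain ⟨φ, hφ, hφ0⟩ : ∃ φ : Module.End O ρ.V, φ ≠ 0 ∧
      ∀ c : Γℚ → ρ.V, IsContCocycle ρ c → φ (c τ) = 0 := by
    by_cases hg0 : g = 0
    · refine ⟨ρ.ρ F - (N : O) • LinearMap.id, fun h => ?_, fun c hc => ?_⟩
      · have h1 : ρ.ρ F = (N : O) • LinearMap.id := sub_eq_zero.mp h
        rw [h1, LinearMap.det_smul, LinearMap.det_id, ρ.finrank_eq, mul_one, pow_two] at hdetF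
        exact hN1 (mul_left_cancel₀ hN0 (hdetF.trans (mul_one _).symm))
      · obtain ⟨-, w, hw⟩ := hkey c hc
        rw [hg0, LinearMap.zero_apply, add_zero] at hw
        rw [LinearMap.sub_apply, LinearMap.smul_apply, LinearMap.id_apply, hw, sub_self]
    · exact ⟨g, hg0, fun c hc => (hkey c hc).1⟩
  obtain ⟨g₀, hg₀⟩ := exists_generator_ker φ hφ
  refine ⟨τ, hτ, g₀, fun c hc => ⟨?_, fun hcτ σ hσ => ?_⟩⟩
  · obtain ⟨a, ha⟩ := hg₀ _ (hφ0 c hc)
    exact ⟨a, by rw [ha, sub_self]; exact Submodule.zero_mem _⟩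
  · have hτ0 : affineHom hc 1 τ ∈
        MulAction.stabilizer (Equiv.Perm (ρ.V ⧸ filt ρ 1)) (Submodule.Quotient.mk (p := filt ρ 1) (0 : ρ.V)) := by
      rw [MulAction.mem_stabilizer_iff, Equiv.Perm.smul_def, affineHom_mk, map_zero, zero_add,
        Submodule.Quotient.eq, sub_zero]
      simpa [filt] using hcτ
    have h := (Subgroup.zpowers_le.mpr hτ0) ((himg c hc 1).2 σ hσ)
    rw [MulAction.mem_stabilizer_iff, Equiv.Perm.smul_def, affineHom_mk, map_zero, zero_add,
      Submodule.Quotient.eq, sub_zero] at h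
    simpa [filt] using h

end Fermat.Agent.Mazur.Descent
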