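/-
Kummer theory over the inertia field at `r`: cocycles with values in `μ_{r^n}` and the valuation
of their Hilbert 90 radicals.
-/
import Fermat.Agent.Mazur.Descent.Defs
import Fermat.Agent.EC.Mult.Ramification
import Fermat.Agent.EC.Det.CyclotomicChar
import Mathlib.Algebra.Category.Grp.Injective
import Mathlib.GroupTheory.Divisible
import Mathlib.LinearAlgebra.LinearIndependent.Lemmas
import Mathlib.RingTheory.DiscreteValuationRing.Basic

set_option autoImplicit false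

noncomputable section

namespace Fermat.Agent.Mazur.Descent

open IsLocalRing

local notation "ℚ̄" => AlgebraicClosure ℚ
local notation "Γℚ" => (AlgebraicClosure ℚ ≃ₐ[ℚ] AlgebraicClosure ℚ)

local instance : Algebra.IsAlgebraic ℚ (AlgebraicClosure ℚ) := AlgebraicClosure.isAlgebraic ℚ
local instance : IsAlgClosure ℚ (AlgebraicClosure ℚ) := ⟨inferInstance, inferInstance⟩
local instance : IsGalois ℚ (AlgebraicClosure ℚ) := IsAlgClosure.isGalois ℚ (AlgebraicClosure ℚ)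

/-- The value in `ℚ̄` of a character of `O`. -/
def charVal {O : Type} [AddCommGroup O] (φ : O →+ Additive ℚ̄ˣ) (x : O) : ℚ̄ :=
  ((φ x).toMul : ℚ̄)

section CharVal

variable {O : Type} [AddCommGroup O] (φ ψ : O →+ Additive ℚ̄ˣ)

lemma charVal_add (x y : O) : charVal φ (x + y) = charVal φ x * charVal φ y := by
  simp [charVal]

lemma charVal_zero : charVal φ 0 = 1 := by simp [charVal]

lemma charVal_ne_zero (x : O) : charVal φ x ≠ 0 := Units.ne_zero _

lemma charVal_nsmul (n : ℕ) (x : O) : charVal φ (n • x) = charVal φ x ^ n := by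
  simp [charVal]

lemma charVal_sub (x y : O) : charVal φ (x - y) * charVal φ y = charVal φ x := by
  rw [← charVal_add, sub_add_cancel]

lemma charVal_comp {P : Type} [AddCommGroup P] (f : P →+ O) (x : P) :
    charVal (φ.comp f) x = charVal φ (f x) := rfl

end CharVal

variable {O : Type} [CommRing O]

/-- A character of `O` killing `R • O`. -/
def KillsMul (φ : O →+ Additive ℚ̄ˣ) (R : ℕ) : Prop :=
  ∀ x, φ ((R : O) * x) = 0

lemma KillsMul.comp {φ : O →+ Additive ℚ̄ˣ} {R : ℕ} (h : KillsMul φ R) (s : O) :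
    KillsMul (φ.comp (AddMonoidHom.mulLeft s)) R := fun x => by
  simp only [AddMonoidHom.comp_apply, AddMonoidHom.coe_mulLeft]
  rw [mul_left_comm]
  exact h _

lemma KillsMul.pow_eq_one {φ : O →+ Additive ℚ̄ˣ} {R : ℕ} (h : KillsMul φ R) (x : O) :
    charVal φ x ^ R = 1 := by
  rw [← charVal_nsmul, nsmul_eq_mul, charVal, h x]
  simp

lemma KillsMul.eq_one_of_mem_span {φ : O →+ Additive ℚ̄ˣ} {R : ℕ} (h : KillsMul φ R) {x : O}
    (hx : x ∈ Ideal.span {(R : O)}) : charVal φ x = 1 := by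
  obtain ⟨y, rfl⟩ := Ideal.mem_span_singleton'.mp hx
  rw [mul_comm, charVal, h y]
  simp

variable (A : ValuationSubring ℚ̄)

/-- A cocycle on inertia for the multiplicative twist `χ`. -/
def IsTwistCocycle (χ a : Γℚ → O) : Prop :=
  ∀ σ ∈ A.inertiaSubgroupIn ℚ, ∀ τ ∈ A.inertiaSubgroupIn ℚ, a (σ * τ) = a σ + χ σ * a τ

/-- Adic continuity of a scalar function. -/
def IsContCoord [IsLocalRing O] (a : Γℚ → O) : Prop :=
  ∀ N : ℕ, ∃ L : IntermediateField ℚ ℚ̄, FiniteDimensional ℚ L ∧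
    ∀ σ : Γℚ, (∀ x ∈ L, σ x = x) → a σ ∈ maximalIdeal O ^ N

/-- Every reduction of `a` is the Kummer cocycle of a unit. -/
def ValZero (a : Γℚ → O) : Prop :=
  ∀ (R : ℕ) (φ : O →+ Additive ℚ̄ˣ), (∃ r n : ℕ, A.LiesOverPrime r ∧ r.Prime ∧ R = r ^ n) →
    KillsMul φ R → ∃ y : ℚ̄, A.valuation y = 1 ∧
      ∀ σ ∈ A.inertiaSubgroupIn ℚ, σ y = charVal φ (a σ) * y

lemma valZero_zero : ValZero A (fun _ : Γℚ => (0 : O)) := fun _ φ _ _ =>
  ⟨1, map_one _, fun σ _ => by rw [map_one, charVal_zero, one_mul]⟩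

variable {A} in
lemma ValZero.smul {a : Γℚ → O} (h : ValZero A a) (s : O) : ValZero A (fun σ => s * a σ) :=
  fun R φ hR hφ => h R (φ.comp (AddMonoidHom.mulLeft s)) hR (hφ.comp s)

/-- Hilbert 90 for a cocycle on inertia with values in a finite level. -/
lemma exists_radical {L : IntermediateField ℚ ℚ̄} [FiniteDimensional ℚ L]
    (t : Γℚ → ℚ̄) (ht0 : ∀ σ, t σ ≠ 0)
    (ht : ∀ σ ∈ A.inertiaSubgroupIn ℚ, ∀ τ ∈ A.inertiaSubgroupIn ℚ, t (σ * τ) = t σ * σ (t τ))
    (htL : ∀ σ ∈ A.inertiaSubgroupIn ℚ, (∀ x ∈ L, σ x = x) → t σ = 1)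
    (hfix : ∀ σ ∈ A.inertiaSubgroupIn ℚ, (∀ x ∈ L, σ x = x) →
      ∀ τ ∈ A.inertiaSubgroupIn ℚ, σ (t τ) = t τ) :
    ∃ y : ℚ̄, y ≠ 0 ∧ ∀ σ ∈ A.inertiaSubgroupIn ℚ, σ y = t σ * y := by
  classical
  let I := A.inertiaSubgroupIn ℚ
  let res : I → (L →ₐ[ℚ] ℚ̄) := fun σ => (σ.1 : ℚ̄ →ₐ[ℚ] ℚ̄).comp L.val
  have hres : ∀ σ τ : I, res σ = res τ → t σ.1 = t τ.1 := by
    intro σ τ h
    have hL : ∀ x ∈ L, (σ⁻¹ * τ : I).1 x = x := fun x hx => by
      have hx' : σ.1 x = τ.1 x := DFunLike.congr_fun h ⟨x, hx⟩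
      change σ.1⁻¹ (τ.1 x) = x
      rw [← hx']
      exact σ.1.symm_apply_apply x
    have h1 := ht σ.1 σ.2 (σ⁻¹ * τ : I).1 (σ⁻¹ * τ : I).2
    rw [htL _ (σ⁻¹ * τ : I).2 hL, map_one, mul_one] at h1
    rw [← h1]
    simp
  let S : Finset (L →ₐ[ℚ] ℚ̄) := Finset.univ.filter fun e => ∃ σ : I, res σ = e
  let T : (L →ₐ[ℚ] ℚ̄) → ℚ̄ := fun e => if h : ∃ σ : I, res σ = e then t h.choose.1 else 0
  have hT : ∀ σ : I, T (res σ) = t σ.1 := fun σ => by
    have h : ∃ τ : I, res τ = res σ := ⟨σ, rfl⟩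
    simp only [T, dif_pos h]
    exact hres _ _ h.choose_spec
  obtain ⟨θ, hθ⟩ : ∃ θ : L, ∑ e ∈ S, T e * e θ ≠ 0 := by
    by_contra hall
    push Not at hall
    have li : LinearIndependent ℚ̄ (fun e : L →ₐ[ℚ] ℚ̄ => ((e : L →* ℚ̄) : L → ℚ̄)) :=
      (linearIndependent_monoidHom L ℚ̄).comp _ fun e e' h =>
        AlgHom.ext fun x => DFunLike.congr_fun h x
    have := linearIndependent_iff'.mp li S T (funext fun θ => by simpa using hall θ)
      (res 1) (Finset.mem_filter.mpr ⟨Finset.mem_univ _, 1, rfl⟩)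
    exact ht0 _ ((hT 1).symm.trans this)
  refine ⟨(∑ e ∈ S, T e * e θ)⁻¹, inv_ne_zero hθ, fun σ hσ => ?_⟩
  have hperm : σ (∑ e ∈ S, T e * e θ) = (t σ)⁻¹ * ∑ e ∈ S, T e * e θ := by
    rw [map_sum, Finset.mul_sum]
    refine Finset.sum_bij (fun e _ => (σ : ℚ̄ →ₐ[ℚ] ℚ̄).comp e) ?_ ?_ ?_ ?_
    · intro e he
      obtain ⟨τ, rfl⟩ := (Finset.mem_filter.mp he).2
      exact Finset.mem_filter.mpr ⟨Finset.mem_univ _, ⟨σ, hσ⟩ * τ, AlgHom.ext fun x => rfl⟩
    · intro e _ e' _ h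
      exact AlgHom.ext fun x => σ.injective (DFunLike.congr_fun h x)
    · intro e he
      obtain ⟨τ, rfl⟩ := (Finset.mem_filter.mp he).2
      refine ⟨res (⟨σ, hσ⟩⁻¹ * τ), Finset.mem_filter.mpr ⟨Finset.mem_univ _, _, rfl⟩, ?_⟩
      exact AlgHom.ext fun x => σ.apply_symm_apply (τ.1 x)
    · intro e he
      obtain ⟨τ, rfl⟩ := (Finset.mem_filter.mp he).2
      have e1 : ((σ : ℚ̄ →ₐ[ℚ] ℚ̄).comp (res τ)) = res (⟨σ, hσ⟩ * τ) := AlgHom.ext fun x => rfl
      rw [e1, hT, hT]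
      change σ (t τ.1 * τ.1 (θ : ℚ̄)) = (t σ)⁻¹ * (t (σ * τ.1) * σ (τ.1 (θ : ℚ̄)))
      rw [ht σ hσ τ.1 τ.2, map_mul]
      field_simp [ht0 σ]
  rw [map_inv₀, hperm, mul_inv, inv_inv]

variable [IsDomain O] [IsDiscreteValuationRing O] [CharZero O]

lemma exists_pow_le_span (x : O) (hx : x ≠ 0) :
    ∃ N : ℕ, maximalIdeal O ^ N ≤ Ideal.span {x} := by
  obtain ⟨ϖ, hϖ⟩ := IsDiscreteValuationRing.exists_irreducible O
  obtain ⟨N, hN⟩ := IsDiscreteValuationRing.associated_pow_irreducible hx hϖ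
  refine ⟨N, le_of_eq ?_⟩
  rw [(IsDiscreteValuationRing.irreducible_iff_uniformizer ϖ).mp hϖ, Ideal.span_singleton_pow,
    Ideal.span_singleton_eq_span_singleton]
  exact hN.symm

/-- Extension of a character killing `R` to one killing `M * R` whose `M`-th multiple it is. -/
lemma exists_ext_char (φ : O →+ Additive ℚ̄ˣ) (M : O) (hM : M ≠ 0) :
    ∃ ψ : O →+ Additive ℚ̄ˣ, ∀ x, ψ (M * x) = φ x := by
  letI : DivisibleBy (Additive ℚ̄ˣ) ℤ := divisibleByOfSMulRightSurj _ _ fun {n} hn a => by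
    obtain ⟨z, hz⟩ := IsAlgClosed.exists_pow_nat_eq (k := ℚ̄) (a.toMul : ℚ̄)
      (Int.natAbs_pos.mpr hn)
    have hz0 : z ≠ 0 := by
      rintro rfl
      rw [zero_pow (Int.natAbs_ne_zero.mpr hn)] at hz
      exact Units.ne_zero _ hz.symm
    have key : n.natAbs • Additive.ofMul (Units.mk0 z hz0) = a := by
      apply Additive.toMul.injective
      rw [toMul_nsmul]
      exact Units.ext (by simpa using hz)
    rcases n.natAbs_eq with h | h
    · exact ⟨Additive.ofMul (Units.mk0 z hz0), by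
        simp only; rw [h, natCast_zsmul]; exact key⟩
    · exact ⟨-Additive.ofMul (Units.mk0 z hz0), by
        simp only; rw [h, neg_smul, smul_neg, neg_neg, natCast_zsmul]; exact key⟩
  obtain ⟨ψ, hψ⟩ := Module.Baer.extension_property_addMonoidHom
    (Module.Baer.of_divisible (A := Additive ℚ̄ˣ)) (AddMonoidHom.mulLeft M)
    (fun x y h => mul_left_cancel₀ hM h) φ
  exact ⟨ψ, fun x => DFunLike.congr_fun hψ x⟩

variable {A}

/-- The main computation: an equivariance with `ν ≠ det F` kills all valuations. -/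
theorem valZero_of_conj (r : ℕ) [Fact r.Prime] (ρ : GaloisRepAdic O)
    (hdet : ρ.DetIsCyclotomic r) (A : ValuationSubring ℚ̄) (hA : A.LiesOverPrime r)
    (F : Γℚ) (hFD : F ∈ A.decompositionSubgroup ℚ) (a : Γℚ → O)
    (ha : IsTwistCocycle A (fun σ => LinearMap.det (ρ.ρ σ)) a) (hcont : IsContCoord a)
    (ν p : O) (g : Γℚ → O) (hν : ν ≠ LinearMap.det (ρ.ρ F)) (hg : ValZero A g)
    (hFa : ∀ σ ∈ A.inertiaSubgroupIn ℚ,
      a (F * σ * F⁻¹) = ν * a σ + (LinearMap.det (ρ.ρ σ) - 1) * p + g σ) :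
    ValZero A a := by
  have hr : r.Prime := Fact.out
  rintro R φ ⟨r', n, hA', hr', rfl⟩ hφ
  have hrr : r' = r := by
    by_contra hne
    have h1 := EC.Mult.valuation_intCast_eq_one hr hA (m := (r' : ℤ)) (by
      rw [Int.natCast_dvd_natCast]
      exact fun h => hne ((Nat.prime_dvd_prime_iff_eq hr hr').mp h).symm)
    rw [Int.cast_natCast] at h1
    exact (EC.Mult.valuation_natCast_lt_one hA').ne h1
  subst hrr
  set δ := ν - LinearMap.det (ρ.ρ F) with hδ
  have hδ0 : δ ≠ 0 := sub_ne_zero.mpr hν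
  -- `δ` divides a power of `r`
  obtain ⟨e, δ', hδ'⟩ : ∃ e : ℕ, δ ∣ (r' : O) ^ e := by
    obtain ⟨N, hN⟩ := exists_pow_le_span δ hδ0
    refine ⟨N, Ideal.mem_span_singleton.mp (hN ?_)⟩
    exact Ideal.pow_mem_pow hdet.1 N
  obtain ⟨φ', hφ'⟩ := exists_ext_char φ ((r' : O) ^ e)
    (pow_ne_zero _ (Nat.cast_ne_zero.mpr hr.ne_zero))
  set m := n + e with hm
  have hkill' : KillsMul φ' (r' ^ m) := fun x => by
    rw [hm, pow_add, Nat.cast_mul, Nat.cast_pow r' e, mul_comm ((r' ^ n : ℕ) : O), mul_assoc, hφ']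
    exact hφ x
  set ψ := φ'.comp (AddMonoidHom.mulLeft δ') with hψdef
  have hψ : KillsMul ψ (r' ^ m) := hkill'.comp δ'
  have hφψ : ∀ x, charVal φ x = charVal ψ (δ * x) := fun x => by
    rw [charVal, charVal, hψdef, AddMonoidHom.comp_apply, AddMonoidHom.coe_mulLeft,
      ← mul_assoc, mul_comm δ' δ, ← hδ', hφ']
  -- Galois action on values
  have hgal : ∀ (σ : Γℚ) (x : O), σ (charVal ψ x) = charVal ψ (LinearMap.det (ρ.ρ σ) * x) := by
    intro σ x
    have : NeZero (r' ^ m) := ⟨pow_ne_zero _ hr.ne_zero⟩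
    set j := (EC.cycloChar (r' ^ m) σ : ZMod (r' ^ m)).val
    have hdetj := hdet.2 m σ j fun μ hμ => EC.apply_eq_pow_cycloChar _ σ hμ
    rw [EC.apply_eq_pow_cycloChar _ σ (hψ.pow_eq_one x), ← charVal_nsmul, nsmul_eq_mul,
      ← charVal_sub ψ (LinearMap.det (ρ.ρ σ) * x) ((j : O) * x), ← sub_mul,
      hψ.eq_one_of_mem_span (Ideal.mul_mem_right _ _ hdetj), one_mul]
  obtain ⟨N, hN⟩ := exists_pow_le_span (((r' ^ m : ℕ) : O))
    (Nat.cast_ne_zero.mpr (pow_ne_zero _ hr.ne_zero))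
  obtain ⟨L₀, hL₀, haL⟩ := hcont N
  have : NeZero (r' ^ m) := ⟨pow_ne_zero _ hr.ne_zero⟩
  obtain ⟨ζ, hζ⟩ := EC.exists_primitiveRoot_qbar (r' ^ m)
  let L : IntermediateField ℚ ℚ̄ := L₀ ⊔ IntermediateField.adjoin ℚ {ζ}
  have : FiniteDimensional ℚ (IntermediateField.adjoin ℚ {ζ}) :=
    IntermediateField.adjoin.finiteDimensional (Algebra.IsIntegral.isIntegral ζ)
  have hLfix : ∀ σ : Γℚ, (∀ x ∈ L, σ x = x) → ∀ x : O, σ (charVal ψ x) = charVal ψ x := by
    intro σ hσ x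
    obtain ⟨i, -, hi⟩ := hζ.eq_pow_of_pow_eq_one (hψ.pow_eq_one x)
    rw [← hi, map_pow, hσ ζ ((le_sup_right : _ ≤ L) (IntermediateField.mem_adjoin_simple_self ℚ ζ))]
  set d := LinearMap.det (ρ.ρ F) with hd
  set t : Γℚ → ℚ̄ := fun σ => charVal ψ (d * a σ) with ht
  obtain ⟨y, hy0, hy⟩ := exists_radical A (L := L) t (fun σ => charVal_ne_zero _ _)
    (fun σ hσ τ hτ => by
      simp only [ht]
      rw [hgal σ, ha σ hσ τ hτ, mul_add, charVal_add, mul_left_comm])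
    (fun σ _ hσL => by
      refine hψ.eq_one_of_mem_span (Ideal.mul_mem_left _ _ (hN ?_))
      exact haL σ fun x hx => hσL x ((le_sup_left : _ ≤ L) hx))
    (fun σ _ hσL τ _ => hLfix σ hσL _)
  obtain ⟨yg, hyg, hygσ⟩ := hg (r' ^ m) ψ ⟨r', m, hA, hr, rfl⟩ hψ
  have hval1 : ∀ x : O, A.valuation (charVal ψ x) = 1 := fun x => by
    have h := congrArg A.valuation (hψ.pow_eq_one x)
    rw [map_pow, map_one] at h
    exact (pow_eq_one_iff.mp h).resolve_right (NeZero.ne (r' ^ m))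
  refine ⟨F.symm y / (charVal ψ p * yg * y), ?_, ?_⟩
  · rw [map_div₀, map_mul, map_mul, hval1, hyg, one_mul, one_mul,
      show A.valuation (F.symm y) = A.valuation y from
        EC.Mult.valuation_apply (σ := F⁻¹) (inv_mem hFD) y,
      div_self (A.valuation.ne_zero_iff.2 hy0)]
  · intro σ hσ
    have hτ : F * σ * F⁻¹ ∈ A.inertiaSubgroupIn ℚ := by
      obtain ⟨s, hs, rfl⟩ := hσ
      refine ⟨⟨F, hFD⟩ * s * ⟨F, hFD⟩⁻¹, ?_, rfl⟩
      exact (MonoidHom.normal_ker _).conj_mem s hs ⟨F, hFD⟩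
    have h1 : σ (F.symm y) = charVal ψ (a (F * σ * F⁻¹)) * F.symm y := by
      have h2 : σ (F.symm y) = F.symm ((F * σ * F⁻¹) y) := by
        change _ = F.symm (F (σ (F.symm y)))
        rw [F.symm_apply_apply]
      rw [h2, hy _ hτ, map_mul]
      congr 1
      simp only [ht]
      rw [← hgal F, F.symm_apply_apply]
    have h3 : σ (charVal ψ p) = charVal ψ ((LinearMap.det (ρ.ρ σ) - 1) * p) * charVal ψ p := by
      rw [hgal, ← charVal_add]
      congr 1
      ring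
    rw [map_div₀, map_mul, map_mul, h1, h3, hygσ σ hσ, hy σ hσ, hFa σ hσ, charVal_add,
      charVal_add, hφψ, ht, hδ]
    have h4 := charVal_sub ψ (ν * a σ) (d * a σ)
    have := charVal_ne_zero ψ p
    have := charVal_ne_zero ψ (d * a σ)
    have := charVal_ne_zero ψ ((LinearMap.det (ρ.ρ σ) - 1) * p)
    have := charVal_ne_zero ψ (g σ)
    have hyg0 : yg ≠ 0 := by rintro rfl; simp at hyg
    rw [sub_mul ν d, ← h4]
    field_simp

/-- Reductions of a function with all valuations zero have the unit Kummer shape. -/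
theorem hasUnitKummerShape_of_valZero [Finite (ResidueField O)] (r : ℕ) [Fact r.Prime]
    (ρ : GaloisRepAdic O) (hdet : ρ.DetIsCyclotomic r) (A : ValuationSubring ℚ̄)
    (b : Module.Basis (Fin 2) O ρ.V) (ζ : ℚ̄) (hζ : IsPrimitiveRoot ζ r) (c : Γℚ → ρ.V)
    (hca : ∀ σ ∈ A.inertiaSubgroupIn ℚ, c σ = b.repr (c σ) 0 • b 0)
    (hA' : A.LiesOverPrime r) (hval : ValZero A fun σ => b.repr (c σ) 0) :
    HasUnitKummerShape A r ζ
      ((IsLocalRing.maximalIdeal O) • (⊤ : Submodule O ρ.V)).toAddSubgroup c := by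
  have hr : r.Prime := Fact.out
  have hr0 : (r : ResidueField O) = 0 := by
    rw [← map_natCast (residue O) r, residue_eq_zero_iff]; exact hdet.1
  haveI : CharP (ResidueField O) r := (CharP.charP_iff_prime_eq_zero hr).mpr hr0
  letI : Algebra (ZMod r) (ResidueField O) := ZMod.algebra _ r
  have : Module.Finite (ZMod r) (ResidueField O) := Module.Finite.of_finite
  let e := Module.finBasis (ZMod r) (ResidueField O)
  choose lift hlift using fun i => residue_surjective (e i)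
  let f : Fin (Module.finrank (ZMod r) (ResidueField O)) → Γℚ → ZMod r := fun i σ => e.repr (residue O (b.repr (c σ) 0)) i
  refine ⟨_, f, fun i => lift i • b 0, fun i => ?_, fun σ hσ => ?_⟩
  · have hζu : IsUnit ζ := hζ.isUnit hr.ne_zero
    let P : ZMod r →+ Additive ℚ̄ˣ := ZMod.lift r
      ⟨(zmultiplesHom (Additive ℚ̄ˣ)) (Additive.ofMul hζu.unit), by
        apply Additive.toMul.injective
        simp only [zmultiplesHom_apply, natCast_zsmul, toMul_nsmul, toMul_ofMul, toMul_zero]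
        exact Units.ext (by simpa using hζ.pow_eq_one)⟩
    have hP : ∀ z : ZMod r, ((P z).toMul : ℚ̄) = ζ ^ z.val := fun z => by
      conv_lhs => rw [← ZMod.natCast_zmod_val z]
      rw [show ((z.val : ℕ) : ZMod r) = ((z.val : ℤ) : ZMod r) from (Int.cast_natCast _).symm,
        ZMod.lift_coe]
      simp only [zmultiplesHom_apply, natCast_zsmul, toMul_nsmul, toMul_ofMul,
        Units.val_pow_eq_pow_val, IsUnit.unit_spec]
    let φ : O →+ Additive ℚ̄ˣ :=
      P.comp (((e.coord i).toAddMonoidHom).comp (residue O).toAddMonoidHom)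
    have hφ : KillsMul φ (r ^ 1) := fun x => by
      have : residue O (((r ^ 1 : ℕ) : O) * x) = 0 := by
        rw [map_mul, map_natCast, pow_one, hr0, zero_mul]
      simp [φ, this]
    obtain ⟨y, hy, hyσ⟩ := hval (r ^ 1) φ ⟨r, 1, hA', hr, rfl⟩ hφ
    refine ⟨y, hy, fun τ hτ => ?_, fun σ hσ => ?_⟩
    · have h1 := hφ.pow_eq_one (b.repr (c τ) 0)
      rw [pow_one] at h1
      rw [map_pow, hyσ τ hτ, mul_pow, h1, one_mul]
    · rw [hyσ σ hσ.1]
      exact congrArg (· * y) (hP _)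
  · rw [hca σ hσ.1, Submodule.mem_toAddSubgroup]
    have : b.repr (c σ) 0 • b 0 - ∑ i, (f i σ).val • (lift i • b 0) =
        (b.repr (c σ) 0 - ∑ i, (f i σ).val • lift i) • b 0 := by
      rw [sub_smul, Finset.sum_smul]
      simp only [smul_assoc]
    rw [this]
    refine Submodule.smul_mem_smul ?_ Submodule.mem_top
    rw [← residue_eq_zero_iff, map_sub, map_sum, sub_eq_zero]
    refine (e.sum_repr (residue O (b.repr (c σ) 0))).symm.trans (Finset.sum_congr rfl fun i _ => ?_)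
    rw [map_nsmul, hlift, ← Nat.cast_smul_eq_nsmul (ZMod r), ZMod.natCast_zmod_val]

end Fermat.Agent.Mazur.Descent
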