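/-
The local statement at `r`: in the ordinary situation every class whose restriction to inertia
lands in the connected line is, modulo the maximal ideal, a combination of unit Kummer classes.
Owner: helper22.
-/
import Fermat.Agent.Mazur.Descent.Defs
import Fermat.Agent.Mazur.Descent.LocalKummerUnit
import Mathlib.RingTheory.DiscreteValuationRing.Basic
import Mathlib.RingTheory.AdicCompletion.Basic
import Mathlib.FieldTheory.Finiteness
import Mathlib.LinearAlgebra.Determinant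

set_option autoImplicit false

noncomputable section

namespace Fermat.Agent.Mazur.Descent

open IsLocalRing

local notation "ℚ̄" => AlgebraicClosure ℚ
local notation "Γℚ" => (AlgebraicClosure ℚ ≃ₐ[ℚ] AlgebraicClosure ℚ)

variable {O : Type} [CommRing O] [IsDomain O] [IsDiscreteValuationRing O]
  [IsAdicComplete (IsLocalRing.maximalIdeal O) O] [Finite (IsLocalRing.ResidueField O)]
  [CharZero O]

/-- `F` is a Frobenius at `r`; `α` is its eigenvalue on the unramified quotient `V / Vp`, with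
`α ≠ ±1`. -/
theorem hasUnitKummerShape_of_ordinary (r : ℕ) [Fact r.Prime] (ρ : GaloisRepAdic O)
    (hdet : ρ.DetIsCyclotomic r) (A : ValuationSubring ℚ̄) (hA : A.LiesOverPrime r)
    (Vp : Submodule O ρ.V) (hVp : ∃ b : Module.Basis (Fin 2) O ρ.V, Vp = O ∙ b 0)
    (hI : ∀ σ ∈ A.inertiaSubgroupIn ℚ, ∀ v : ρ.V, ρ.ρ σ v - v ∈ Vp)
    (hD : ∀ σ ∈ A.decompositionSubgroup ℚ, ∀ v ∈ Vp, ρ.ρ σ v ∈ Vp)
    (F : Γℚ) (hF : A.IsFrobeniusAt F r) (α : O) (hα : ∀ v : ρ.V, ρ.ρ F v - α • v ∈ Vp)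
    (hα1 : α ≠ 1) (hα2 : α ^ 2 ≠ 1) (ζ : ℚ̄) (hζ : IsPrimitiveRoot ζ r)
    (c : Γℚ → ρ.V) (hc : IsContCocycle ρ c)
    (hcI : ∀ σ ∈ A.inertiaSubgroupIn ℚ, c σ ∈ Vp) :
    HasUnitKummerShape A r ζ
      ((IsLocalRing.maximalIdeal O) • (⊤ : Submodule O ρ.V)).toAddSubgroup c := by
  classical
  obtain ⟨b, rfl⟩ := hVp
  have hFD : F ∈ A.decompositionSubgroup ℚ := hF.mem_decompositionSubgroup
  have hspan : ∀ {v : ρ.V}, v ∈ O ∙ b 0 → v = b.repr v 0 • b 0 := by
    intro v hv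
    obtain ⟨x, rfl⟩ := Submodule.mem_span_singleton.mp hv
    simp
  set χ : Γℚ → O := fun σ => LinearMap.det (ρ.ρ σ) with hχdef
  set β : Γℚ → O := fun σ => b.repr (ρ.ρ σ (b 1) - b 1) 0 with hβdef
  have hdet2 : ∀ (σ : Γℚ) (x y z : O), ρ.ρ σ (b 0) = x • b 0 → ρ.ρ σ (b 1) = y • b 0 + z • b 1 →
      LinearMap.det (ρ.ρ σ) = x * z := by
    intro σ x y z h0 h1
    rw [← LinearMap.det_toMatrix b, Matrix.det_fin_two]
    simp [LinearMap.toMatrix_apply, h0, h1]
  have hb1 : ∀ σ ∈ A.inertiaSubgroupIn ℚ, ρ.ρ σ (b 1) = b 1 + β σ • b 0 := fun σ hσ => by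
    rw [← hspan (hI σ hσ (b 1))]; abel
  have hb0 : ∀ σ ∈ A.inertiaSubgroupIn ℚ, ρ.ρ σ (b 0) = χ σ • b 0 := by
    intro σ hσ
    obtain ⟨x, hx⟩ := Submodule.mem_span_singleton.mp
      (hD σ (EC.Mult.mem_decompositionSubgroup_of_mem_inertia hσ) _
        (Submodule.mem_span_singleton_self (b 0)))
    have : χ σ = x * 1 := hdet2 σ x (β σ) 1 hx.symm (by rw [hb1 σ hσ]; simp [add_comm])
    rw [this, mul_one, hx]
  obtain ⟨l, hl⟩ := Submodule.mem_span_singleton.mp
    (hD F hFD _ (Submodule.mem_span_singleton_self (b 0)))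
  set u := b.repr (ρ.ρ F (b 1) - α • b 1) 0 with hu
  have hF1 : ρ.ρ F (b 1) = u • b 0 + α • b 1 := by
    rw [hu, ← hspan (hα (b 1)), sub_add_cancel]
  have hd : LinearMap.det (ρ.ρ F) = l * α := hdet2 F l u α hl.symm hF1
  have hunit : IsUnit (l * α) := hd ▸ (Group.isUnit F).map (LinearMap.det.comp ρ.ρ)
  obtain ⟨l', hl'⟩ : ∃ l', α * l' = 1 := (isUnit_of_mul_isUnit_right hunit).exists_right_inv
  have hl0 : l ≠ 0 := (isUnit_of_mul_isUnit_left hunit).ne_zero
  have hIF : ∀ σ ∈ A.inertiaSubgroupIn ℚ, F * σ * F⁻¹ ∈ A.inertiaSubgroupIn ℚ := by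
    rintro _ ⟨s, hs, rfl⟩
    refine ⟨⟨F, hFD⟩ * s * ⟨F, hFD⟩⁻¹, ?_, rfl⟩
    exact (MonoidHom.normal_ker _).conj_mem s hs ⟨F, hFD⟩
  have hβ : IsTwistCocycle A χ β := by
    intro σ hσ τ hτ
    have h := hb1 (σ * τ) (mul_mem hσ hτ)
    rw [map_mul, Module.End.mul_apply, hb1 τ hτ, map_add, map_smul, hb1 σ hσ, hb0 σ hσ] at h
    have := congrArg (fun v => b.repr v 0) h
    simp at this
    linear_combination -this
  set a : Γℚ → O := fun σ => b.repr (c σ) 0 with ha
  have hca : ∀ σ ∈ A.inertiaSubgroupIn ℚ, c σ = a σ • b 0 := fun σ hσ => hspan (hcI σ hσ)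
  have hac : IsTwistCocycle A χ a := by
    intro σ hσ τ hτ
    have h := hc.map_mul σ τ
    rw [hca σ hσ, hca τ hτ, hca _ (mul_mem hσ hτ), map_smul, hb0 σ hσ] at h
    have := congrArg (fun v => b.repr v 0) h
    simp at this
    linear_combination this
  have hcoord : ∀ (N : ℕ) (i : Fin 2) (v : ρ.V),
      v ∈ (maximalIdeal O ^ N) • (⊤ : Submodule O ρ.V) → b.repr v i ∈ maximalIdeal O ^ N := by
    intro N i v hv
    refine Submodule.smul_induction_on hv (fun x hx w _ => ?_) fun x y hx hy => ?_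
    · simpa using Ideal.mul_mem_right (b.repr w i) _ hx
    · simpa using Ideal.add_mem _ hx hy
  have hβc : IsContCoord (fun σ => β σ) := by
    intro N
    obtain ⟨L, hL, h⟩ := ρ.isAdicContinuous N
    exact ⟨L, hL, fun σ hσ => hcoord N 0 _ (h σ hσ (b 1))⟩
  have hacc : IsContCoord (fun σ => a σ) := by
    intro N
    obtain ⟨L, hL, h⟩ := hc.cont N
    exact ⟨L, hL, fun σ hσ => hcoord N 0 _ (h σ hσ)⟩
  have hχ' : ∀ σ, χ (F * σ * F⁻¹) = χ σ := fun σ => by
    change (LinearMap.det.comp ρ.ρ) (F * σ * F⁻¹) = (LinearMap.det.comp ρ.ρ) σ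
    rw [map_mul, map_mul, mul_comm ((LinearMap.det.comp ρ.ρ) F), mul_assoc, ← map_mul,
      mul_inv_cancel, map_one, mul_one]
  have hβF : ∀ σ ∈ A.inertiaSubgroupIn ℚ,
      β (F * σ * F⁻¹) = l * l' * β σ + (χ σ - 1) * (-u * l') + 0 := by
    intro σ hσ
    have key : ρ.ρ (F * σ * F⁻¹) (ρ.ρ F (b 1)) = ρ.ρ F (ρ.ρ σ (b 1)) := by
      rw [← Module.End.mul_apply, ← map_mul, ← Module.End.mul_apply, ← map_mul,
        inv_mul_cancel_right]
    rw [hF1, map_add, map_smul, map_smul, hb0 _ (hIF σ hσ), hb1 _ (hIF σ hσ), hb1 σ hσ,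
      map_add, map_smul, hF1, ← hl, hχ' σ] at key
    have := congrArg (fun v => b.repr v 0) key
    simp at this
    linear_combination l' * this - β (F * σ * F⁻¹) * hl'
  have hvalβ : ValZero A β := by
    refine valZero_of_conj r ρ hdet A hA F hFD β hβ hβc (l * l') (-u * l') (fun _ => 0) ?_
      (valZero_zero A) hβF
    intro h
    apply hα2
    rw [hd] at h
    exact mul_left_cancel₀ hl0 (by linear_combination -α * h + l * hl')
  have hvala : ValZero A a := by
    refine valZero_of_conj r ρ hdet A hA F hFD a hac hacc l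
      (-b.repr (c F) 0 + b.repr (c F) 1 * u * l')
      (fun σ => -(b.repr (c F) 1) * (l * l') * β σ) ?_ (hvalβ.smul _) ?_
    · intro h
      apply hα1
      rw [hd] at h
      exact mul_left_cancel₀ hl0 (by linear_combination -h)
    · intro σ hσ
      have key : c (F * σ * F⁻¹) + ρ.ρ (F * σ * F⁻¹) (c F) = c F + ρ.ρ F (c σ) := by
        rw [← hc.map_mul, ← hc.map_mul, inv_mul_cancel_right]
      have hcF : c F = b.repr (c F) 0 • b 0 + b.repr (c F) 1 • b 1 := by
        conv_lhs => rw [← b.sum_repr (c F), Fin.sum_univ_two]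
      rw [hca σ hσ, hca _ (hIF σ hσ), hcF, map_add, map_smul, map_smul, map_smul,
        hb0 _ (hIF σ hσ), hb1 _ (hIF σ hσ), ← hl, hχ' σ] at key
      have := congrArg (fun v => b.repr v 0) key
      simp at this
      linear_combination this - b.repr (c F) 1 * hβF σ hσ
  exact hasUnitKummerShape_of_valZero r ρ hdet A b ζ hζ c hca hA hvala

end Fermat.Agent.Mazur.Descent
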