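/-
Owner: helper22. The global input of the Selmer bound: a scalar cocycle with character `1` unramified everywhere
is zero, and those with the cyclotomic character, unramified away from `r` and of unit Kummer
shape at `r`, form at most a line.
-/
import Fermat.Agent.Mazur.Descent.Defs
import Fermat.Agent.Galois.Minkowski
import Fermat.Agent.Galois.Frobenius
import Fermat.Agent.EC.Mult.Ramification
import Fermat.Agent.EC.Det.CyclotomicChar
import Fermat.Agent.ClassField.S55.Bridge.H90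

set_option autoImplicit false
set_option linter.style.haveILetI false
set_option linter.unusedSectionVars false

noncomputable section

namespace Fermat.Agent.Mazur.Descent

local notation "ℚ̄" => AlgebraicClosure ℚ
local notation "Γℚ" => (AlgebraicClosure ℚ ≃ₐ[ℚ] AlgebraicClosure ℚ)

variable {M : Type} [AddCommGroup M]

/-- A finite-level homomorphism trivial on one inertia group above each prime is zero. -/
theorem eq_zero_of_unramified (f : Γℚ → M) (hmul : ∀ σ τ, f (σ * τ) = f σ + f τ)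
    (hfin : ∃ L : IntermediateField ℚ ℚ̄, FiniteDimensional ℚ L ∧
      ∀ σ : Γℚ, (∀ x ∈ L, σ x = x) → f σ = 0)
    (hI : ∀ l : ℕ, l.Prime → ∃ B : ValuationSubring ℚ̄, B.LiesOverPrime l ∧
      ∀ σ ∈ B.inertiaSubgroupIn ℚ, f σ = 0) (σ : Γℚ) : f σ = 0 := by
  let φ : Γℚ →* Multiplicative M :=
    MonoidHom.mk' (fun σ => Multiplicative.ofAdd (f σ)) fun a b =>
      congrArg Multiplicative.ofAdd (hmul a b)
  obtain ⟨L, hL, hf⟩ := hfin
  have hopen : IsOpen (φ.ker : Set Γℚ) :=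
    Subgroup.isOpen_mono (fun τ hτ => MonoidHom.mem_ker.mpr <| congrArg Multiplicative.ofAdd <|
      hf τ ((IntermediateField.mem_fixingSubgroup_iff L τ).mp hτ)) L.fixingSubgroup_isOpen
  have htop := Galois.eq_top_of_forall_exists_inertia_le φ.ker hopen fun l hl => by
    obtain ⟨B, hB, hBf⟩ := hI l hl
    exact ⟨B, hB, fun τ hτ => MonoidHom.mem_ker.mpr (congrArg Multiplicative.ofAdd (hBf τ hτ))⟩
  have h1 : σ ∈ φ.ker := htop ▸ Subgroup.mem_top σ
  exact congrArg Multiplicative.toAdd (MonoidHom.mem_ker.mp h1)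

/-- The conditions on a scalar cocycle twisted by the cyclotomic character modulo `r`. -/
structure IsTwistSelmer {r : ℕ} [NeZero r] [Module (ZMod r) M] (A : ValuationSubring ℚ̄) (ζ : ℚ̄)
    (f : Γℚ → M) : Prop where
  map_mul : ∀ σ τ, f (σ * τ) = f σ + (EC.cycloChar r σ : ZMod r) • f τ
  cont : ∃ L : IntermediateField ℚ ℚ̄, FiniteDimensional ℚ L ∧
    ∀ σ : Γℚ, (∀ x ∈ L, σ x = x) → f σ = 0
  unramified : ∀ l : ℕ, l.Prime → l ≠ r →
    ∀ B : ValuationSubring ℚ̄, B.LiesOverPrime l → ∀ σ ∈ B.inertiaSubgroupIn ℚ, f σ = 0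
  shape : HasUnitKummerShape A r ζ (⊥ : AddSubgroup M) f

section ZetaPow

variable {r : ℕ} [NeZero r] {ζ : ℚ̄}

/-- The power of `ζ` with an exponent modulo `r`. -/
def zetaPow (ζ : ℚ̄) (a : ZMod r) : ℚ̄ := ζ ^ a.val

theorem zetaPow_natCast (hζ : IsPrimitiveRoot ζ r) (n : ℕ) :
    zetaPow ζ (n : ZMod r) = ζ ^ n := by
  rw [zetaPow, ZMod.val_natCast, hζ.eq_orderOf, pow_mod_orderOf]

theorem zetaPow_add (hζ : IsPrimitiveRoot ζ r) (a b : ZMod r) :
    zetaPow ζ (a + b) = zetaPow ζ a * zetaPow ζ b := by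
  conv_lhs => rw [← ZMod.natCast_zmod_val a, ← ZMod.natCast_zmod_val b, ← Nat.cast_add,
    zetaPow_natCast hζ, pow_add]
  rfl

theorem zetaPow_zero : zetaPow ζ (0 : ZMod r) = 1 := by
  rw [zetaPow, ZMod.val_zero, pow_zero]

theorem zetaPow_pow (hζ : IsPrimitiveRoot ζ r) (a : ZMod r) (n : ℕ) :
    zetaPow ζ a ^ n = zetaPow ζ ((n : ZMod r) * a) := by
  conv_rhs => rw [← ZMod.natCast_zmod_val a, ← Nat.cast_mul, zetaPow_natCast hζ, mul_comm, pow_mul]
  rfl

theorem zetaPow_pow_self (hζ : IsPrimitiveRoot ζ r) (a : ZMod r) : zetaPow ζ a ^ r = 1 := by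
  rw [zetaPow, ← pow_mul, mul_comm, pow_mul, hζ.pow_eq_one, one_pow]

theorem zetaPow_ne_zero (hζ : IsPrimitiveRoot ζ r) (a : ZMod r) : zetaPow ζ a ≠ 0 :=
  pow_ne_zero _ (hζ.ne_zero (NeZero.ne r))

theorem zetaPow_injective (hζ : IsPrimitiveRoot ζ r) : Function.Injective (zetaPow (r := r) ζ) :=
  fun a b h => ZMod.val_injective r (hζ.pow_inj a.val_lt b.val_lt h)

theorem apply_zetaPow (hζ : IsPrimitiveRoot ζ r) (σ : Γℚ) (a : ZMod r) :
    σ (zetaPow ζ a) = zetaPow ζ ((EC.cycloChar r σ : ZMod r) * a) := by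
  rw [EC.apply_eq_pow_cycloChar r σ (zetaPow_pow_self hζ a), zetaPow_pow hζ,
    ZMod.natCast_zmod_val]

theorem exists_apply_eq_zetaPow (hζ : IsPrimitiveRoot ζ r) {z : ℚ̄} (hz : z ≠ 0) (σ : Γℚ)
    (h : σ (z ^ r) = z ^ r) : ∃ a : ZMod r, σ z = zetaPow ζ a * z := by
  have h1 : (σ z / z) ^ r = 1 := by
    rw [div_pow, ← map_pow, h, div_self (pow_ne_zero r hz)]
  obtain ⟨i, -, hi⟩ := hζ.eq_pow_of_pow_eq_one h1
  exact ⟨(i : ZMod r), by rw [zetaPow_natCast hζ, hi, div_mul_cancel₀ _ hz]⟩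

theorem inTameTwist_of_cycloChar {A : ValuationSubring ℚ̄} {σ : Γℚ} (hσ : σ ∈ A.inertiaSubgroupIn ℚ)
    (h : (EC.cycloChar r σ : ZMod r) = 1) : InTameTwist A r σ := by
  refine ⟨hσ, fun μ hμ => ?_⟩
  rw [EC.apply_eq_pow_cycloChar r σ hμ, h, ZMod.val_one_eq_one_mod]
  exact (pow_eq_pow_mod 1 hμ).symm.trans (pow_one μ)

end ZetaPow

section Scalar

variable {r : ℕ} [Fact r.Prime] [NeZero r] {A : ValuationSubring ℚ̄} {ζ : ℚ̄}

/-- Hilbert 90 for a cocycle with values in `r`-th roots of unity. -/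
theorem IsTwistSelmer.exists_radical (hζ : IsPrimitiveRoot ζ r) {f : Γℚ → ZMod r}
    (hf : IsTwistSelmer (r := r) A ζ f) :
    ∃ x : ℚ̄, x ≠ 0 ∧ ∀ σ, σ x = zetaPow ζ (f σ) * x := by
  obtain ⟨L, hL, hL0⟩ := hf.cont
  let N : IntermediateField ℚ ℚ̄ := IntermediateField.normalClosure ℚ L ℚ̄
  haveI : Normal ℚ N := normalClosure.normal ℚ L _
  haveI : FiniteDimensional ℚ N := normalClosure.is_finiteDimensional ℚ L _
  obtain ⟨x, hx0, hx⟩ := ClassField.S55.exists_hilbert90 (MonoidHom.id Γℚ) (RingHom.id ℚ̄)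
    (fun _ _ => rfl) N (fun σ => zetaPow ζ (f σ)) (fun σ => zetaPow_ne_zero hζ _)
    (fun g h => by
      rw [hf.map_mul, smul_eq_mul, zetaPow_add hζ, mul_comm, AlgEquiv.smul_def,
        apply_zetaPow hζ])
    (fun g s hs => by
      have h0 : f s = 0 := hL0 s fun y hy =>
        (IntermediateField.mem_fixingSubgroup_iff N s).mp hs y
          (IntermediateField.le_normalClosure L hy)
      rw [hf.map_mul, h0, smul_zero, add_zero])
  refine ⟨x, hx0, fun σ => ?_⟩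
  have := hx σ
  rw [AlgEquiv.smul_def] at this
  rw [this, div_mul_cancel₀ _ hx0]

/-- The valuation of a radical at `r` is an integral power of that of `r`. -/
theorem IsTwistSelmer.exists_zpow_at_r (hζ : IsPrimitiveRoot ζ r) (hA : A.LiesOverPrime r)
    {f : Γℚ → ZMod r} (hf : IsTwistSelmer (r := r) A ζ f) {x : ℚ̄} (hx0 : x ≠ 0)
    (hx : ∀ σ, σ x = zetaPow ζ (f σ) * x) :
    ∃ k : ℤ, A.valuation x = A.valuation (r : ℚ̄) ^ k := by
  classical
  have hr : r.Prime := Fact.out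
  obtain ⟨s, g, v, hg, hshape⟩ := hf.shape
  choose y hy1 hyfix hy using hg
  let Y : ℚ̄ := ∏ i, y i ^ (v i).val
  have hY1 : A.valuation Y = 1 := by simp [Y, map_prod, map_pow, hy1]
  have hY0 : Y ≠ 0 := fun h => by simp [h] at hY1
  let z := x / Y
  have hz0 : z ≠ 0 := div_ne_zero hx0 hY0
  have hzr : ∀ τ ∈ A.inertiaSubgroupIn ℚ, τ (z ^ r) = z ^ r := by
    intro τ hτ
    have h1 : τ (x ^ r) = x ^ r := by
      rw [map_pow, hx, mul_pow, zetaPow_pow_self hζ, one_mul]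
    have h2 : τ (Y ^ r) = Y ^ r := by
      simp only [Y, ← Finset.prod_pow, map_prod]
      refine Finset.prod_congr rfl fun i _ => ?_
      rw [← pow_mul, mul_comm, pow_mul, map_pow, hyfix i τ hτ]
    rw [div_pow, map_div₀, h1, h2]
  have hzI : ∀ τ, InTameTwist A r τ → τ z = z := by
    intro τ hτ
    have h0 : f τ = ∑ i, g i τ * v i := by
      have := hshape τ hτ
      rw [AddSubgroup.mem_bot, sub_eq_zero] at this
      simpa [nsmul_eq_mul] using this
    have hYτ : τ Y = zetaPow ζ (f τ) * Y := by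
      rw [h0]
      simp only [Y, map_prod, map_pow, hy _ τ hτ, mul_pow, Finset.prod_mul_distrib]
      congr 1
      refine (Finset.prod_congr rfl fun i _ => ?_).trans ?_ (b := ∏ i, zetaPow ζ (g i τ * v i))
      · rw [mul_comm (g i τ), ← ZMod.natCast_zmod_val (v i), ← zetaPow_pow hζ]
        simp [zetaPow]
      · induction (Finset.univ : Finset (Fin s)) using Finset.induction with
        | empty => simp [zetaPow_zero]
        | insert a t ha ih => rw [Finset.prod_insert ha, Finset.sum_insert ha, zetaPow_add hζ, ih]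
    rw [map_div₀, hx, hYτ, mul_div_mul_left _ _ (zetaPow_ne_zero hζ _)]
  -- correct `z` by a root of unity
  choose m hm using fun (τ : A.inertiaSubgroupIn ℚ) =>
    exists_apply_eq_zetaPow hζ hz0 (τ : Γℚ) (hzr τ τ.2)
  let χ : A.inertiaSubgroupIn ℚ → ZMod r := fun τ => (EC.cycloChar r (τ : Γℚ) : ZMod r)
  have hmul : ∀ τ τ', m (τ * τ') = m τ + χ τ * m τ' := by
    intro τ τ'
    refine zetaPow_injective hζ (mul_right_cancel₀ hz0 ?_)
    rw [← hm, Subgroup.coe_mul, AlgEquiv.mul_apply, hm τ', _root_.map_mul, apply_zetaPow hζ, hm τ,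
      zetaPow_add hζ]
    ring
  have hker : ∀ τ, χ τ = 1 → m τ = 0 := by
    intro τ hτ
    refine zetaPow_injective hζ (mul_right_cancel₀ hz0 ?_)
    rw [← hm, hzI _ (inTameTwist_of_cycloChar τ.2 hτ), zetaPow_zero, one_mul]
  obtain ⟨c, hc⟩ : ∃ c : ZMod r, ∀ τ, m τ = c * (χ τ - 1) := by
    by_cases hall : ∀ τ, χ τ = 1
    · exact ⟨0, fun τ => by rw [hker τ (hall τ), zero_mul]⟩
    push Not at hall
    obtain ⟨τ₀, hτ₀⟩ := hall
    have h0 : χ τ₀ - 1 ≠ 0 := sub_ne_zero.mpr hτ₀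
    refine ⟨m τ₀ / (χ τ₀ - 1), fun τ => ?_⟩
    -- compare `τ τ₀` with `τ₀ τ`: they differ by an element where `χ = 1`
    let d : A.inertiaSubgroupIn ℚ := (τ₀ * τ)⁻¹ * (τ * τ₀)
    have hd : χ d = 1 := by
      simp only [χ, d, Subgroup.coe_mul, Subgroup.coe_inv, _root_.map_mul, map_inv]
      rw [mul_comm (EC.cycloChar r (τ₀ : Γℚ)), inv_mul_cancel]
      rfl
    have h1 : m (τ * τ₀) = m (τ₀ * τ) := by
      rw [show τ * τ₀ = τ₀ * τ * d from (mul_inv_cancel_left _ _).symm]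
      rw [hmul (τ₀ * τ) d, hker d hd, mul_zero, add_zero]
    rw [hmul, hmul] at h1
    field_simp
    linear_combination -h1
  let z' := zetaPow ζ (-c) * z
  have hfix : ∀ τ ∈ A.inertiaSubgroupIn ℚ, τ z' = z' := by
    intro τ hτ
    rw [_root_.map_mul, apply_zetaPow hζ, hm ⟨τ, hτ⟩, hc, ← mul_assoc, ← zetaPow_add hζ]
    congr 2
    simp only [χ]
    ring
  obtain ⟨k, hk⟩ := EC.Mult.exists_zpow_of_inertia_fixed hr hA
    (mul_ne_zero (zetaPow_ne_zero hζ _) hz0) hfix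
  refine ⟨k, ?_⟩
  have h1 : A.valuation (zetaPow ζ (-c)) = 1 := by
    refine (pow_eq_one_iff_of_nonneg zero_le hr.ne_zero).mp ?_
    rw [← map_pow, zetaPow_pow_self hζ, map_one]
  rw [← hk, _root_.map_mul, h1, one_mul, map_div₀, hY1, div_one]

theorem eq_pow_of_dvd_factorization {n : ℕ} (hn : n ≠ 0)
    (h : ∀ l : ℕ, l.Prime → r ∣ n.factorization l) : ∃ w : ℕ, w ^ r = n := by
  refine ⟨n.factorization.prod fun p e => p ^ (e / r), ?_⟩
  conv_rhs => rw [← Nat.prod_factorization_pow_eq_self hn]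
  rw [Finsupp.prod, Finsupp.prod, ← Finset.prod_pow]
  refine Finset.prod_congr rfl fun p hp => ?_
  rw [← pow_mul, Nat.div_mul_cancel (h p (Nat.prime_of_mem_primeFactors hp))]

/-- A radical of a twisted Selmer cocycle is a rational multiple of a `2r`-th root of unity. -/
theorem IsTwistSelmer.exists_rootOfUnity (hζ : IsPrimitiveRoot ζ r) (hA : A.LiesOverPrime r)
    {f : Γℚ → ZMod r} (hf : IsTwistSelmer (r := r) A ζ f) :
    ∃ x : ℚ̄, x ^ (2 * r) = 1 ∧ ∀ σ, σ x = zetaPow ζ (f σ) * x := by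
  have hr : r.Prime := Fact.out
  obtain ⟨x, hx0, hx⟩ := hf.exists_radical hζ
  haveI : Algebra.IsAlgebraic ℚ ℚ̄ := AlgebraicClosure.isAlgebraic ℚ
  haveI : IsAlgClosure ℚ ℚ̄ := ⟨inferInstance, inferInstance⟩
  haveI : IsGalois ℚ ℚ̄ := IsAlgClosure.isGalois ℚ ℚ̄
  obtain ⟨u, hu⟩ := (InfiniteGalois.mem_range_algebraMap_iff_fixed (x ^ r)).2 fun σ => by
    rw [map_pow, hx, mul_pow, zetaPow_pow_self hζ, one_mul]
  rw [eq_ratCast] at hu
  have hu0 : u ≠ 0 := fun h => pow_ne_zero r hx0 (by rw [← hu, h, Rat.cast_zero])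
  have hdvd : ∀ l : ℕ, l.Prime →
      r ∣ u.num.natAbs.factorization l ∧ r ∣ u.den.factorization l := by
    intro l hl
    obtain ⟨B, hB, k, hk⟩ : ∃ B : ValuationSubring ℚ̄, B.LiesOverPrime l ∧
        ∃ k : ℤ, B.valuation x = B.valuation (l : ℚ̄) ^ k := by
      rcases eq_or_ne l r with rfl | hlr
      · exact ⟨A, hA, hf.exists_zpow_at_r hζ hA hx0 hx⟩
      obtain ⟨B, hB⟩ := Galois.exists_valuationSubring_liesOverPrime (L := ℚ̄) hl
      refine ⟨B, hB, EC.Mult.exists_zpow_of_inertia_fixed hl hB hx0 fun σ hσ => ?_⟩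
      rw [hx, hf.unramified l hl hlr B hB σ hσ, zetaPow_zero, one_mul]
    have h1 : (x ^ r) * ((u.den : ℤ) : ℚ̄) = ((u.num : ℤ) : ℚ̄) := by
      rw [← hu, Rat.cast_def, Int.cast_natCast, div_mul_cancel₀]
      exact_mod_cast u.den_nz
    have h2 := congrArg B.valuation h1
    rw [_root_.map_mul, map_pow, hk, EC.Mult.valuation_intCast hl hB (by exact_mod_cast u.den_nz),
      EC.Mult.valuation_intCast hl hB (Rat.num_ne_zero.mpr hu0), ← zpow_natCast, ← zpow_mul,
      ← zpow_natCast (B.valuation (l : ℚ̄)), ← zpow_natCast (B.valuation (l : ℚ̄)),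
      ← zpow_add₀ (EC.Mult.valuation_natCast_ne_zero hl)] at h2
    have h3 := zpow_right_injective₀ (zero_lt_iff.2 (EC.Mult.valuation_natCast_ne_zero hl))
      (EC.Mult.valuation_natCast_lt_one hB).ne h2
    simp only [padicValInt, Int.natAbs_natCast] at h3
    rw [Nat.factorization_def _ hl, Nat.factorization_def _ hl]
    have hcop : padicValNat l u.num.natAbs = 0 ∨ padicValNat l u.den = 0 := by
      by_cases hd : l ∣ u.den
      · exact Or.inl (padicValNat.eq_zero_of_not_dvd fun hn =>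
          hl.not_dvd_one (u.reduced ▸ Nat.dvd_gcd hn hd))
      · exact Or.inr (padicValNat.eq_zero_of_not_dvd hd)
    rcases hcop with h | h
    · refine ⟨by rw [h]; exact dvd_zero r, ?_⟩
      refine Int.natCast_dvd_natCast.mp ⟨-k, ?_⟩
      rw [h] at h3
      push_cast at h3 ⊢
      linarith
    · refine ⟨?_, by rw [h]; exact dvd_zero r⟩
      refine Int.natCast_dvd_natCast.mp ⟨k, ?_⟩
      rw [h] at h3
      push_cast at h3 ⊢
      linarith
  obtain ⟨a, ha⟩ := eq_pow_of_dvd_factorization (Int.natAbs_ne_zero.mpr (Rat.num_ne_zero.mpr hu0))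
    fun l hl => (hdvd l hl).1
  obtain ⟨b, hb⟩ := eq_pow_of_dvd_factorization u.den_nz fun l hl => (hdvd l hl).2
  have hu2 : (((a : ℚ) / b) ^ r) ^ 2 = u ^ 2 := by
    rw [div_pow, ← Nat.cast_pow, ← Nat.cast_pow, ha, hb, div_pow, Nat.cast_natAbs, Int.cast_abs,
      sq_abs, ← div_pow, Rat.num_div_den]
  let w : ℚ := (a : ℚ) / b
  have hw0 : (w : ℚ̄) ≠ 0 := by
    rw [Rat.cast_ne_zero]
    intro h
    rw [show ((a : ℚ) / b) = 0 from h, zero_pow hr.ne_zero, zero_pow two_ne_zero] at hu2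
    exact hu0 (pow_eq_zero_iff two_ne_zero |>.mp hu2.symm)
  refine ⟨x / (w : ℚ̄), ?_, fun σ => ?_⟩
  · rw [div_pow, mul_comm, pow_mul, pow_mul, ← hu, div_eq_one_iff_eq (pow_ne_zero 2
      (pow_ne_zero r hw0))]
    exact_mod_cast hu2.symm
  · rw [map_div₀, map_ratCast, hx, mul_div_assoc]

end Scalar

/-- All such cocycles are multiples of one function with values in `ZMod r`. -/
theorem exists_twistSelmer_generator (r : ℕ) [Fact r.Prime] [NeZero r]
    (A : ValuationSubring ℚ̄) (hA : A.LiesOverPrime r) (ζ : ℚ̄) (hζ : IsPrimitiveRoot ζ r) :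
    ∃ f₀ : Γℚ → ZMod r, ∀ (M : Type) [AddCommGroup M] [Module (ZMod r) M] [Finite M]
      (f : Γℚ → M), IsTwistSelmer (r := r) A ζ f → ∃ a : M, ∀ σ, f σ = f₀ σ • a := by
  classical
  have hr : r.Prime := Fact.out
  haveI : NeZero (2 * r) := ⟨mul_ne_zero two_ne_zero hr.ne_zero⟩
  obtain ⟨η, hη⟩ := EC.exists_primitiveRoot_qbar (2 * r)
  have hη0 : η ≠ 0 := hη.ne_zero (NeZero.ne _)
  have hηr : η ^ r = -1 :=
    (hη.pow (NeZero.pos _) (mul_comm 2 r)).eq_neg_one_of_two_right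
  choose f₀ hf₀ using fun σ : Γℚ =>
    exists_apply_eq_zetaPow hζ hη0 σ (by rw [hηr, map_neg, map_one])
  refine ⟨f₀, ?_⟩
  intro M _ _ _ f hf
  -- the scalar case
  have scalar : ∀ g : Γℚ → ZMod r, IsTwistSelmer (r := r) A ζ g →
      ∃ j : ZMod r, ∀ σ, g σ = f₀ σ * j := by
    intro g hg
    obtain ⟨x, hx1, hx⟩ := hg.exists_rootOfUnity hζ hA
    obtain ⟨j, -, hj⟩ := hη.eq_pow_of_pow_eq_one hx1
    refine ⟨(j : ZMod r), fun σ => zetaPow_injective hζ
      (mul_right_cancel₀ (pow_ne_zero j hη0) ?_)⟩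
    conv_lhs => rw [hj, ← hx σ, ← hj, map_pow, hf₀, mul_pow, zetaPow_pow hζ, mul_comm (j : ZMod r)]
  let b := Module.Free.chooseBasis (ZMod r) M
  have hcoord : ∀ i, IsTwistSelmer (r := r) A ζ fun σ => b.repr (f σ) i := by
    intro i
    refine ⟨fun σ τ => ?_, ?_, fun l hl hlr B hB σ hσ => ?_, ?_⟩
    · simp [hf.map_mul, smul_eq_mul]
    · obtain ⟨L, hL, h⟩ := hf.cont
      exact ⟨L, hL, fun σ hσ => by simp [h σ hσ]⟩
    · simp [hf.unramified l hl hlr B hB σ hσ]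
    · obtain ⟨s, g, v, hg, hv⟩ := hf.shape
      refine ⟨s, g, fun k => b.repr (v k) i, hg, fun σ hσ => ?_⟩
      have := hv σ hσ
      rw [AddSubgroup.mem_bot, sub_eq_zero] at this
      simp only [AddSubgroup.mem_bot]
      rw [this, sub_eq_zero, map_sum, Finsupp.finsetSum_apply]
      exact Finset.sum_congr rfl fun k _ => by rw [map_nsmul, Finsupp.smul_apply]
  choose a ha using fun i => scalar _ (hcoord i)
  refine ⟨∑ i, a i • b i, fun σ => ?_⟩
  refine (b.sum_repr (f σ)).symm.trans ?_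
  rw [Finset.smul_sum]
  exact Finset.sum_congr rfl fun i _ => by rw [ha i σ, mul_smul]

end Fermat.Agent.Mazur.Descent
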