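/-
The Selmer bound modulo the maximal ideal for classes that vanish at the level `N`.
Owner: helper39.
-/
import Fermat.Agent.Mazur.Descent.SelmerGlobal
import Fermat.Agent.Mazur.Descent.LocalKummer
import Fermat.Agent.Mazur.Descent.Cyclo
import Fermat.Agent.Mazur.Descent.LinAlg
import Fermat.Agent.Density.PlacesConj

set_option autoImplicit false

noncomputable section

open IsLocalRing

namespace Fermat.Agent.Mazur.Descent

local notation "ℚ̄" => AlgebraicClosure ℚ
local notation "Γℚ" => (AlgebraicClosure ℚ ≃ₐ[ℚ] AlgebraicClosure ℚ)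

/-- A cyclotomic character trivial on inertia at `r` is trivial. -/
theorem cycloChar_eq_one_of_inertia (r : ℕ) [Fact r.Prime] [NeZero r] (A : ValuationSubring ℚ̄)
    (hA : A.LiesOverPrime r) (h : ∀ σ ∈ A.inertiaSubgroupIn ℚ, EC.cycloChar r σ = 1) (σ : Γℚ) :
    EC.cycloChar r σ = 1 := by
  obtain ⟨L, hL, hLfix⟩ := EC.cycloChar_factors r
  have hopen : IsOpen ((EC.cycloChar r).ker : Set Γℚ) :=
    Subgroup.isOpen_mono (H₁ := L.fixingSubgroup) (fun τ hτ => hLfix τ fun x hx => hτ ⟨x, hx⟩)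
      L.fixingSubgroup_isOpen
  have htop : (EC.cycloChar r).ker = ⊤ := by
    refine Galois.eq_top_of_forall_exists_inertia_le _ hopen fun l hl => ?_
    by_cases hlr : l = r
    · subst hlr
      exact ⟨A, hA, fun τ hτ => h τ hτ⟩
    · obtain ⟨B, -, hB, -⟩ := Galois.exists_valuationSubring_isFrobeniusAt hl
      exact ⟨B, hB, fun τ hτ => EC.cycloChar_eq_one_of_mem_inertia hl
        (fun hd => hlr ((Nat.prime_dvd_prime_iff_eq hl Fact.out).mp hd)) hB hτ⟩
  rw [← MonoidHom.mem_ker, htop]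
  exact Subgroup.mem_top σ

section Coordinates

variable {O : Type} [CommRing O] [IsLocalRing O] {V : Type} [AddCommGroup V] [Module O V]

/-- The reduced `i`-th coordinate. -/
def redCoord (e : Module.Basis (Fin 2) O V) (i : Fin 2) : V →ₗ[O] ResidueField O :=
  (Algebra.linearMap O (ResidueField O)).comp (e.coord i)

theorem redCoord_self (e : Module.Basis (Fin 2) O V) (i j : Fin 2) :
    redCoord e i (e j) = if j = i then 1 else 0 := by
  simp [redCoord, Finsupp.single_apply, apply_ite (residue O)]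

theorem redCoord_eq_zero (e : Module.Basis (Fin 2) O V) (i : Fin 2) {v : V}
    (hv : v ∈ maximalIdeal O • (⊤ : Submodule O V)) : redCoord e i v = 0 := by
  refine Submodule.smul_induction_on (p := fun v => redCoord e i v = 0) hv (fun a ha w _ => ?_)
    fun x y hx hy => by rw [map_add, hx, hy, add_zero]
  rw [map_smul, Algebra.smul_def, ResidueField.algebraMap_eq,
    (residue_eq_zero_iff a).mpr ha, zero_mul]

theorem mem_of_redCoord_eq_zero (e : Module.Basis (Fin 2) O V) {v : V}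
    (h : ∀ i, redCoord e i v = 0) : v ∈ maximalIdeal O • (⊤ : Submodule O V) := by
  rw [← e.sum_repr v]
  exact sum_mem fun i _ => Submodule.smul_mem_smul ((residue_eq_zero_iff _).mp (h i))
    Submodule.mem_top

omit [IsLocalRing O] in
/-- A vector outside `𝔪 V` is, with one of the vectors of a basis, again a basis. -/
theorem exists_basis_cons (b : Module.Basis (Fin 2) O V) (x : V) (j : Fin 2)
    (hu : IsUnit (b.repr x j)) : ∃ e : Module.Basis (Fin 2) O V, e 0 = x ∧ e 1 = b (1 - j) := by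
  classical
  obtain ⟨u, hu⟩ := hu
  have hx : x = b.repr x j • b j + b.repr x (1 - j) • b (1 - j) := by
    conv_lhs => rw [← b.sum_repr x]
    rw [Fin.sum_univ_two]
    fin_cases j <;> simp [add_comm]
  have hli : LinearIndependent O ![x, b (1 - j)] := by
    rw [LinearIndependent.pair_iff]
    intro s t hst
    have h1 := congrArg (fun v => b.repr v j) hst
    have hne : (1 : Fin 2) - j ≠ j := by fin_cases j <;> decide
    simp [hne, ← hu] at h1
    subst h1
    have h2 := congrArg (fun v => b.repr v (1 - j)) hst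
    simp at h2
    exact ⟨rfl, h2⟩
  have hspan : ⊤ ≤ Submodule.span O (Set.range ![x, b (1 - j)]) := by
    have hj : b j ∈ Submodule.span O (Set.range ![x, b (1 - j)]) := by
      have h' : b j = (↑u⁻¹ : O) • x + (-(↑u⁻¹ * b.repr x (1 - j))) • b (1 - j) := by
        have h := congrArg ((↑u⁻¹ : O) • ·) hx
        simp only [smul_add, smul_smul, ← hu, Units.inv_mul, one_smul] at h
        rw [h, neg_smul, add_neg_cancel_right]
      rw [h']
      exact add_mem (Submodule.smul_mem _ _ (Submodule.subset_span ⟨0, rfl⟩))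
        (Submodule.smul_mem _ _ (Submodule.subset_span ⟨1, rfl⟩))
    rw [← b.span_eq, Submodule.span_le]
    rintro _ ⟨i, rfl⟩
    rcases (show i = j ∨ i = 1 - j by fin_cases i <;> fin_cases j <;> decide) with rfl | rfl
    · exact hj
    · exact Submodule.subset_span ⟨1, rfl⟩
  exact ⟨Module.Basis.mk hli hspan, by simp, by simp⟩

end Coordinates

variable {O : Type} [CommRing O] [IsDomain O] [IsDiscreteValuationRing O]
  [IsAdicComplete (IsLocalRing.maximalIdeal O) O] [Finite (IsLocalRing.ResidueField O)]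
  [CharZero O]

omit [IsAdicComplete (IsLocalRing.maximalIdeal O) O] [Finite (IsLocalRing.ResidueField O)]
  [CharZero O] in
/-- Selmer classes are closed under combinations. -/
theorem IsSelmer.sub_smul {ρ : GaloisRepAdic O} {N r : ℕ} {A : ValuationSubring ℚ̄}
    {Vp : Submodule O ρ.V} {c c' : Γℚ → ρ.V} (hc : IsSelmer ρ N r A Vp c)
    (hc' : IsSelmer ρ N r A Vp c') (a : O) : IsSelmer ρ N r A Vp fun σ => c σ - a • c' σ where
  map_mul σ τ := by
    simp only [hc.map_mul, hc'.map_mul, map_sub, map_smul, smul_add]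
    abel
  cont n := by
    obtain ⟨L, hL, h⟩ := hc.cont n
    obtain ⟨L', hL', h'⟩ := hc'.cont n
    exact ⟨L ⊔ L', IntermediateField.finiteDimensional_sup L L', fun σ hσ =>
      sub_mem (h σ fun x hx => hσ x (le_sup_left (a := L) hx))
        (Submodule.smul_mem _ a (h' σ fun x hx => hσ x (le_sup_right (a := L) hx)))⟩
  unramified l hl hlN hlr B hB σ hσ := by
    rw [hc.unramified l hl hlN hlr B hB σ hσ, hc'.unramified l hl hlN hlr B hB σ hσ, smul_zero,
      sub_zero]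
  at_r σ hσ := sub_mem (hc.at_r σ hσ) (Submodule.smul_mem _ a (hc'.at_r σ hσ))

omit [IsAdicComplete (IsLocalRing.maximalIdeal O) O] [Finite (IsLocalRing.ResidueField O)]
  [CharZero O] in
/-- The residual characters of a representation with an eigenline modulo `𝔪`. -/
theorem redCoord_apply_apply {ρ : GaloisRepAdic O} (e : Module.Basis (Fin 2) O ρ.V)
    (h : ∀ σ, redCoord e 1 (ρ.ρ σ (e 0)) = 0) (σ : Γℚ) (v : ρ.V) :
    redCoord e 1 (ρ.ρ σ v) = redCoord e 1 (ρ.ρ σ (e 1)) * redCoord e 1 v ∧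
      redCoord e 0 (ρ.ρ σ v) = redCoord e 0 (ρ.ρ σ (e 0)) * redCoord e 0 v +
        redCoord e 0 (ρ.ρ σ (e 1)) * redCoord e 1 v := by
  conv_lhs => lhs; rw [← e.sum_repr v]
  conv_rhs => lhs; rw [← e.sum_repr v]
  simp only [Fin.sum_univ_two, map_add, map_smul, Algebra.smul_def, ResidueField.algebraMap_eq, h,
    mul_zero, zero_add]
  constructor <;> simp [redCoord, mul_comm]

set_option maxHeartbeats 800000 in
theorem exists_residual_generator (N r : ℕ) [Fact r.Prime] (hN : N.Prime) (hrN : r ≠ N)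
    (ρ : GaloisRepAdic O) (hdet : ρ.DetIsCyclotomic r)
    (hunr : ∀ l : ℕ, l.Prime → l ≠ N → l ≠ r → ρ.IsUnramifiedAt l)
    (hunip : ρ.IsUnipotentOnInertiaAt N)
    (hres : ∃ x : ρ.V, x ∉ (IsLocalRing.maximalIdeal O) • (⊤ : Submodule O ρ.V) ∧
      ((∀ σ : Γℚ, ρ.ρ σ x - x ∈ (IsLocalRing.maximalIdeal O) • (⊤ : Submodule O ρ.V)) ∨
        ∀ (σ : Γℚ) (a : ℕ), (∀ μ : ℚ̄, μ ^ r = 1 → σ μ = μ ^ a) →
          ρ.ρ σ x - (a : O) • x ∈ (IsLocalRing.maximalIdeal O) • (⊤ : Submodule O ρ.V)))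
    (A : ValuationSubring ℚ̄) (hA : A.LiesOverPrime r)
    (Vp : Submodule O ρ.V) (hVp : ∃ b : Module.Basis (Fin 2) O ρ.V, Vp = O ∙ b 0)
    (hI : ∀ σ ∈ A.inertiaSubgroupIn ℚ, ∀ v : ρ.V, ρ.ρ σ v - v ∈ Vp)
    (hD : ∀ σ ∈ A.decompositionSubgroup ℚ, ∀ v ∈ Vp, ρ.ρ σ v ∈ Vp)
    (F : Γℚ) (hF : A.IsFrobeniusAt F r) (α : O) (hα : ∀ v : ρ.V, ρ.ρ F v - α • v ∈ Vp)
    (hα1 : α ≠ 1) (hα2 : α ^ 2 ≠ 1)
    (B : ValuationSubring ℚ̄) (hB : B.LiesOverPrime N) :
    ∃ f₀ : Γℚ → ρ.V, ∀ c : Γℚ → ρ.V, IsSelmer ρ N r A Vp c →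
      (∀ σ ∈ B.inertiaSubgroupIn ℚ,
        c σ ∈ (IsLocalRing.maximalIdeal O) • (⊤ : Submodule O ρ.V)) →
      ∃ a : O, ∀ σ, c σ - a • f₀ σ ∈ (IsLocalRing.maximalIdeal O) • (⊤ : Submodule O ρ.V) := by
  classical
  have := hunr
  have := hunip
  have hr : r.Prime := Fact.out
  have : NeZero r := ⟨hr.ne_zero⟩
  have : CharP (ResidueField O) r := (CharP.charP_iff_prime_eq_zero hr).2 (by
    rw [← map_natCast (residue O), residue_eq_zero_iff]; exact hdet.1)
  let _ : Algebra (ZMod r) (ResidueField O) := ZMod.algebra _ r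
  obtain ⟨b, hVpb⟩ := hVp
  obtain ⟨ζ, hζ⟩ := EC.exists_primitiveRoot_qbar r
  -- the residual cyclotomic character
  set ω : Γℚ → ResidueField O := fun σ =>
    algebraMap (ZMod r) (ResidueField O) (EC.cycloChar r σ : ZMod r) with hω
  have hωnat : ∀ σ, residue O ((EC.cycloChar r σ : ZMod r).val : O) = ω σ := fun σ => by
    rw [map_natCast, hω]
    show _ = algebraMap (ZMod r) (ResidueField O) _
    conv_rhs => rw [← ZMod.natCast_zmod_val (EC.cycloChar r σ : ZMod r)]
    rw [map_natCast]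
  -- the basis
  obtain ⟨x, hxm, hxres⟩ := hres
  obtain ⟨e, he0, hline⟩ : ∃ e : Module.Basis (Fin 2) O ρ.V, e 0 = x ∧
      ∃ i : Fin 2, ∀ v ∈ Vp, redCoord e i v = 0 := by
    by_cases h1 : IsUnit (b.repr x 1)
    · obtain ⟨e, he0, he1⟩ := exists_basis_cons b x 1 h1
      refine ⟨e, he0, 0, fun v hv => ?_⟩
      rw [hVpb] at hv
      obtain ⟨t, rfl⟩ := Submodule.mem_span_singleton.mp hv
      rw [map_smul, show b 0 = e 1 from he1.symm, redCoord_self]
      simp
    · have h0 : IsUnit (b.repr x 0) := by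
        by_contra h0
        refine hxm (mem_of_redCoord_eq_zero b fun i => (residue_eq_zero_iff _).mpr ?_)
        fin_cases i
        · exact h0
        · exact h1
      obtain ⟨e, he0, he1⟩ := exists_basis_cons b x 0 h0
      refine ⟨e, he0, 1, fun v hv => ?_⟩
      rw [hVpb] at hv
      obtain ⟨t, rfl⟩ := Submodule.mem_span_singleton.mp hv
      have h01 : redCoord e 1 (b 0) = 0 := by
        have hx : x = b.repr x 0 • b 0 + b.repr x 1 • b 1 := by
          conv_lhs => rw [← b.sum_repr x]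
          rw [Fin.sum_univ_two]
        have hx1 := congrArg (redCoord e 1) hx
        rw [map_add, map_smul, map_smul, ← he0, redCoord_self, he0,
          Algebra.smul_def (b.repr x 1), ResidueField.algebraMap_eq,
          (residue_eq_zero_iff (b.repr x 1)).mpr h1, zero_mul, add_zero,
          Algebra.smul_def] at hx1
        exact (mul_eq_zero.mp (by simpa using hx1.symm)).resolve_left
          (h0.map (algebraMap O (ResidueField O))).ne_zero
      rw [map_smul, h01, smul_zero]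
  set χ₁ : Γℚ → ResidueField O := fun σ => redCoord e 0 (ρ.ρ σ (e 0)) with hχ₁
  set χ₂ : Γℚ → ResidueField O := fun σ => redCoord e 1 (ρ.ρ σ (e 1)) with hχ₂
  -- `x` spans an invariant line, with character `1` or `ω`
  have hchar : (∀ σ, χ₁ σ = 1 ∧ redCoord e 1 (ρ.ρ σ (e 0)) = 0) ∨
      ∀ σ, χ₁ σ = ω σ ∧ redCoord e 1 (ρ.ρ σ (e 0)) = 0 := by
    rcases hxres with h | h
    · refine Or.inl fun σ => ?_
      have h' := fun i => redCoord_eq_zero e i (h σ)
      simp only [map_sub, ← he0, redCoord_self, sub_eq_zero] at h'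
      exact ⟨by simpa using h' 0, by simpa using h' 1⟩
    · refine Or.inr fun σ => ?_
      have h' := fun i => redCoord_eq_zero e i (h σ (EC.cycloChar r σ : ZMod r).val
        fun μ hμ => EC.apply_eq_pow_cycloChar r σ hμ)
      simp only [map_sub, map_smul, ← he0, redCoord_self, sub_eq_zero, Algebra.smul_def,
        ResidueField.algebraMap_eq, hωnat] at h'
      exact ⟨by simpa using h' 0, by simpa using h' 1⟩
  have h10 : ∀ σ, redCoord e 1 (ρ.ρ σ (e 0)) = 0 := fun σ =>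
    hchar.elim (fun h => (h σ).2) (fun h => (h σ).2)
  have hdetω : ∀ σ, χ₁ σ * χ₂ σ = ω σ := by
    intro σ
    have h := hdet.2 1 σ (EC.cycloChar r σ : ZMod r).val
      fun μ hμ => EC.apply_eq_pow_cycloChar r σ (by simpa using hμ)
    rw [pow_one, Ideal.mem_span_singleton] at h
    have h0 : residue O (LinearMap.det (ρ.ρ σ) - ((EC.cycloChar r σ : ZMod r).val : O)) = 0 :=
      (residue_eq_zero_iff _).mpr (Ideal.mem_of_dvd _ h hdet.1)
    rw [map_sub, hωnat, sub_eq_zero] at h0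
    rw [← h0, ← LinearMap.det_toMatrix e, Matrix.det_fin_two, map_sub, map_mul, map_mul]
    have h10' : residue O (e.repr (ρ.ρ σ (e 0)) 1) = 0 := h10 σ
    simp [LinearMap.toMatrix_apply, hχ₁, hχ₂, redCoord, h10']
  -- one character is `ω` and unramified trivially on the quotient by the line of `A`
  have hωne : ∀ {χ : Γℚ → ResidueField O}, (∀ σ, χ σ = ω σ) →
      (∀ σ ∈ A.inertiaSubgroupIn ℚ, χ σ = 1) → ∀ σ, χ σ = 1 := by
    intro χ hχ hI1 σ
    have h1 : EC.cycloChar r σ = 1 := cycloChar_eq_one_of_inertia r A hA (fun τ hτ => by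
      apply Units.ext
      refine (algebraMap (ZMod r) (ResidueField O)).injective ?_
      rw [Units.val_one, map_one]
      exact (hχ τ).symm.trans (hI1 τ hτ)) σ
    rw [hχ, hω]
    simp [h1]
  obtain ⟨i, hi⟩ := hline
  have hcase : (i = 1 ∧ (∀ σ, χ₂ σ = 1) ∧ ∀ σ, χ₁ σ = ω σ) ∨
      (i = 0 ∧ (∀ σ, χ₁ σ = 1) ∧ ∀ σ, χ₂ σ = ω σ) := by
    have hInert : ∀ σ ∈ A.inertiaSubgroupIn ℚ, ∀ v, redCoord e i (ρ.ρ σ v) = redCoord e i v :=
      fun σ hσ v => sub_eq_zero.mp ((map_sub (redCoord e i) _ _).symm.trans (hi _ (hI σ hσ v)))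
    fin_cases i
    · refine Or.inr ⟨rfl, ?_⟩
      have h1I : ∀ σ ∈ A.inertiaSubgroupIn ℚ, χ₁ σ = 1 := fun σ hσ =>
        (hInert σ hσ (e 0)).trans (by simp [redCoord_self])
      have h1 : ∀ σ, χ₁ σ = 1 := hchar.elim (fun h σ => (h σ).1)
        (fun h => hωne (fun σ => (h σ).1) h1I)
      exact ⟨h1, fun σ => by rw [← hdetω σ, h1 σ, one_mul]⟩
    · refine Or.inl ⟨rfl, ?_⟩
      have h2I : ∀ σ ∈ A.inertiaSubgroupIn ℚ, χ₂ σ = 1 := fun σ hσ =>
        (hInert σ hσ (e 1)).trans (by simp [redCoord_self])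
      have h2 : ∀ σ, χ₂ σ = 1 := hchar.elim
        (fun h => hωne (fun σ => by rw [← hdetω σ, (h σ).1, one_mul]) h2I)
        (fun h σ => by
          have h' := hdetω σ
          rw [(h σ).1] at h'
          refine mul_left_cancel₀ ?_ (h'.trans (mul_one _).symm)
          exact ((EC.cycloChar r σ).isUnit.map (algebraMap (ZMod r) (ResidueField O))).ne_zero)
      exact ⟨h2, fun σ => by rw [← hdetω σ, h2 σ, mul_one]⟩
  -- the two coordinates of a class vanishing at `B`
  have hmul : ∀ c : Γℚ → ρ.V, IsSelmer ρ N r A Vp c → ∀ σ τ,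
      redCoord e 1 (c (σ * τ)) = redCoord e 1 (c σ) + χ₂ σ * redCoord e 1 (c τ) ∧
      redCoord e 0 (c (σ * τ)) = redCoord e 0 (c σ) + (χ₁ σ * redCoord e 0 (c τ) +
        redCoord e 0 (ρ.ρ σ (e 1)) * redCoord e 1 (c τ)) := by
    intro c hc σ τ
    rw [hc.map_mul, map_add, map_add]
    obtain ⟨h1, h0⟩ := redCoord_apply_apply e h10 σ (c τ)
    exact ⟨by rw [h1], by rw [h0]⟩
  have hfin : ∀ (c : Γℚ → ρ.V), IsSelmer ρ N r A Vp c → ∀ j,
      ∃ L : IntermediateField ℚ ℚ̄, FiniteDimensional ℚ L ∧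
        ∀ σ : Γℚ, (∀ y ∈ L, σ y = y) → redCoord e j (c σ) = 0 := by
    intro c hc j
    obtain ⟨L, hL, h⟩ := hc.cont 1
    exact ⟨L, hL, fun σ hσ => redCoord_eq_zero e j (by simpa using h σ hσ)⟩
  have htriv : ∀ (c : Γℚ → ρ.V), IsSelmer ρ N r A Vp c →
      (∀ σ ∈ B.inertiaSubgroupIn ℚ, c σ ∈ maximalIdeal O • (⊤ : Submodule O ρ.V)) →
      ∀ j, (∀ σ τ, redCoord e j (c (σ * τ)) = redCoord e j (c σ) + redCoord e j (c τ)) →
      (∀ σ ∈ A.inertiaSubgroupIn ℚ, redCoord e j (c σ) = 0) → ∀ σ, redCoord e j (c σ) = 0 := by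
    intro c hc hcB j hj hjA σ
    refine eq_zero_of_unramified (fun σ => redCoord e j (c σ)) hj (hfin c hc j) (fun l hl => ?_) σ
    by_cases hlr : l = r
    · subst hlr; exact ⟨A, hA, hjA⟩
    by_cases hlN : l = N
    · subst hlN; exact ⟨B, hB, fun τ hτ => redCoord_eq_zero e j (hcB τ hτ)⟩
    obtain ⟨B', -, hB', -⟩ := Galois.exists_valuationSubring_isFrobeniusAt hl
    exact ⟨B', hB', fun τ hτ => by rw [hc.unramified l hl hlN hlr B' hB' τ hτ, map_zero]⟩
  have htwist : ∀ (c : Γℚ → ρ.V), IsSelmer ρ N r A Vp c →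
      (∀ σ ∈ B.inertiaSubgroupIn ℚ, c σ ∈ maximalIdeal O • (⊤ : Submodule O ρ.V)) →
      ∀ j, (∀ σ τ, redCoord e j (c (σ * τ)) = redCoord e j (c σ) + ω σ * redCoord e j (c τ)) →
      IsTwistSelmer (r := r) A ζ (fun σ => redCoord e j (c σ)) := by
    intro c hc hcB j hj
    refine ⟨fun σ τ => by rw [hj, Algebra.smul_def], hfin c hc j,
      fun l hl hlr B' hB' σ hσ => ?_, ?_⟩
    · by_cases hlN : l = N
      · subst hlN
        obtain ⟨a, rfl⟩ := Density.exists_smul_eq hl hB hB'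
        have hs := redCoord_eq_zero e j (hcB _ (Density.conj_inv_mem_inertiaSubgroupIn hσ))
        have hωσ : ω σ = 1 := by
          rw [hω]
          show algebraMap (ZMod r) (ResidueField O) _ = 1
          rw [EC.cycloChar_eq_one_of_mem_inertia hl
            (fun hd => hrN.symm ((Nat.prime_dvd_prime_iff_eq hl hr).mp hd)) hB' hσ,
            Units.val_one, map_one]
        have h1 := hj a (a⁻¹ * σ * a)
        rw [hs, mul_zero, add_zero, mul_assoc, mul_inv_cancel_left, hj σ a, hωσ, one_mul] at h1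
        exact add_eq_right.mp h1
      · rw [hc.unramified l hl hlN hlr B' hB' σ hσ, map_zero]
    · obtain ⟨s, f, v, hf, hv⟩ := hasUnitKummerShape_of_ordinary r ρ hdet A hA Vp ⟨b, hVpb⟩ hI hD F
        hF α hα hα1 hα2 ζ hζ c hc.toIsContCocycle hc.at_r
      refine ⟨s, f, fun i => redCoord e j (v i), hf, fun σ hσ => ?_⟩
      have h := redCoord_eq_zero e j (hv σ hσ)
      rw [map_sub, map_sum] at h
      simpa [AddSubgroup.mem_bot] using h
  -- the twisted coordinate determines the class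
  obtain ⟨j, hj0, hjtw⟩ : ∃ j : Fin 2, (∀ c : Γℚ → ρ.V, IsSelmer ρ N r A Vp c →
      (∀ σ ∈ B.inertiaSubgroupIn ℚ, c σ ∈ maximalIdeal O • (⊤ : Submodule O ρ.V)) →
      (∀ σ, redCoord e j (c σ) = 0) → ∀ σ, c σ ∈ maximalIdeal O • (⊤ : Submodule O ρ.V)) ∧
    ∀ c : Γℚ → ρ.V, IsSelmer ρ N r A Vp c →
      (∀ σ ∈ B.inertiaSubgroupIn ℚ, c σ ∈ maximalIdeal O • (⊤ : Submodule O ρ.V)) →
      IsTwistSelmer (r := r) A ζ (fun σ => redCoord e j (c σ)) := by
    rcases hcase with ⟨rfl, h2, h1⟩ | ⟨rfl, h1, h2⟩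
    · have hq : ∀ c : Γℚ → ρ.V, IsSelmer ρ N r A Vp c →
          (∀ σ ∈ B.inertiaSubgroupIn ℚ, c σ ∈ maximalIdeal O • (⊤ : Submodule O ρ.V)) →
          ∀ σ, redCoord e 1 (c σ) = 0 := fun c hc hcB =>
        htriv c hc hcB 1 (fun σ τ => by rw [(hmul c hc σ τ).1, h2, one_mul])
          fun σ hσ => hi _ (hc.at_r σ hσ)
      refine ⟨0, fun c hc hcB h0 σ => mem_of_redCoord_eq_zero e fun i => ?_, fun c hc hcB => ?_⟩
      · fin_cases i
        · exact h0 σ
        · exact hq c hc hcB σ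
      · exact htwist c hc hcB 0 fun σ τ => by
          rw [(hmul c hc σ τ).2, h1, hq c hc hcB τ, mul_zero, add_zero]
    · refine ⟨1, fun c hc hcB h0 σ => mem_of_redCoord_eq_zero e fun i => ?_, fun c hc hcB =>
        htwist c hc hcB 1 fun σ τ => by rw [(hmul c hc σ τ).1, h2]⟩
      fin_cases i
      · exact htriv c hc hcB 0 (fun σ τ => by
          rw [(hmul c hc σ τ).2, h1, h0 τ, one_mul, mul_zero, add_zero])
          (fun σ hσ => hi _ (hc.at_r σ hσ)) σ
      · exact h0 σ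
  obtain ⟨g, hg⟩ := exists_twistSelmer_generator r A hA ζ hζ
  by_cases hall : ∀ c : Γℚ → ρ.V, IsSelmer ρ N r A Vp c →
      (∀ σ ∈ B.inertiaSubgroupIn ℚ, c σ ∈ maximalIdeal O • (⊤ : Submodule O ρ.V)) →
      ∀ σ, redCoord e j (c σ) = 0
  · exact ⟨0, fun c hc hcB => ⟨0, fun σ => by simpa using hj0 c hc hcB (hall c hc hcB) σ⟩⟩
  push Not at hall
  obtain ⟨c₁, hc₁, hc₁B, σ₁, hσ₁⟩ := hall
  refine ⟨c₁, fun c hc hcB => ?_⟩
  obtain ⟨a₁, ha₁⟩ := hg (ResidueField O) _ (hjtw c₁ hc₁ hc₁B)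
  obtain ⟨a, ha⟩ := hg (ResidueField O) _ (hjtw c hc hcB)
  have ha₁0 : a₁ ≠ 0 := by
    rintro rfl
    exact hσ₁ (by simpa using ha₁ σ₁)
  obtain ⟨t, ht⟩ := residue_surjective (a * a₁⁻¹)
  refine ⟨t, hj0 _ (hc.sub_smul hc₁ t) (fun σ hσ =>
    sub_mem (hcB σ hσ) (Submodule.smul_mem _ t (hc₁B σ hσ))) fun σ => ?_⟩
  rw [map_sub, map_smul, ha, ha₁, Algebra.smul_def t, ResidueField.algebraMap_eq, ht]
  simp only [Algebra.smul_def]
  field_simp
  ring

end Fermat.Agent.Mazur.Descent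

end
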