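/-
The Selmer bound: two residual constituents `1, ω` force every Selmer cocycle to become a
coboundary after multiplication by a non-zero scalar.

The Selmer lattice needs at most two generators (one detected by evaluation at a tame generator
at `N`, one for the classes vanishing at `N`), and two independent coboundaries lie in it.
Owner: helper30.
-/
import Fermat.Agent.Mazur.Descent.SelmerLocal
import Fermat.Agent.Mazur.Descent.SelmerResidual
import Mathlib.LinearAlgebra.Dimension.Constructions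

set_option autoImplicit false

noncomputable section

namespace Fermat.Agent.Mazur.Descent

open IsLocalRing

local notation "ℚ̄" => AlgebraicClosure ℚ
local notation "Γℚ" => (AlgebraicClosure ℚ ≃ₐ[ℚ] AlgebraicClosure ℚ)

variable {O : Type} [CommRing O] [IsDomain O] [IsDiscreteValuationRing O]

theorem mem_pow_smul_top_iff {ϖ : O} (hϖ : Irreducible ϖ) {V : Type} [AddCommGroup V] [Module O V]
    (n : ℕ) (v : V) :
    v ∈ (maximalIdeal O ^ n) • (⊤ : Submodule O V) ↔ ∃ w, v = ϖ ^ n • w := by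
  rw [Irreducible.maximalIdeal_eq hϖ, Ideal.span_singleton_pow, Submodule.ideal_span_singleton_smul]
  constructor
  · intro h
    obtain ⟨w, -, hw⟩ := Submodule.mem_smul_pointwise_iff_exists v _ _ |>.mp h
    exact ⟨w, hw.symm⟩
  · rintro ⟨w, rfl⟩
    exact Submodule.smul_mem_pointwise_smul w _ _ Submodule.mem_top

theorem mem_smul_top_iff_exists {ϖ : O} (hϖ : Irreducible ϖ) {V : Type} [AddCommGroup V]
    [Module O V] (v : V) :
    v ∈ (maximalIdeal O) • (⊤ : Submodule O V) ↔ ∃ w, v = ϖ • w := by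
  have := mem_pow_smul_top_iff hϖ 1 v
  simpa using this

/-- The vanishing of a fixed vector. -/
theorem eq_zero_of_fixed [CharZero O] {r : ℕ} [Fact r.Prime] {ρ : GaloisRepAdic O}
    (hdet : ρ.DetIsCyclotomic r)
    (A : ValuationSubring ℚ̄) (hA : A.LiesOverPrime r) (b : Module.Basis (Fin 2) O ρ.V)
    (hI : ∀ σ ∈ A.inertiaSubgroupIn ℚ, ∀ v : ρ.V, ρ.ρ σ v - v ∈ O ∙ b 0)
    (F : Γℚ) (α : O) (hα : ∀ v : ρ.V, ρ.ρ F v - α • v ∈ O ∙ b 0) (hα1 : α ≠ 1)
    {v : ρ.V} (hv : ∀ σ, ρ.ρ σ v = v) : v = 0 := by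
  have h1 := hα v
  rw [hv F, Submodule.mem_span_singleton] at h1
  obtain ⟨s, hs⟩ := h1
  have hs1 := congrArg (fun y => b.repr y 1) hs
  simp only [map_smul, map_sub, Finsupp.coe_smul, Finsupp.coe_sub, Pi.smul_apply, Pi.sub_apply,
    smul_eq_mul, Module.Basis.repr_self, Finsupp.single_apply] at hs1
  have hv1 : b.repr v 1 = 0 := by
    have h2 : (1 - α) * b.repr v 1 = 0 := by
      rw [sub_mul, one_mul]; simpa using hs1.symm
    exact (mul_eq_zero.mp h2).resolve_left (sub_ne_zero.mpr hα1.symm)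
  by_contra hv0
  obtain ⟨σ, hσ, hσ1⟩ := exists_mem_inertia_det_ne_one hdet A hA
  apply hσ1
  have hvb : v = b.repr v 0 • b 0 := by
    have hsum := b.sum_repr v
    rw [Fin.sum_univ_two, hv1, zero_smul, add_zero] at hsum
    exact hsum.symm
  have hb0 : ρ.ρ σ (b 0) = b 0 := by
    have h := hv σ
    rw [hvb, map_smul, ← sub_eq_zero, ← smul_sub] at h
    refine sub_eq_zero.mp ((smul_eq_zero.mp h).resolve_left fun h0 => hv0 ?_)
    rw [hvb, h0, zero_smul]
  obtain ⟨u, hu⟩ := Submodule.mem_span_singleton.mp (hI σ hσ (b 1))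
  have hb1 : ρ.ρ σ (b 1) = u • b 0 + b 1 := by rw [hu, sub_add_cancel]
  rw [← LinearMap.det_toMatrix b, Matrix.det_fin_two]
  simp [LinearMap.toMatrix_apply, hb0, hb1]

variable [IsAdicComplete (maximalIdeal O) O] [Finite (ResidueField O)] [CharZero O]

theorem exists_smul_eq_coboundary (N r : ℕ) [Fact r.Prime] (hN : N.Prime) (hrN : r ≠ N)
    (ρ : GaloisRepAdic O) (hdet : ρ.DetIsCyclotomic r)
    (hunr : ∀ l : ℕ, l.Prime → l ≠ N → l ≠ r → ρ.IsUnramifiedAt l)
    (hunip : ρ.IsUnipotentOnInertiaAt N)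
    (hres : ∃ x : ρ.V, x ∉ (IsLocalRing.maximalIdeal O) • (⊤ : Submodule O ρ.V) ∧
      ((∀ σ : Γℚ, ρ.ρ σ x - x ∈ (IsLocalRing.maximalIdeal O) • (⊤ : Submodule O ρ.V)) ∨
        ∀ (σ : Γℚ) (a : ℕ), (∀ μ : ℚ̄, μ ^ r = 1 → σ μ = μ ^ a) →
          ρ.ρ σ x - (a : O) • x ∈ (IsLocalRing.maximalIdeal O) • (⊤ : Submodule O ρ.V)))
    (A : ValuationSubring ℚ̄) (hA : A.LiesOverPrime r)
    (Vp : Submodule O ρ.V) (hVp : ∃ b : Module.Basis (Fin 2) O ρ.V, Vp = O ∙ b 0)
    (hI : ∀ σ ∈ A.inertiaSubgroupIn ℚ, ∀ v : ρ.V, ρ.ρ σ v - v ∈ Vp)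
    (hD : ∀ σ ∈ A.decompositionSubgroup ℚ, ∀ v ∈ Vp, ρ.ρ σ v ∈ Vp)
    (F : Γℚ) (hF : A.IsFrobeniusAt F r) (α : O) (hα : ∀ v : ρ.V, ρ.ρ F v - α • v ∈ Vp)
    (hα1 : α ≠ 1) (hα2 : α ^ 2 ≠ 1)
    (c : Γℚ → ρ.V) (hc : IsSelmer ρ N r A Vp c) :
    ∃ (a : O) (v : ρ.V), a ≠ 0 ∧ ∀ σ, a • c σ = coboundary ρ v σ := by
  classical
  obtain ⟨B, -, hB, -⟩ := Galois.exists_valuationSubring_isFrobeniusAt hN
  obtain ⟨τ, hτ, g₀, hev⟩ := exists_tame_evaluation N r hN hrN ρ hdet hunip B hB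
  obtain ⟨f₀, hres0⟩ := exists_residual_generator N r hN hrN ρ hdet hunr hunip hres A hA Vp hVp
    hI hD F hF α hα hα1 hα2 B hB
  obtain ⟨b, rfl⟩ := hVp
  obtain ⟨ϖ, hϖ⟩ := IsDiscreteValuationRing.exists_irreducible O
  set mV := (maximalIdeal O) • (⊤ : Submodule O ρ.V) with hmV
  let IsSel : (Γℚ → ρ.V) → Prop := IsSelmer ρ N r A (O ∙ b 0)
  have hzero : IsSel 0 :=
    { map_mul := fun σ τ => by simp
      cont := fun n => ⟨⊥, inferInstance, fun σ _ => Submodule.zero_mem _⟩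
      unramified := fun _ _ _ _ _ _ _ _ => rfl
      at_r := fun σ _ => Submodule.zero_mem _ }
  have hsub : ∀ {c d : Γℚ → ρ.V} (x : O), IsSel c → IsSel d → IsSel (c - x • d) := by
    intro c d x hc hd
    refine ⟨⟨fun σ τ => ?_, fun n => ?_⟩, fun l hl h1 h2 B hB σ hσ => ?_, fun σ hσ => ?_⟩
    · simp only [Pi.sub_apply, Pi.smul_apply, hc.map_mul, hd.map_mul, map_sub, map_smul, smul_add]
      abel
    · obtain ⟨L, hL, hLc⟩ := hc.cont n
      obtain ⟨L', hL', hLd⟩ := hd.cont n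
      exact ⟨L ⊔ L', IntermediateField.finiteDimensional_sup L L', fun σ hσ =>
        Submodule.sub_mem _ (hLc σ fun y hy => hσ y (le_sup_left (b := L') hy))
          (Submodule.smul_mem _ x (hLd σ fun y hy => hσ y (le_sup_right (a := L) hy)))⟩
    · simp only [Pi.sub_apply, Pi.smul_apply, hc.unramified l hl h1 h2 B hB σ hσ,
        hd.unramified l hl h1 h2 B hB σ hσ, smul_zero, sub_zero]
    · exact Submodule.sub_mem _ (hc.at_r σ hσ) (Submodule.smul_mem _ x (hd.at_r σ hσ))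
  have hcob : ∀ v : ρ.V, IsSel (coboundary ρ v) := by
    intro v
    refine ⟨⟨fun σ τ => ?_, fun n => ?_⟩, fun l hl h1 h2 B hB σ hσ => ?_, fun σ hσ => hI σ hσ v⟩
    · simp only [coboundary, map_mul, Module.End.mul_apply, map_sub]
      abel
    · obtain ⟨L, hL, hLfix⟩ := ρ.isAdicContinuous n
      exact ⟨L, hL, fun σ hσ => hLfix σ hσ v⟩
    · simp [coboundary, hunr l hl h1 h2 B hB σ hσ]
  have hdiv : ∀ c, IsSel c → (∀ σ, c σ ∈ mV) → ∃ c', IsSel c' ∧ ∀ σ, c σ = ϖ • c' σ := by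
    intro c hc hm
    choose c' hc' using fun σ => (mem_smul_top_iff_exists hϖ (c σ)).mp (hm σ)
    have hinj : Function.Injective fun v : ρ.V => ϖ • v := smul_right_injective ρ.V hϖ.ne_zero
    refine ⟨c', ⟨⟨fun σ τ => hinj ?_, fun n => ?_⟩, fun l hl h1 h2 B hB σ hσ => hinj ?_,
      fun σ hσ => ?_⟩, hc'⟩
    · show ϖ • c' (σ * τ) = ϖ • (c' σ + ρ.ρ σ (c' τ))
      rw [smul_add, ← map_smul, ← hc', ← hc', ← hc', hc.map_mul]
    · obtain ⟨L, hL, hLc⟩ := hc.cont (n + 1)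
      refine ⟨L, hL, fun σ hσ => ?_⟩
      obtain ⟨w, hw⟩ := (mem_pow_smul_top_iff hϖ (n + 1) _).mp (hLc σ hσ)
      refine (mem_pow_smul_top_iff hϖ n _).mpr ⟨w, hinj ?_⟩
      show ϖ • c' σ = ϖ • (ϖ ^ n • w)
      rw [← hc', hw, smul_smul, ← pow_succ']
    · show ϖ • c' σ = ϖ • 0
      rw [← hc', smul_zero, hc.unramified l hl h1 h2 B hB σ hσ]
    · obtain ⟨s, hs⟩ := Submodule.mem_span_singleton.mp (hc.at_r σ hσ)
      rw [hc' σ] at hs
      refine Submodule.mem_span_singleton.mpr ⟨b.repr (c' σ) 0, ?_⟩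
      have h1 : b.repr (c' σ) 1 = 0 := by
        have h := congrArg (fun y => b.repr y 1) hs
        simpa [hϖ.ne_zero, eq_comm] using h
      conv_rhs => rw [← b.sum_repr (c' σ), Fin.sum_univ_two, h1, zero_smul, add_zero]
  -- two generators modulo the maximal ideal
  obtain ⟨s₁, hs₁, hgen1⟩ : ∃ s, IsSel s ∧ ∀ c, IsSel c → ∃ x : O, c τ - x • s τ ∈ mV := by
    by_cases hex : ∃ c, IsSel c ∧ c τ ∉ mV
    · obtain ⟨c₁, hc₁, hc₁τ⟩ := hex
      obtain ⟨u, hu⟩ := (hev c₁ hc₁.toIsContCocycle).1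
      have huu : IsUnit u := by
        by_contra hnu
        refine hc₁τ ?_
        have := Submodule.add_mem _ hu (Submodule.smul_mem_smul
          (show u ∈ maximalIdeal O from hnu) (Submodule.mem_top (x := g₀)))
        rwa [sub_add_cancel] at this
      refine ⟨c₁, hc₁, fun c hc => ?_⟩
      obtain ⟨x, hx⟩ := (hev c hc.toIsContCocycle).1
      refine ⟨x * ↑huu.unit⁻¹, ?_⟩
      have := Submodule.sub_mem _ hx (Submodule.smul_mem _ (x * ↑huu.unit⁻¹) hu)
      rw [smul_sub, smul_smul, mul_assoc, IsUnit.val_inv_mul, mul_one] at this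
      convert this using 1
      abel
    · push Not at hex
      exact ⟨0, hzero, fun c hc => ⟨0, by simpa using hex c hc⟩⟩
  obtain ⟨s₂, hs₂, hgen2⟩ : ∃ s, IsSel s ∧ ∀ c, IsSel c → c τ ∈ mV →
      ∃ x : O, ∀ σ, c σ - x • s σ ∈ mV := by
    have hf : ∀ c, IsSel c → c τ ∈ mV → ∃ x : O, ∀ σ, c σ - x • f₀ σ ∈ mV := fun c hc hcτ =>
      hres0 c hc ((hev c hc.toIsContCocycle).2 hcτ)
    by_cases hex : ∃ c, IsSel c ∧ c τ ∈ mV ∧ ∃ σ, c σ ∉ mV
    · obtain ⟨c₂, hc₂, hc₂τ, σ₀, hσ₀⟩ := hex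
      obtain ⟨u, hu⟩ := hf c₂ hc₂ hc₂τ
      have huu : IsUnit u := by
        by_contra hnu
        refine hσ₀ ?_
        have := Submodule.add_mem _ (hu σ₀) (Submodule.smul_mem_smul
          (show u ∈ maximalIdeal O from hnu) (Submodule.mem_top (x := f₀ σ₀)))
        rwa [sub_add_cancel] at this
      refine ⟨c₂, hc₂, fun c hc hcτ => ?_⟩
      obtain ⟨x, hx⟩ := hf c hc hcτ
      refine ⟨x * ↑huu.unit⁻¹, fun σ => ?_⟩
      have := Submodule.sub_mem _ (hx σ) (Submodule.smul_mem _ (x * ↑huu.unit⁻¹) (hu σ))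
      rw [smul_sub, smul_smul, mul_assoc, IsUnit.val_inv_mul, mul_one] at this
      convert this using 1
      abel
    · push Not at hex
      exact ⟨0, hzero, fun c hc hcτ => ⟨0, fun σ => by simpa using hex c hc hcτ σ⟩⟩
  have hstep : ∀ c : {c // IsSel c}, ∃ (x y : O) (c' : {c // IsSel c}),
      ∀ σ, c.1 σ = x • s₁ σ + y • s₂ σ + ϖ • c'.1 σ := by
    rintro ⟨c, hc⟩
    obtain ⟨x, hx⟩ := hgen1 c hc
    obtain ⟨y, hy⟩ := hgen2 _ (hsub x hc hs₁) hx
    obtain ⟨c', hc', hcc'⟩ := hdiv _ (hsub y (hsub x hc hs₁) hs₂) hy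
    refine ⟨x, y, ⟨c', hc'⟩, fun σ => ?_⟩
    have := hcc' σ
    simp only [Pi.sub_apply, Pi.smul_apply] at this
    rw [← this]
    abel
  choose xs ys nxt hnxt using hstep
  -- every class is a combination of the two generators
  have hspan : ∀ c, IsSel c → ∃ P : O × O, ∀ σ, c σ = P.1 • s₁ σ + P.2 • s₂ σ := by
    intro c hc
    let seq : ℕ → {c // IsSel c} := fun n => nxt^[n] ⟨c, hc⟩
    let Ax : ℕ → O := fun n => ∑ i ∈ Finset.range n, ϖ ^ i * xs (seq i)
    let Ay : ℕ → O := fun n => ∑ i ∈ Finset.range n, ϖ ^ i * ys (seq i)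
    have happ : ∀ n σ, c σ = Ax n • s₁ σ + Ay n • s₂ σ + ϖ ^ n • (seq n).1 σ := by
      intro n
      induction n with
      | zero => intro σ; simp [Ax, Ay, seq]
      | succ n ih =>
        intro σ
        have h1 : seq (n + 1) = nxt (seq n) := by
          simp only [seq, Function.iterate_succ_apply']
        rw [ih σ, hnxt (seq n) σ, h1]
        simp only [Ax, Ay, Finset.sum_range_succ, add_smul, smul_add, smul_smul, pow_succ]
        abel
    have hlim : ∀ z : ℕ → O, ∃ L : O, ∀ n,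
        (∑ i ∈ Finset.range n, ϖ ^ i * z i) - L ∈ maximalIdeal O ^ n := by
      intro z
      obtain ⟨L, hL⟩ := IsPrecomplete.prec' (I := maximalIdeal O)
        (fun n => ∑ i ∈ Finset.range n, ϖ ^ i * z i) (fun {m n} hmn => by
          rw [SModEq.sub_mem, smul_eq_mul, Ideal.mul_top, ← neg_mem_iff, neg_sub,
            ← Finset.sum_Ico_eq_sub _ hmn]
          refine Ideal.sum_mem _ fun i hi => Ideal.mul_mem_right _ _ (Ideal.pow_le_pow_right
            (Finset.mem_Ico.mp hi).1 (Ideal.pow_mem_pow ?_ i))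
          rw [Irreducible.maximalIdeal_eq hϖ]
          exact Ideal.mem_span_singleton_self ϖ)
      exact ⟨L, fun n => by simpa [SModEq.sub_mem, Ideal.mul_top] using hL n⟩
    obtain ⟨Lx, hLx⟩ := hlim fun i => xs (seq i)
    obtain ⟨Ly, hLy⟩ := hlim fun i => ys (seq i)
    refine ⟨(Lx, Ly), fun σ => sub_eq_zero.mp (b.ext_elem fun i => ?_)⟩
    rw [map_zero, Finsupp.zero_apply]
    refine IsHausdorff.haus' (I := maximalIdeal O) _ fun n => ?_
    rw [SModEq.zero, smul_eq_mul, Ideal.mul_top]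
    have heq : c σ - (Lx • s₁ σ + Ly • s₂ σ) =
        (Ax n - Lx) • s₁ σ + (Ay n - Ly) • s₂ σ + ϖ ^ n • (seq n).1 σ := by
      rw [happ n σ, sub_smul, sub_smul]
      abel
    rw [heq]
    simp only [map_add, map_smul, Finsupp.coe_add, Finsupp.coe_smul, Pi.add_apply, Pi.smul_apply,
      smul_eq_mul]
    refine Ideal.add_mem _ (Ideal.add_mem _ (Ideal.mul_mem_right _ _ (hLx n))
      (Ideal.mul_mem_right _ _ (hLy n))) (Ideal.mul_mem_right _ _ ?_)
    rw [Irreducible.maximalIdeal_eq hϖ]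
    exact Ideal.pow_mem_pow (Ideal.mem_span_singleton_self ϖ) n
  obtain ⟨P₀, hP₀⟩ := hspan c hc
  obtain ⟨P₁, hP₁⟩ := hspan _ (hcob (b 0))
  obtain ⟨P₂, hP₂⟩ := hspan _ (hcob (b 1))
  have hdep : ¬ LinearIndependent O ![P₀, P₁, P₂] := fun h => by
    have := h.fintype_card_le_finrank
    simp [Module.finrank_prod] at this
  obtain ⟨g, hg, i, hi⟩ := Fintype.not_linearIndependent_iff.mp hdep
  simp only [Fin.sum_univ_three, Matrix.cons_val_zero, Matrix.cons_val_one, Matrix.cons_val] at hg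
  have key : ∀ σ, g 0 • c σ = coboundary ρ (-(g 1 • b 0 + g 2 • b 1)) σ := by
    intro σ
    have h : g 0 • c σ + g 1 • coboundary ρ (b 0) σ + g 2 • coboundary ρ (b 1) σ = 0 := by
      rw [hP₀, hP₁, hP₂]
      have h1 := congrArg Prod.fst hg
      have h2 := congrArg Prod.snd hg
      simp only [Prod.fst_add, Prod.snd_add, Prod.smul_fst, Prod.smul_snd, smul_eq_mul,
        Prod.fst_zero, Prod.snd_zero] at h1 h2
      simp only [smul_add, smul_smul]
      calc _ = (g 0 * P₀.1 + g 1 * P₁.1 + g 2 * P₂.1) • s₁ σ +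
            (g 0 * P₀.2 + g 1 * P₁.2 + g 2 * P₂.2) • s₂ σ := by
              simp only [add_smul]; abel
        _ = 0 := by rw [h1, h2, zero_smul, zero_smul, add_zero]
    simp only [coboundary, map_neg, map_add, map_smul, smul_sub] at h ⊢
    rw [← sub_eq_zero, ← h]
    abel
  refine ⟨g 0, _, fun h0 => hi ?_, key⟩
  have hfix : -(g 1 • b 0 + g 2 • b 1) = 0 :=
    eq_zero_of_fixed hdet A hA b hI F α hα hα1 fun σ => by
      have := key σ
      rw [h0, zero_smul, coboundary] at this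
      exact sub_eq_zero.mp this.symm
  rw [neg_eq_zero] at hfix
  have h1 := congrArg (fun y => b.repr y 0) hfix
  have h2 := congrArg (fun y => b.repr y 1) hfix
  simp at h1 h2
  fin_cases i
  · exact h0
  · exact h1
  · exact h2

end Fermat.Agent.Mazur.Descent
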