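import Fermat.Agent.Mazur.Immersion.Regular

/-!
# The cuspidal divisor class of `J₀(p)`

For prime `p` the function `u = Δ(τ)/Δ(pτ)` has divisor `(p - 1) ((0) - (∞))`, so the class
`cuspClass p` of `(0) - (∞)` is killed by `p - 1`; it is fixed by the Galois group.
-/

set_option autoImplicit false
set_option synthInstance.maxHeartbeats 400000

noncomputable section

open ModularCurve AlgebraicCurve UpperHalfPlane
open scoped IntermediateField MatrixGroups

namespace Fermat.Agent.Mazur.Descent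

open Fermat.Agent.Modular Fermat.Agent.Mazur.Immersion

local notation "ιC" => Fermat.Agent.Reduction.qbarToComplex
local notation "Qb" => AlgebraicClosure ℚ
local notation "Γℚ" => (AlgebraicClosure ℚ ≃ₐ[ℚ] AlgebraicClosure ℚ)

variable (p : ℕ) [NeZero p]

theorem uBar_ne_zero : uBar p ≠ 0 := fun h =>
  (hasLead_uSeries p Qb).ne_zero one_ne_zero (congrArg Subtype.val h)

theorem uHol_ne_zero (τ : ℍ) : (uHol p : ℍ → ℂ) τ ≠ 0 :=
  div_ne_zero (ModularForm.discriminant_ne_zero _) (ModularForm.discriminant_ne_zero _)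

/-- `Δ(pτ)/Δ(τ)` on the upper half plane. -/
def uInvHol : Hol :=
  ⟨fun τ => ((uHol p : ℍ → ℂ) τ)⁻¹, (((HasQExp.one (1 : ℝ)).div (hasQExp_uHol p) one_pos
    (uHol_ne_zero p)).congr fun τ => by simp).mdifferentiable one_pos⟩

theorem hasQExp_uInvHol :
    HasQExp 1 (uInvHol p : ℍ → ℂ)
      (coeffMap ιC (((uBar p)⁻¹ : modularFunctionFieldBar p) : LaurentSeries Qb)) := by
  rw [show (((uBar p)⁻¹ : modularFunctionFieldBar p) : LaurentSeries Qb) =
    (uBar p : LaurentSeries Qb)⁻¹ from rfl, map_inv₀, ← one_div]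
  exact ((HasQExp.one (1 : ℝ)).div (hasQExp_uBar p) one_pos (uHol_ne_zero p)).congr
    fun τ => by simp [uInvHol]

theorem smul_uInvHol {g : SL(2, ℤ)} (hg : g ∈ CongruenceSubgroup.Gamma0 p) :
    g • uInvHol p = uInvHol p := by
  refine Subtype.ext (funext fun τ => ?_)
  have h := congrArg (fun F : Hol => (F : ℍ → ℂ) τ) (smul_uHol p hg)
  simp only [smul_hol_apply] at h ⊢
  exact congrArg (·⁻¹) h

variable [Fact p.Prime]

theorem exists_hasQExp_uInvHol_all (g : SL(2, ℤ)) :
    ∃ x : LaurentSeries ℂ, HasQExp (p : ℝ) ((g • uInvHol p : Hol) : ℍ → ℂ) x := by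
  obtain ⟨x, hx⟩ := exists_hasQExp_uHol_all p g
  refine ⟨1 / x, ((HasQExp.one (p : ℝ)).div hx (by exact_mod_cast NeZero.pos p) fun τ => ?_).congr
    fun τ => ?_⟩
  · rw [smul_hol_apply]; exact uHol_ne_zero p _
  · rw [smul_hol_apply]; simp [uInvHol, smul_hol_apply]

theorem ord_uBar_eq_zero {Q : Place Qb (modularFunctionFieldBar p)} (hQ : 0 ≤ Q.ord (jBar p)) :
    Q.ord (uBar p) = 0 := by
  refine le_antisymm ?_ ?_
  · have h := (placeOrd_nonneg_iff Q (inv_ne_zero (uBar_ne_zero p))).2
      (mem_of_ord_jBar_nonneg p (hasQExp_uInvHol p) (fun _ => smul_uInvHol p)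
        (exists_hasQExp_uInvHol_all p) hQ)
    rw [Q.ord_inv] at h
    omega
  · exact (placeOrd_nonneg_iff Q (uBar_ne_zero p)).2
      (mem_of_ord_jBar_nonneg p (hasQExp_uBar p) (fun _ => smul_uHol p)
        (exists_hasQExp_uHol_all p) hQ)

omit [Fact p.Prime] in
theorem ord_cuspInfty_uBar : (cuspInfty p).ord (uBar p) = 1 - (p : ℤ) := by
  rw [cuspInfty, EichlerShimura.ord_cuspPlace _ (uBar_ne_zero p)]
  exact (hasLead_uSeries p Qb).order_eq one_ne_zero

omit [Fact p.Prime] in
theorem ord_cuspInfty_jBar : (cuspInfty p).ord (jBar p) = -1 := by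
  have hj : jBar p ≠ 0 := fun h =>
    (Igusa.hasLead_jqModC (R := Qb)).ne_zero one_ne_zero
      ((coe_jBar p).symm.trans (congrArg Subtype.val h))
  rw [cuspInfty, EichlerShimura.ord_cuspPlace _ hj, coe_jBar,
    (Igusa.hasLead_jqModC (R := Qb)).order_eq one_ne_zero]

theorem natCard_infinity : Nat.card {P : Place Qb (modularFunctionFieldBar p) //
    P.ord (jBar p) < 0} = 2 := by
  have hp : p.Prime := Fact.out
  let _ : Fintype (SL(2, ℤ) ⧸ CongruenceSubgroup.Gamma0 p) := Fintype.ofFinite _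
  rw [show jBar p = jL p Qb from rfl,
    natCard_places_infinity_FL p ιC (sigmaCoset_injective p ιC) (transcendental_jL p ιC)
      (by rw [finrank_FL p ιC, Nat.card_eq_fintype_card, card_cosets]),
    cuspCount, hp.divisors, Finset.sum_pair hp.one_lt.ne, Nat.div_self hp.pos, Nat.div_one]
  simp

/-- The divisor of `u` is supported at two places. -/
theorem exists_cuspZero : ∃ P : Place Qb (modularFunctionFieldBar p), P ≠ cuspInfty p ∧
    P.ord (uBar p) = (p : ℤ) - 1 ∧
      ∀ Q, Q ≠ P → Q ≠ cuspInfty p → Q.ord (uBar p) = 0 := by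
  classical
  obtain ⟨a, b, hab, huniv⟩ := Nat.card_eq_two_iff.1 (natCard_infinity p)
  obtain ⟨P, hP, hPne⟩ : ∃ P, P.ord (jBar p) < 0 ∧ P ≠ cuspInfty p := by
    by_cases h : a.1 = cuspInfty p
    · exact ⟨b, b.2, fun hb => hab (Subtype.ext (h.trans hb.symm))⟩
    · exact ⟨a, a.2, h⟩
  have hother : ∀ Q, Q ≠ P → Q ≠ cuspInfty p → Q.ord (uBar p) = 0 := by
    intro Q hQP hQi
    refine ord_uBar_eq_zero p (le_of_not_gt fun hQ => ?_)
    have hi : (cuspInfty p).ord (jBar p) < 0 := by rw [ord_cuspInfty_jBar]; norm_num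
    have hmem : ∀ R : {R : Place Qb (modularFunctionFieldBar p) // R.ord (jBar p) < 0},
        R = a ∨ R = b := fun R => by
      have := Set.eq_univ_iff_forall.1 huniv R
      simpa using this
    rcases hmem ⟨Q, hQ⟩ with h1 | h1 <;> rcases hmem ⟨P, hP⟩ with h2 | h2 <;>
      rcases hmem ⟨_, hi⟩ with h3 | h3
    all_goals first
      | exact hQP (congrArg Subtype.val (h1.trans h2.symm))
      | exact hQi (congrArg Subtype.val (h1.trans h3.symm))
      | exact hPne (congrArg Subtype.val (h2.trans h3.symm))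
  refine ⟨P, hPne, ?_, hother⟩
  obtain ⟨D, hD, hdeg⟩ :=
    (inferInstance : HasPrincipalDivisors Qb (modularFunctionFieldBar p)).exists_divisor _
      (uBar_ne_zero p)
  have hDeq : D = Finsupp.single P (P.ord (uBar p)) +
      Finsupp.single (cuspInfty p) (1 - (p : ℤ)) := by
    ext Q
    rw [hD, Finsupp.add_apply]
    by_cases h1 : Q = P
    · subst h1; simp [hPne]
    by_cases h2 : Q = cuspInfty p
    · subst h2; simp [hPne.symm, ord_cuspInfty_uBar]
    simp [h1, h2, hother Q h1 h2]
  rw [hDeq, map_add, Divisor.degree_single, Divisor.degree_single, Curve.deg_eq_one,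
    Curve.deg_eq_one] at hdeg
  simp at hdeg
  linarith

/-- The cusp `0`. -/
def cuspZero : Place Qb (modularFunctionFieldBar p) := (exists_cuspZero p).choose

theorem cuspZero_ne : cuspZero p ≠ cuspInfty p := (exists_cuspZero p).choose_spec.1

theorem ord_cuspZero_uBar : (cuspZero p).ord (uBar p) = (p : ℤ) - 1 :=
  (exists_cuspZero p).choose_spec.2.1

/-- The divisor `(0) - (∞)`. -/
def cuspDiv : Divisor.degZero (K := Qb) (F := modularFunctionFieldBar p) :=
  ⟨Finsupp.single (cuspZero p) 1 - Finsupp.single (cuspInfty p) 1, by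
    rw [Divisor.mem_degZero, map_sub, Divisor.degree_single, Divisor.degree_single,
      Curve.deg_eq_one, Curve.deg_eq_one, sub_self]⟩

/-- The class of `(0) - (∞)`. -/
def cuspClass : JZero p := Pic0.mk (cuspDiv p)

theorem ord_uBar (Q : Place Qb (modularFunctionFieldBar p)) :
    Q.ord (uBar p) = (((p - 1 : ℕ) • (cuspDiv p : Divisor Qb (modularFunctionFieldBar p))) :
      Divisor Qb (modularFunctionFieldBar p)) Q := by
  classical
  have hp : ((p - 1 : ℕ) : ℤ) = (p : ℤ) - 1 := by have := NeZero.pos p; omega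
  rw [Finsupp.smul_apply, nsmul_eq_mul, hp,
    show (cuspDiv p : Divisor Qb (modularFunctionFieldBar p)) =
      Finsupp.single (cuspZero p) 1 - Finsupp.single (cuspInfty p) 1 from rfl, Finsupp.sub_apply]
  by_cases h1 : Q = cuspZero p
  · subst h1; simp [cuspZero_ne p, ord_cuspZero_uBar]
  by_cases h2 : Q = cuspInfty p
  · subst h2; simp [(cuspZero_ne p).symm, ord_cuspInfty_uBar]
  simp [h1, h2,
    (exists_cuspZero p).choose_spec.2.2 Q h1 h2]

theorem nsmul_cuspClass : (p - 1) • cuspClass p = 0 := by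
  refine (QuotientAddGroup.eq_zero_iff ((p - 1) • cuspDiv p)).2 ?_
  rw [AddSubgroup.mem_addSubgroupOf]
  exact ⟨uBar p, uBar_ne_zero p, fun Q => (ord_uBar p Q).symm⟩

omit [Fact p.Prime] in
theorem smul_uBar (σ : Γℚ) :
    arithmeticGalois (modularFunctionFieldFull p) σ • uBar p = uBar p := by
  refine Subtype.ext ?_
  rw [coe_arithmeticGalois_smul]
  exact coeffMap_uSeries p _

theorem smul_cuspZero (σ : Γℚ) :
    arithmeticGalois (modularFunctionFieldFull p) σ • cuspZero p = cuspZero p := by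
  set g := arithmeticGalois (modularFunctionFieldFull p) σ
  have hne : g • cuspZero p ≠ cuspInfty p := fun h => cuspZero_ne p
    (MulAction.injective g (h.trans (EichlerShimura.smul_cuspPlace _ σ).symm))
  by_contra h
  have h0 := (exists_cuspZero p).choose_spec.2.2 _ h hne
  conv at h0 => lhs; arg 2; rw [← smul_uBar p σ]
  rw [SemilinearAut.ord_smul, ord_cuspZero_uBar] at h0
  have := (Fact.out : p.Prime).two_le
  omega

theorem galois_smul_cuspClass (σ : Γℚ) : σ • cuspClass p = cuspClass p := by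
  rw [cuspClass, galois_smul_pic0_def, SemilinearAut.pic0_smul_mk]
  refine congrArg Pic0.mk (Subtype.ext ?_)
  rw [SemilinearAut.coe_degZeroSMulHom]
  show arithmeticGalois (modularFunctionFieldFull p) σ •
    (Finsupp.single (cuspZero p) (1 : ℤ) - Finsupp.single (cuspInfty p) 1) = _
  rw [smul_sub, SemilinearAut.smul_single, SemilinearAut.smul_single, smul_cuspZero,
    EichlerShimura.smul_cuspPlace]
  rfl

end Fermat.Agent.Mazur.Descent

end
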